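/-
S43lib / B3 / TameA (helper4): norm forms of the relative inertia and Frobenius conditions in
`Γ = Gal(ℚ̄_q/ℚ_q)`, and **the absolute inertia group surjects onto every relative inertia group**:
`inertiaK L ≤ I₀ ⊔ Γ_L`, `I₀ = Gal(ℚ̄_q/ℚ_q^{nr})`.
-/
import Mathlib
import Fermat.Agent.S56lib.PT9a.TameStruct
import Fermat.Agent.S55lib.Iface.RamBridge

set_option autoImplicit false
set_option linter.unusedSectionVars false
set_option linter.style.haveILetI false

open scoped NormedField Valued NNReal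

noncomputable section

namespace Fermat.Agent.S43lib.B3

open Fermat.Agent.S55lib Fermat.Agent.S55lib.LocalUnr Fermat.Agent.S56lib.Kum
  Fermat.Agent.S56lib.PT9a IsUltrametricDist

variable {q : ℕ} [hq : Fact q.Prime]

local notation "Ω" => PadicAlgCl q
local notation "Γq" => (PadicAlgCl q ≃ₐ[ℚ_[q]] PadicAlgCl q)

section Norm

variable (L : IntermediateField ℚ_[q] (PadicAlgCl q)) [FiniteDimensional ℚ_[q] L] [Normal ℚ_[q] L]

/-- the residue action in terms of norms -/
theorem resG_residue_eq_iff (g : Γq) (y z : L) (hy : ‖y‖ ≤ 1) (hz : ‖z‖ ≤ 1) :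
    resG L g (IsLocalRing.residue 𝒪[L] ⟨y, Valued.integer.mem_iff.mpr hy⟩) =
      IsLocalRing.residue 𝒪[L] ⟨z, Valued.integer.mem_iff.mpr hz⟩ ↔
      ‖g (y : Ω) - (z : Ω)‖ < 1 := by
  unfold resG
  rw [resMap_residue, ← sub_eq_zero, ← map_sub, LocalUnr.residue_eq_zero_iff]
  have e : ‖(intMap (resAut L g) (norm_resAut L g) ⟨y, Valued.integer.mem_iff.mpr hy⟩ -
      (⟨z, Valued.integer.mem_iff.mpr hz⟩ : 𝒪[L]) : 𝒪[L])‖ = ‖resAut L g y - z‖ := by
    change ‖((intMap (resAut L g) (norm_resAut L g) ⟨y, Valued.integer.mem_iff.mpr hy⟩ -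
      (⟨z, Valued.integer.mem_iff.mpr hz⟩ : 𝒪[L]) : 𝒪[L]) : L)‖ = _
    rw [AddSubgroupClass.coe_sub, coe_intMap]
  rw [e]
  have e2 : ‖resAut L g y - z‖ = ‖g (y : Ω) - (z : Ω)‖ := by
    rw [← coe_resAut]
    rfl
  rw [e2]

/-- the relative inertia group in terms of norms -/
theorem mem_inertiaK_iff_norm (g : Γq) :
    g ∈ inertiaK L ↔ ∀ y : L, ‖y‖ ≤ 1 → ‖g (y : Ω) - (y : Ω)‖ < 1 := by
  constructor
  · intro hg y hy
    exact (resG_residue_eq_iff L g y y hy hy).1 (hg _)
  · intro h x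
    obtain ⟨Y, rfl⟩ := IsLocalRing.residue_surjective x
    have hY : ‖(Y : L)‖ ≤ 1 := Valued.integer.mem_iff.mp Y.2
    exact (resG_residue_eq_iff L g Y Y hY hY).2 (h Y hY)

/-- the relative Frobenius condition in terms of norms -/
theorem frob_iff_norm (φ : Γq) :
    (∀ x, resMap (resAut L φ) (norm_resAut L φ) x = x ^ q) ↔
      ∀ y : L, ‖y‖ ≤ 1 → ‖φ (y : Ω) - (y : Ω) ^ q‖ < 1 := by
  have hpow : ∀ (y : L) (hy : ‖y‖ ≤ 1), ‖y ^ q‖ ≤ 1 := fun y hy => by
    rw [norm_pow]; exact pow_le_one₀ (norm_nonneg _) hy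
  have hres : ∀ (y : L) (hy : ‖y‖ ≤ 1),
      (IsLocalRing.residue 𝒪[L] ⟨y, Valued.integer.mem_iff.mpr hy⟩) ^ q =
        IsLocalRing.residue 𝒪[L] ⟨y ^ q, Valued.integer.mem_iff.mpr (hpow y hy)⟩ := by
    intro y hy
    rw [← map_pow]
    rfl
  constructor
  · intro h y hy
    have h1 := h (IsLocalRing.residue 𝒪[L] ⟨y, Valued.integer.mem_iff.mpr hy⟩)
    rw [hres y hy] at h1
    have h2 := (resG_residue_eq_iff L φ y (y ^ q) hy (hpow y hy)).1 h1
    simpa using h2
  · intro h x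
    obtain ⟨Y, rfl⟩ := IsLocalRing.residue_surjective x
    have hY : ‖(Y : L)‖ ≤ 1 := Valued.integer.mem_iff.mp Y.2
    have h1 : IsLocalRing.residue 𝒪[L] Y ^ q =
        IsLocalRing.residue 𝒪[L] ⟨(Y : L) ^ q, Valued.integer.mem_iff.mpr (hpow Y hY)⟩ :=
      hres Y hY
    rw [h1]
    refine (resG_residue_eq_iff L φ Y ((Y : L) ^ q) hY (hpow Y hY)).2 ?_
    simpa using h Y hY

end Norm

section Surj

/-- `ℚ_q^{nr}` is normal over `ℚ_q` -/
instance normal_nrField : Normal ℚ_[q] (nrField q) := by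
  haveI : Normal ℚ_[q] (PadicAlgCl q) := IsAlgClosure.normal ℚ_[q] (PadicAlgCl q)
  rw [IntermediateField.normal_iff_forall_map_le]
  intro σ
  rw [nrField, IntermediateField.adjoin_map]
  apply IntermediateField.adjoin.mono
  rintro _ ⟨ζ, ⟨N, hN0, hNu, hζ⟩, rfl⟩
  exact ⟨N, hN0, hNu, by rw [← map_pow, hζ, map_one]⟩

variable (q) in
/-- the absolute inertia group `I₀ = Gal(ℚ̄_q/ℚ_q^{nr})` -/
def absInertia : Subgroup Γq := (nrField q).fixingSubgroup

theorem norm_sub_lt_one_of_mem_absInertia {d : Γq} (hd : d ∈ absInertia q) (y : Ω) (hy : ‖y‖ ≤ 1) :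
    ‖d y - y‖ < 1 :=
  norm_sub_lt_one_of_fixesTame q (fixesTame_of_mem_fixingSubgroup q hd) y hy

variable (L : IntermediateField ℚ_[q] (PadicAlgCl q)) [FiniteDimensional ℚ_[q] L] [Normal ℚ_[q] L]

theorem absInertia_le_inertiaK : absInertia q ≤ inertiaK L := by
  intro d hd
  rw [mem_inertiaK_iff_norm]
  intro y hy
  exact norm_sub_lt_one_of_mem_absInertia hd (y : Ω) hy

/-- an unramified (value group `q^ℤ`) finite normal extension has ramification index one -/
theorem ramIdx_eq_one_of_unramAt (F : IntermediateField ℚ_[q] (PadicAlgCl q))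
    [FiniteDimensional ℚ_[q] F] [Normal ℚ_[q] F] (hF : FirstIneq.UnramAt q F) :
    ramIdx ℚ_[q] F = 1 := by
  have hπ0 : unif F ≠ 0 := (unif_isUniformizer F).ne_zero
  obtain ⟨n, hn⟩ := hF (unif F : Ω) (unif F).2 (fun h => hπ0 (Subtype.ext h))
  have hn' : unifNorm F = (q : ℝ) ^ n := hn
  have hq0 : ((q : ℕ) : F) ≠ 0 := Nat.cast_ne_zero.2 hq.out.ne_zero
  have h1 := norm_eq_zpow_ord (K := F) hq0
  have h2 : ‖((q : ℕ) : F)‖ = (q : ℝ)⁻¹ := by
    show ‖((((q : ℕ) : F)) : Ω)‖ = (q : ℝ)⁻¹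
    push_cast
    exact FirstIneq.norm_natCast_padicAlgCl q
  rw [h2, hn', ord_natCast_eq_ramIdx, ← zpow_mul, ← zpow_neg_one] at h1
  have hq1 : (1 : ℝ) < (q : ℝ) := by exact_mod_cast hq.out.one_lt
  have h3 : (-1 : ℤ) = n * (ramIdx ℚ_[q] F : ℤ) :=
    zpow_right_injective₀ (by linarith) hq1.ne' h1
  have h4 : ((ramIdx ℚ_[q] F : ℕ) : ℤ) ∣ 1 := by
    have : ((ramIdx ℚ_[q] F : ℕ) : ℤ) ∣ -1 := ⟨n, by rw [h3, mul_comm]⟩
    simpa using this
  have h5 := Int.eq_one_of_dvd_one (by positivity) h4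
  exact_mod_cast h5

/-- **the absolute inertia group surjects onto the relative inertia groups** -/
theorem inertiaK_le_sup : inertiaK L ≤ absInertia q ⊔ L.fixingSubgroup := by
  intro g hg
  haveI : IsGalois ℚ_[q] (PadicAlgCl q) := IsAlgClosure.isGalois _ _
  set F : IntermediateField ℚ_[q] (PadicAlgCl q) := nrField q ⊓ L with hF
  have hFL : F ≤ L := inf_le_right
  haveI : FiniteDimensional ℚ_[q] F :=
    FiniteDimensional.of_injective (IntermediateField.inclusion hFL).toLinearMap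
      (IntermediateField.inclusion_injective hFL)
  haveI : Normal ℚ_[q] F := IntermediateField.normal_inf _ _ _ _
  haveI : IsGalois ℚ_[q] F := ⟨⟩
  have hram : ramIdx ℚ_[q] F = 1 :=
    ramIdx_eq_one_of_unramAt F ((unramAt_nrField q).mono q inf_le_left)
  -- `g` acts trivially on the residue field of `F`
  have hgF : g ∈ inertiaK F := by
    rw [mem_inertiaK_iff_norm] at hg ⊢
    intro y hy
    exact hg ⟨(y : Ω), hFL y.2⟩ hy
  have hker : AlgEquiv.restrictNormal g F ∈ (resGal ℚ_[q] F).ker := by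
    rw [MonoidHom.mem_ker]
    apply AlgEquiv.ext
    intro x
    rw [← resMap_toRingEquiv ℚ_[q] F (AlgEquiv.restrictNormal g F) x]
    exact hgF x
  have hcard : Nat.card (resGal ℚ_[q] F).ker = 1 := by rw [card_ker_resGal, hram]
  have hsub : Subsingleton (resGal ℚ_[q] F).ker := (Nat.card_eq_one_iff_unique.1 hcard).1
  have hone : AlgEquiv.restrictNormal g F = 1 := by
    have := Subsingleton.elim (⟨_, hker⟩ : (resGal ℚ_[q] F).ker) 1
    exact congrArg Subtype.val this
  have hgfix : g ∈ F.fixingSubgroup := by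
    rw [IntermediateField.mem_fixingSubgroup_iff]
    intro x hx
    have := AlgEquiv.restrictNormal_commutes g F ⟨x, hx⟩
    rw [hone] at this
    exact this.symm
  -- Galois correspondence
  have hopen : IsOpen ((absInertia q ⊔ L.fixingSubgroup : Subgroup Γq) : Set Γq) :=
    Subgroup.isOpen_mono le_sup_right L.fixingSubgroup_isOpen
  have hclosed := Subgroup.isClosed_of_isOpen _ hopen
  let H : ClosedSubgroup Γq := ⟨absInertia q ⊔ L.fixingSubgroup, hclosed⟩
  have hfixH : (IntermediateField.fixedField (H : Subgroup Γq)).fixingSubgroup =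
      absInertia q ⊔ L.fixingSubgroup := InfiniteGalois.fixingSubgroup_fixedField H
  have hle : IntermediateField.fixedField (H : Subgroup Γq) ≤ F := by
    intro x hx
    rw [IntermediateField.mem_fixedField_iff] at hx
    have h1 : x ∈ IntermediateField.fixedField (nrField q).fixingSubgroup := by
      rw [IntermediateField.mem_fixedField_iff]
      intro d hd
      exact hx d (Subgroup.mem_sup_left hd)
    have h2 : x ∈ IntermediateField.fixedField L.fixingSubgroup := by
      rw [IntermediateField.mem_fixedField_iff]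
      intro d hd
      exact hx d (Subgroup.mem_sup_right hd)
    rw [InfiniteGalois.fixedField_fixingSubgroup] at h1 h2
    exact IntermediateField.mem_inf.2 ⟨h1, h2⟩
  rw [← hfixH]
  exact IntermediateField.fixingSubgroup_antitone hle hgfix

end Surj

end Fermat.Agent.S43lib.B3
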