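/-
S43lib / B3 / TameB (helper4): level-wise tame structure of `Γ = Gal(ℚ̄_q/ℚ_q)` in terms of the ABSOLUTE
inertia group `I₀ = Gal(ℚ̄_q/ℚ_q^{nr})` (`TameA.inertiaK_le_sup`).

For a normal subgroup `U ⊇ Γ_L` (`L/ℚ_q` finite normal) such that `I₀` has `p`-power order modulo `U`
(`p ≠ q`):
* `wildK_le` : the wild inertia relative to `L` lies in `U`;
* `conj_mul_pow_inv_mem` : `φ σ φ⁻¹ ≡ σ ^ q` mod `U` for `σ ∈ I₀`, `φ` a Frobenius lift relative to `L`;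
* `exists_absInertia_generator` : some `σ ∈ I₀` generates `I₀` modulo `U`;
* `exists_mul_pow_inv_mul_inv_mem` : `Γ = ⟨φ⟩ · I₀ · U`.
-/
import Mathlib
import Fermat.Agent.S43lib.B3.TameA

set_option autoImplicit false
set_option linter.unusedSectionVars false
set_option linter.style.haveILetI false

open scoped NormedField Valued NNReal

noncomputable section

namespace Fermat.Agent.S43lib.B3

open Fermat.Agent.S55lib Fermat.Agent.S55lib.LocalUnr Fermat.Agent.S56lib.Kum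
  Fermat.Agent.S56lib.PT9a IsUltrametricDist

variable {q : ℕ} [hq : Fact q.Prime]

local notation "Ω" => PadicAlgCl q
local notation "Γq" => (PadicAlgCl q ≃ₐ[ℚ_[q]] PadicAlgCl q)

section Group

variable {G : Type*} [Group G]

/-- an element of `H ⊔ N` with `N ≤ U`, `U` normal, is congruent modulo `U` to an element of `H` -/
theorem exists_mul_inv_mem_of_mem_sup {H N U : Subgroup G} [hU : U.Normal] (hN : N ≤ U) {g : G}
    (hg : g ∈ H ⊔ N) : ∃ h ∈ H, g * h⁻¹ ∈ U := by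
  have hle : H ⊔ N ≤ H ⊔ U := sup_le_sup_left hN H
  have hg' : g ∈ ((H ⊔ U : Subgroup G) : Set G) := hle hg
  rw [Subgroup.mul_normal] at hg'
  obtain ⟨h, hh, u, hu, rfl⟩ := Set.mem_mul.1 hg'
  refine ⟨h, hh, ?_⟩
  have : h * u * h⁻¹ ∈ U := hU.conj_mem u hu h
  exact this

/-- congruence modulo a normal subgroup is compatible with powers -/
theorem pow_mul_pow_inv_mem {U : Subgroup G} [hU : U.Normal] {a b : G} (h : a * b⁻¹ ∈ U) (n : ℕ) :
    a ^ n * (b ^ n)⁻¹ ∈ U := by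
  have h1 : (QuotientGroup.mk' U) a = (QuotientGroup.mk' U) b := by
    have := (QuotientGroup.eq_one_iff (N := U) (a * b⁻¹)).2 h
    rw [QuotientGroup.mk_mul, QuotientGroup.mk_inv, mul_inv_eq_one] at this
    exact this
  have h2 : (QuotientGroup.mk' U) (a ^ n * (b ^ n)⁻¹) = 1 := by
    rw [map_mul, map_inv, map_pow, map_pow, h1, mul_inv_cancel]
  exact (QuotientGroup.eq_one_iff _).1 h2

/-- an element of `p`-power and `q`-power order modulo a normal subgroup lies in it -/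
theorem mem_of_pow_mem_of_pow_mem {U : Subgroup G} [hU : U.Normal] {a b : ℕ} (ha : a.Prime)
    (hb : b.Prime) (hab : a ≠ b) {w : G} {n m : ℕ} (h1 : w ^ a ^ n ∈ U) (h2 : w ^ b ^ m ∈ U) :
    w ∈ U := by
  have e1 : (QuotientGroup.mk' U w) ^ a ^ n = 1 := by
    rw [← map_pow]; exact (QuotientGroup.eq_one_iff _).2 h1
  have e2 : (QuotientGroup.mk' U w) ^ b ^ m = 1 := by
    rw [← map_pow]; exact (QuotientGroup.eq_one_iff _).2 h2
  have hcop : Nat.Coprime (a ^ n) (b ^ m) :=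
    Nat.Coprime.pow _ _ ((Nat.coprime_primes ha hb).2 hab)
  have e3 : (QuotientGroup.mk' U w) ^ Nat.gcd (a ^ n) (b ^ m) = 1 := pow_gcd_eq_one.2 ⟨e1, e2⟩
  rw [hcop.gcd_eq_one, pow_one] at e3
  exact (QuotientGroup.eq_one_iff _).1 e3

end Group

section Level

variable (L : IntermediateField ℚ_[q] (PadicAlgCl q)) [FiniteDimensional ℚ_[q] L] [Normal ℚ_[q] L]
  {U : Subgroup (PadicAlgCl q ≃ₐ[ℚ_[q]] PadicAlgCl q)} [hU : U.Normal] {p : ℕ}

/-- elements of the relative inertia group are congruent to elements of `I₀` modulo `U ⊇ Γ_L` -/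
theorem exists_absInertia_mul_inv_mem (hLU : L.fixingSubgroup ≤ U) {g : Γq}
    (hg : g ∈ inertiaK L) : ∃ i ∈ absInertia q, g * i⁻¹ ∈ U :=
  exists_mul_inv_mem_of_mem_sup hLU (inertiaK_le_sup L hg)

/-- **the wild inertia dies** in every quotient of level `L` in which `I₀` has `p`-power order -/
theorem wildK_le (hp : p.Prime) (hpq : p ≠ q) (hLU : L.fixingSubgroup ≤ U)
    (hpU : ∀ i ∈ absInertia q, ∃ n : ℕ, i ^ p ^ n ∈ U) : wildK L ≤ U := by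
  intro w hw
  obtain ⟨i, hi, hwi⟩ := exists_absInertia_mul_inv_mem L hLU (wildK_le_inertiaK L hw)
  obtain ⟨n, hn⟩ := hpU i hi
  obtain ⟨m, hm⟩ := exists_pow_mem_fixingSubgroup_of_mem_wildK L hw
  have h1 : w ^ p ^ n ∈ U := by
    have := pow_mul_pow_inv_mem hwi (p ^ n)
    have h2 := U.mul_mem this hn
    rwa [inv_mul_cancel_right] at h2
  exact mem_of_pow_mem_of_pow_mem hp hq.out hpq h1 (hLU hm)

/-- `φ τ φ⁻¹ ≡ τ ^ q` modulo the wild inertia, for a Frobenius lift `φ` relative to `L` -/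
theorem conj_mul_pow_inv_mem_wildK {τ φ : Γq} (hτ : τ ∈ inertiaK L)
    (hφ : ∀ x, resMap (resAut L φ) (norm_resAut L φ) x = x ^ q) :
    φ * τ * φ⁻¹ * (τ ^ q)⁻¹ ∈ wildK L := by
  have hcI : φ * τ * φ⁻¹ ∈ inertiaK L := (inertiaK_normal L).conj_mem τ hτ φ
  rw [mem_wildK]
  refine ⟨mul_mem hcI (inv_mem (pow_mem hτ q)), ?_⟩
  have h1 : thetaK L (⟨φ * τ * φ⁻¹, hcI⟩ * (⟨τ, hτ⟩ ^ q)⁻¹) = 1 := by
    rw [map_mul, map_inv, map_pow]
    have : thetaK L ⟨φ * τ * φ⁻¹, hcI⟩ = (thetaK L ⟨τ, hτ⟩) ^ q := by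
      apply Units.ext
      rw [Units.val_pow_eq_pow_val]
      show thetaG L (φ * τ * φ⁻¹) = (thetaG L τ) ^ q
      rw [thetaG_conj L φ hτ]
      exact hφ _
    rw [this, mul_inv_cancel]
  exact congrArg Units.val h1

/-- **the tame relation** modulo `U` -/
theorem conj_mul_pow_inv_mem (hp : p.Prime) (hpq : p ≠ q) (hLU : L.fixingSubgroup ≤ U)
    (hpU : ∀ i ∈ absInertia q, ∃ n : ℕ, i ^ p ^ n ∈ U) {σ φ : Γq} (hσ : σ ∈ absInertia q)
    (hφ : ∀ y : Ω, ‖y‖ ≤ 1 → ‖φ y - y ^ q‖ < 1) :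
    φ * σ * φ⁻¹ * (σ ^ q)⁻¹ ∈ U :=
  wildK_le L hp hpq hLU hpU
    (conj_mul_pow_inv_mem_wildK L (absInertia_le_inertiaK L hσ)
      ((frob_iff_norm L φ).2 fun y hy => hφ (y : Ω) hy))

/-- `Γ = ⟨φ⟩ · I₀ · U` -/
theorem exists_mul_pow_inv_mul_inv_mem (hLU : L.fixingSubgroup ≤ U) {φ : Γq}
    (hφ : ∀ y : Ω, ‖y‖ ≤ 1 → ‖φ y - y ^ q‖ < 1) (g : Γq) :
    ∃ (j : ℕ), ∃ i ∈ absInertia q, g * (φ ^ j)⁻¹ * i⁻¹ ∈ U := by
  obtain ⟨j, hj⟩ := exists_mul_pow_inv_mem_inertiaK L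
    ((frob_iff_norm L φ).2 fun y hy => hφ (y : Ω) hy) g
  obtain ⟨i, hi, hgi⟩ := exists_absInertia_mul_inv_mem L hLU hj
  exact ⟨j, i, hi, hgi⟩

/-- **a generator of `I₀` modulo `U`** -/
theorem exists_absInertia_generator (hp : p.Prime) (hpq : p ≠ q) (hLU : L.fixingSubgroup ≤ U)
    (hpU : ∀ i ∈ absInertia q, ∃ n : ℕ, i ^ p ^ n ∈ U) :
    ∃ σ ∈ absInertia q, ∀ g ∈ absInertia q, ∃ j : ℕ, g * (σ ^ j)⁻¹ ∈ U := by
  classical
  haveI := finite_residue L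
  haveI : Fintype 𝓀[L] := Fintype.ofFinite _
  obtain ⟨⟨t, ht⟩, hgen⟩ := IsCyclic.exists_generator (α := (thetaK L).range)
  obtain ⟨τ, rfl⟩ := ht
  -- `τ` generates the relative inertia modulo the wild inertia
  have hτgen : ∀ g ∈ inertiaK L, ∃ j : ℕ, g * ((τ : Γq) ^ j)⁻¹ ∈ wildK L := by
    intro g hg
    have hmem : thetaK L ⟨g, hg⟩ ∈ (thetaK L).range := ⟨_, rfl⟩
    have h1 := hgen ⟨_, hmem⟩
    rw [← mem_powers_iff_mem_zpowers] at h1
    obtain ⟨j, hj⟩ := h1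
    refine ⟨j, ?_⟩
    rw [mem_wildK]
    have hmem' : g * ((τ : Γq) ^ j)⁻¹ ∈ inertiaK L :=
      mul_mem hg (inv_mem (pow_mem τ.2 j))
    refine ⟨hmem', ?_⟩
    have hj' : thetaK L τ ^ j = thetaK L ⟨g, hg⟩ := by
      have := congrArg (fun z : (thetaK L).range => (z : (𝓀[L])ˣ)) hj
      simpa using this
    have h2 : thetaK L (⟨g, hg⟩ * (τ ^ j)⁻¹) = 1 := by
      rw [map_mul, map_inv, map_pow, hj', mul_inv_cancel]
    exact congrArg Units.val h2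
  obtain ⟨σ, hσ, hτσ⟩ := exists_absInertia_mul_inv_mem L hLU τ.2
  refine ⟨σ, hσ, fun g hg => ?_⟩
  obtain ⟨j, hj⟩ := hτgen g (absInertia_le_inertiaK L hg)
  refine ⟨j, ?_⟩
  have h1 : g * ((τ : Γq) ^ j)⁻¹ ∈ U := wildK_le L hp hpq hLU hpU hj
  have h2 : (τ : Γq) ^ j * (σ ^ j)⁻¹ ∈ U := pow_mul_pow_inv_mem hτσ j
  have h3 := U.mul_mem h1 h2
  rwa [mul_assoc, inv_mul_cancel_left] at h3

end Level

end Fermat.Agent.S43lib.B3
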