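/-
S43lib / B3 / Tame (helper4): **uniform tame generators of `Γ = Gal(ℚ̄_q/ℚ_q)`.**

For primes `p ≠ q` there are `φ, σ ∈ Γ`, `σ` in the absolute inertia group `I₀ = Gal(ℚ̄_q/ℚ_q^{nr})`, `φ` an absolute
Frobenius lift, such that for EVERY homomorphism `f : Γ → H` trivial on some `Γ_L` (`L/ℚ_q` finite normal) which
maps `I₀` to elements of `p`-power order:
* `f φ * f σ * (f φ)⁻¹ = f σ ^ q`   (the tame relation);
* `f (I₀) ⊆ ⟨f σ⟩`;
* `f (Γ) ⊆ ⟨f φ, f σ⟩`.
The elements are obtained by two compactness arguments in the profinite group `Γ` from the level-wise statements of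
`TameB`.
-/
import Mathlib
import Fermat.Agent.S43lib.B3.TameB

set_option autoImplicit false
set_option linter.unusedSectionVars false
set_option linter.style.haveILetI false

open scoped NormedField Valued NNReal Pointwise

noncomputable section

namespace Fermat.Agent.S43lib.B3

open Fermat.Agent.S55lib Fermat.Agent.S55lib.LocalUnr Fermat.Agent.S56lib.Kum
  Fermat.Agent.S56lib.PT9a IsUltrametricDist

section Top

variable {G : Type*} [Group G] [TopologicalSpace G] [IsTopologicalGroup G]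

/-- a set which is stable under right multiplication by an open subgroup is closed -/
theorem isClosed_of_forall_mul_mem (V : Subgroup G) (hV : IsOpen (V : Set G)) (S : Set G)
    (hS : ∀ s ∈ S, ∀ v ∈ V, s * v ∈ S) : IsClosed S := by
  rw [← isOpen_compl_iff, isOpen_iff_mem_nhds]
  intro x hx
  have hopen : IsOpen (x • (V : Set G)) := hV.smul x
  have hxmem : x ∈ x • (V : Set G) := ⟨1, V.one_mem, by simp⟩
  refine Filter.mem_of_superset (hopen.mem_nhds hxmem) ?_
  rintro _ ⟨v, hv, rfl⟩ hxv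
  apply hx
  have := hS _ hxv v⁻¹ (V.inv_mem hv)
  simpa using this

end Top

variable {q : ℕ} [hq : Fact q.Prime]

local notation "Ω" => PadicAlgCl q
local notation "Γq" => (PadicAlgCl q ≃ₐ[ℚ_[q]] PadicAlgCl q)

/-! ### An absolute Frobenius lift -/

variable (q) in
/-- **an absolute Frobenius lift exists** -/
theorem exists_absFrob : ∃ φ : Γq, ∀ y : Ω, ‖y‖ ≤ 1 → ‖φ y - y ^ q‖ < 1 := by
  haveI : IsGalois ℚ_[q] (PadicAlgCl q) := IsAlgClosure.isGalois _ _
  haveI : Normal ℚ_[q] (PadicAlgCl q) := IsAlgClosure.normal ℚ_[q] (PadicAlgCl q)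
  let ι := {L : IntermediateField ℚ_[q] (PadicAlgCl q) //
    FiniteDimensional ℚ_[q] L ∧ Normal ℚ_[q] L}
  let t : ι → Set Γq := fun L => {φ | ∀ y : L.1, ‖y‖ ≤ 1 → ‖φ (y : Ω) - (y : Ω) ^ q‖ < 1}
  haveI : Nonempty ι := ⟨⟨⊥, inferInstance, inferInstance⟩⟩
  have htd : Directed (fun x1 x2 => x1 ⊇ x2) t := by
    rintro ⟨L₁, h₁f, h₁n⟩ ⟨L₂, h₂f, h₂n⟩
    haveI := h₁f; haveI := h₁n; haveI := h₂f; haveI := h₂n
    refine ⟨⟨L₁ ⊔ L₂, IntermediateField.finiteDimensional_sup L₁ L₂, inferInstance⟩, ?_, ?_⟩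
    · intro φ hφ y hy
      exact hφ ⟨(y : Ω), (le_sup_left : L₁ ≤ L₁ ⊔ L₂) y.2⟩ hy
    · intro φ hφ y hy
      exact hφ ⟨(y : Ω), (le_sup_right : L₂ ≤ L₁ ⊔ L₂) y.2⟩ hy
  have htn : ∀ i, (t i).Nonempty := by
    rintro ⟨L, hf, hn⟩
    haveI := hf; haveI := hn
    obtain ⟨φ, hφ⟩ := exists_frobenius_lift L
    exact ⟨φ, (frob_iff_norm L φ).1 hφ⟩
  have htcl : ∀ i, IsClosed (t i) := by
    rintro ⟨L, hf, hn⟩
    haveI := hf; haveI := hn
    refine isClosed_of_forall_mul_mem L.fixingSubgroup L.fixingSubgroup_isOpen _ ?_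
    intro φ hφ v hv y hy
    have hvy : v (y : Ω) = y := (IntermediateField.mem_fixingSubgroup_iff L v).1 hv y y.2
    rw [AlgEquiv.mul_apply, hvy]
    exact hφ y hy
  obtain ⟨φ, hφ⟩ := IsCompact.nonempty_iInter_of_directed_nonempty_isCompact_isClosed t htd htn
    (fun i => (htcl i).isCompact) htcl
  rw [Set.mem_iInter] at hφ
  refine ⟨φ, fun y hy => ?_⟩
  let E : IntermediateField ℚ_[q] (PadicAlgCl q) := IntermediateField.adjoin ℚ_[q] {y}
  haveI : FiniteDimensional ℚ_[q] E :=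
    IntermediateField.adjoin.finiteDimensional (Algebra.IsIntegral.isIntegral y)
  let L : IntermediateField ℚ_[q] (PadicAlgCl q) :=
    IntermediateField.normalClosure ℚ_[q] E (PadicAlgCl q)
  have hyL : y ∈ L :=
    (IntermediateField.le_normalClosure E) (IntermediateField.mem_adjoin_simple_self ℚ_[q] y)
  exact hφ ⟨L, normalClosure.is_finiteDimensional ℚ_[q] E (PadicAlgCl q),
    normalClosure.normal ℚ_[q] E (PadicAlgCl q)⟩ ⟨y, hyL⟩ hy

/-! ### A uniform generator of the `p`-part of the tame inertia -/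

variable (q) in
/-- **a uniform generator of `I₀` modulo all open normal subgroups of `p`-power inertial order** -/
theorem exists_absInertia_uniform_generator {p : ℕ} (hp : p.Prime) (hpq : p ≠ q) :
    ∃ σ ∈ absInertia q, ∀ U : Subgroup Γq, U.Normal → IsOpen (U : Set Γq) →
      (∀ i ∈ absInertia q, ∃ n : ℕ, i ^ p ^ n ∈ U) →
      ∀ g ∈ absInertia q, ∃ j : ℕ, g * (σ ^ j)⁻¹ ∈ U := by
  haveI : IsGalois ℚ_[q] (PadicAlgCl q) := IsAlgClosure.isGalois _ _
  haveI : Normal ℚ_[q] (PadicAlgCl q) := IsAlgClosure.normal ℚ_[q] (PadicAlgCl q)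
  let ι := {U : Subgroup Γq // U.Normal ∧ IsOpen (U : Set Γq) ∧
    ∀ i ∈ absInertia q, ∃ n : ℕ, i ^ p ^ n ∈ U}
  let t : ι → Set Γq := fun U =>
    {σ | σ ∈ absInertia q ∧ ∀ g ∈ absInertia q, ∃ j : ℕ, g * (σ ^ j)⁻¹ ∈ U.1}
  haveI : Nonempty ι :=
    ⟨⟨⊤, inferInstance, isOpen_univ, fun i _ => ⟨0, Subgroup.mem_top _⟩⟩⟩
  have htd : Directed (fun x1 x2 => x1 ⊇ x2) t := by
    rintro ⟨U, hUn, hUo, hUp⟩ ⟨V, hVn, hVo, hVp⟩
    haveI := hUn; haveI := hVn
    refine ⟨⟨U ⊓ V, inferInstance, hUo.inter hVo, ?_⟩, ?_, ?_⟩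
    · intro i hi
      obtain ⟨n, hn⟩ := hUp i hi
      obtain ⟨m, hm⟩ := hVp i hi
      refine ⟨n + m, ?_, ?_⟩
      · rw [pow_add, pow_mul]
        exact U.pow_mem hn _
      · rw [pow_add, mul_comm, pow_mul]
        exact V.pow_mem hm _
    · rintro σ ⟨hσ, h⟩
      exact ⟨hσ, fun g hg => (h g hg).imp fun j hj => hj.1⟩
    · rintro σ ⟨hσ, h⟩
      exact ⟨hσ, fun g hg => (h g hg).imp fun j hj => hj.2⟩
  have htn : ∀ i, (t i).Nonempty := by
    rintro ⟨U, hUn, hUo, hUp⟩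
    haveI := hUn
    have hnhds : (U : Set Γq) ∈ nhds (1 : Γq) := hUo.mem_nhds U.one_mem
    obtain ⟨L, hLf, hLn, hLU⟩ :=
      (krullTopology_mem_nhds_one_iff_of_normal ℚ_[q] (PadicAlgCl q) _).1 hnhds
    haveI := hLf; haveI := hLn
    obtain ⟨σ, hσ, hgen⟩ := exists_absInertia_generator L hp hpq hLU hUp
    exact ⟨σ, hσ, hgen⟩
  have htcl : ∀ i, IsClosed (t i) := by
    rintro ⟨U, hUn, hUo, hUp⟩
    haveI := hUn
    have h1 : IsClosed ((absInertia q : Subgroup Γq) : Set Γq) :=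
      InfiniteGalois.fixingSubgroup_isClosed (nrField q)
    have h2 : IsClosed {σ : Γq | ∀ g ∈ absInertia q, ∃ j : ℕ, g * (σ ^ j)⁻¹ ∈ U} := by
      refine isClosed_of_forall_mul_mem U hUo _ ?_
      intro σ hσ v hv g hg
      obtain ⟨j, hj⟩ := hσ g hg
      refine ⟨j, ?_⟩
      have h3 : σ * (σ * v)⁻¹ ∈ U := by
        rw [mul_inv_rev, ← mul_assoc]
        exact hUn.conj_mem v⁻¹ (U.inv_mem hv) σ
      have h4 : σ ^ j * ((σ * v) ^ j)⁻¹ ∈ U := pow_mul_pow_inv_mem h3 j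
      have h5 := U.mul_mem hj h4
      rwa [mul_assoc, inv_mul_cancel_left] at h5
    exact h1.inter h2
  obtain ⟨σ, hσ⟩ := IsCompact.nonempty_iInter_of_directed_nonempty_isCompact_isClosed t htd htn
    (fun i => (htcl i).isCompact) htcl
  rw [Set.mem_iInter] at hσ
  have hσ0 : σ ∈ absInertia q :=
    (hσ ⟨⊤, inferInstance, isOpen_univ, fun i _ => ⟨0, Subgroup.mem_top _⟩⟩).1
  exact ⟨σ, hσ0, fun U hUn hUo hUp g hg => (hσ ⟨U, hUn, hUo, hUp⟩).2 g hg⟩

/-! ### The chosen generators -/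

variable (q) in
/-- the chosen absolute Frobenius lift -/
def tameFrob : Γq := (exists_absFrob q).choose

theorem tameFrob_spec (y : Ω) (hy : ‖y‖ ≤ 1) : ‖tameFrob q y - y ^ q‖ < 1 :=
  (exists_absFrob q).choose_spec y hy

variable (q) in
/-- the chosen generator of the `p`-part of the tame inertia (`1` if `p` is not a prime `≠ q`) -/
def tameGen (p : ℕ) : Γq := by
  classical
  exact if h : p.Prime ∧ p ≠ q then (exists_absInertia_uniform_generator q h.1 h.2).choose else 1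

theorem tameGen_mem (p : ℕ) : tameGen q p ∈ absInertia q := by
  classical
  unfold tameGen
  split_ifs with h
  · exact (exists_absInertia_uniform_generator q h.1 h.2).choose_spec.1
  · exact Subgroup.one_mem _

theorem tameGen_spec {p : ℕ} (hp : p.Prime) (hpq : p ≠ q) (U : Subgroup Γq) (hUn : U.Normal)
    (hUo : IsOpen (U : Set Γq)) (hUp : ∀ i ∈ absInertia q, ∃ n : ℕ, i ^ p ^ n ∈ U) (g : Γq)
    (hg : g ∈ absInertia q) : ∃ j : ℕ, g * (tameGen q p ^ j)⁻¹ ∈ U := by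
  classical
  unfold tameGen
  rw [dif_pos ⟨hp, hpq⟩]
  exact (exists_absInertia_uniform_generator q hp hpq).choose_spec.2 U hUn hUo hUp g hg

/-- the image of the chosen generator in the global Galois group lies in the inertia group of the standard
place over `q` -/
theorem localGaloisToGlobal_tameGen_mem (p : ℕ) :
    localGaloisToGlobal q (tameGen q p) ∈ (padicPlace q).inertiaSubgroupIn ℚ :=
  localGaloisToGlobal_mem_inertia q (fixesTame_of_mem_fixingSubgroup q (tameGen_mem p))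

/-! ### The main theorem -/

/-- **TAME.**  For every homomorphism `f` of `Γ = Gal(ℚ̄_q/ℚ_q)` which is trivial on `Γ_L` for a finite normal
`L/ℚ_q` and maps the absolute inertia group to elements of `p`-power order (`p ≠ q`):
the tame relation `f φ · f σ · (f φ)⁻¹ = (f σ) ^ q`, `f(I₀) ⊆ ⟨f σ⟩`, and `f(Γ) ⊆ ⟨f φ, f σ⟩`,
for `φ = tameFrob q`, `σ = tameGen q p`. -/
theorem tame_relation_and_generation {p : ℕ} (hp : p.Prime) (hpq : p ≠ q) {H : Type*} [Group H]
    (f : Γq →* H) (L : IntermediateField ℚ_[q] (PadicAlgCl q)) [FiniteDimensional ℚ_[q] L]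
    [Normal ℚ_[q] L] (hL : ∀ g ∈ L.fixingSubgroup, f g = 1)
    (hpf : ∀ i ∈ absInertia q, ∃ n : ℕ, f i ^ p ^ n = 1) :
    f (tameFrob q) * f (tameGen q p) * (f (tameFrob q))⁻¹ = f (tameGen q p) ^ q ∧
    (∀ i ∈ absInertia q, ∃ j : ℕ, f i = f (tameGen q p) ^ j) ∧
    ∀ g : Γq, f g ∈ Subgroup.closure {f (tameFrob q), f (tameGen q p)} := by
  have hLU : L.fixingSubgroup ≤ f.ker := fun g hg => MonoidHom.mem_ker.2 (hL g hg)
  have hUo : IsOpen ((f.ker : Subgroup Γq) : Set Γq) :=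
    Subgroup.isOpen_mono hLU L.fixingSubgroup_isOpen
  have hUp : ∀ i ∈ absInertia q, ∃ n : ℕ, i ^ p ^ n ∈ f.ker := by
    intro i hi
    obtain ⟨n, hn⟩ := hpf i hi
    exact ⟨n, by rw [MonoidHom.mem_ker, map_pow]; exact hn⟩
  have hgenI : ∀ i ∈ absInertia q, ∃ j : ℕ, f i = f (tameGen q p) ^ j := by
    intro i hi
    obtain ⟨j, hj⟩ := tameGen_spec hp hpq f.ker inferInstance hUo hUp i hi
    refine ⟨j, ?_⟩
    rw [MonoidHom.mem_ker, map_mul, map_inv, map_pow, mul_inv_eq_one] at hj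
    exact hj
  refine ⟨?_, hgenI, ?_⟩
  · have h1 := conj_mul_pow_inv_mem L hp hpq hLU hUp (tameGen_mem p) (tameFrob_spec (q := q))
    rw [MonoidHom.mem_ker, map_mul, map_inv, map_pow, mul_inv_eq_one, map_mul, map_mul,
      map_inv] at h1
    exact h1
  · intro g
    obtain ⟨j, i, hi, hgi⟩ := exists_mul_pow_inv_mul_inv_mem L hLU (tameFrob_spec (q := q)) g
    rw [MonoidHom.mem_ker, map_mul, map_mul, map_inv, map_inv, map_pow, mul_inv_eq_one,
      mul_inv_eq_iff_eq_mul] at hgi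
    obtain ⟨k, hk⟩ := hgenI i hi
    rw [hgi, hk]
    refine Subgroup.mul_mem _ (Subgroup.pow_mem _ (Subgroup.subset_closure ?_) k)
      (Subgroup.pow_mem _ (Subgroup.subset_closure ?_) j)
    · exact Set.mem_insert_of_mem _ rfl
    · exact Set.mem_insert _ _

end Fermat.Agent.S43lib.B3
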