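/-
S43lib / B3 / TameGlobal (helper4): **the tame relation for homomorphisms of the global Galois group.**

Wrapper around `Tame.lean`: for `f : G_ℚ → H` factoring through a finite level `F/ℚ` whose inertia image at the
standard place over `q` consists of elements of `p`-power order (`p ≠ q`), the composite
`f ∘ localGaloisToGlobal q` satisfies the hypotheses of `tame_relation_and_generation`.  Also: the chosen
local Frobenius lift maps to a Frobenius element of the standard place, the chosen inertia generator to the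
inertia group, and the decomposition group of the standard place has image in `⟨f φ, f σ⟩`.
-/
import Mathlib
import Fermat.Agent.S43lib.B3.Tame
import Fermat.Agent.S55lib.Places.Completion
import Fermat.Agent.S56lib.TWSel.Places
import Fermat.Agent.S56lib.TWSel.LocGlob
import Fermat.Agent.S55lib.Recip.LocalBridge

set_option autoImplicit false
set_option linter.unusedSectionVars false
set_option linter.style.haveILetI false

open scoped NormedField Valued NNReal Pointwise

noncomputable section

namespace Fermat.Agent.S43lib.B3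

open Fermat.Agent.S55lib Fermat.Agent.S55lib.LocalUnr Fermat.Agent.S56lib.Kum
  Fermat.Agent.S56lib.PT9a IsUltrametricDist ExtCitation

section Local

variable {q : ℕ} [hq : Fact q.Prime]

local notation "Ω" => PadicAlgCl q
local notation "Γq" => (PadicAlgCl q ≃ₐ[ℚ_[q]] PadicAlgCl q)

/-- the chosen local Frobenius lift maps to a Frobenius element at the standard place over `q` -/
theorem localGaloisToGlobal_tameFrob_isFrobeniusAt :
    (padicPlace q).IsFrobeniusAt (localGaloisToGlobal q (tameFrob q)) q := by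
  rw [Fermat.Agent.S56lib.TWSel.isFrobeniusAt_iff]
  refine ⟨localGaloisToGlobal_mem_decompositionSubgroup q _, fun a ha => ?_⟩
  rw [ValuationSubring.mem_nonunits_iff, padicPlace_valuation_lt_one_iff, map_sub, map_pow,
    padicEmbedding_localGaloisToGlobal]
  exact tameFrob_spec _ ((mem_padicPlace_iff_norm q).1 ha)

/-- the level of `ℚ̄_q` generated by a finite level `F` of `ℚ̄` -/
def levelOf (q : ℕ) [Fact q.Prime] (F : IntermediateField ℚ (AlgebraicClosure ℚ)) :
    IntermediateField ℚ_[q] (PadicAlgCl q) :=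
  IntermediateField.normalClosure ℚ_[q] (localField q F (Emb.canon q F)) (PadicAlgCl q)

instance normal_levelOf (F : IntermediateField ℚ (AlgebraicClosure ℚ)) : Normal ℚ_[q] (levelOf q F) := by
  have : Normal ℚ_[q] Ω := IsAlgClosure.normal ℚ_[q] Ω
  exact normalClosure.normal _ _ _

instance finiteDimensional_levelOf (F : IntermediateField ℚ (AlgebraicClosure ℚ))
    [FiniteDimensional ℚ F] : FiniteDimensional ℚ_[q] (levelOf q F) := by
  have : NumberField F := { to_charZero := inferInstance, to_finiteDimensional := inferInstance }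
  exact normalClosure.is_finiteDimensional _ _ _

/-- local automorphisms fixing `levelOf q F` map into `Gal(ℚ̄/F)` -/
theorem localGaloisToGlobal_mem_fixingSubgroup (F : IntermediateField ℚ (AlgebraicClosure ℚ))
    {g : Γq} (hg : g ∈ (levelOf q F).fixingSubgroup) :
    localGaloisToGlobal q g ∈ F.fixingSubgroup := by
  rw [IntermediateField.mem_fixingSubgroup_iff] at hg ⊢
  intro x hx
  apply (padicEmbedding q).toRingHom.injective
  change padicEmbedding q (localGaloisToGlobal q g x) = padicEmbedding q x
  rw [padicEmbedding_localGaloisToGlobal]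
  apply hg
  apply IntermediateField.le_normalClosure
  exact IntermediateField.subset_adjoin _ _ ⟨⟨x, hx⟩, rfl⟩

/-- **TAME, global form (at the standard place over `q`).** -/
theorem tame_relation_and_generation_global {p : ℕ} (hp : p.Prime) (hpq : p ≠ q) {H : Type*} [Group H]
    (f : (AlgebraicClosure ℚ ≃ₐ[ℚ] AlgebraicClosure ℚ) →* H)
    (F : IntermediateField ℚ (AlgebraicClosure ℚ)) [FiniteDimensional ℚ F]
    (hF : ∀ s ∈ F.fixingSubgroup, f s = 1)
    (hpf : ∀ s ∈ (padicPlace q).inertiaSubgroupIn ℚ, ∃ n : ℕ, f s ^ p ^ n = 1) :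
    f (localGaloisToGlobal q (tameFrob q)) * f (localGaloisToGlobal q (tameGen q p)) *
        (f (localGaloisToGlobal q (tameFrob q)))⁻¹ = f (localGaloisToGlobal q (tameGen q p)) ^ q ∧
    (∀ i ∈ absInertia q, ∃ j : ℕ,
      f (localGaloisToGlobal q i) = f (localGaloisToGlobal q (tameGen q p)) ^ j) ∧
    ∀ g : Γq, f (localGaloisToGlobal q g) ∈ Subgroup.closure
      {f (localGaloisToGlobal q (tameFrob q)), f (localGaloisToGlobal q (tameGen q p))} :=
  tame_relation_and_generation hp hpq (f.comp (localGaloisToGlobal q)) (levelOf q F)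
    (fun _ hg => hF _ (localGaloisToGlobal_mem_fixingSubgroup F hg))
    (fun _ hi => hpf _ (localGaloisToGlobal_mem_inertia q (fixesTame_of_mem_fixingSubgroup q hi)))

/-- **the image of the decomposition group** of the standard place is generated by `f φ, f σ`, and the
image of its inertia group is generated by `f σ`. -/
theorem tame_decomposition_global {p : ℕ} (hp : p.Prime) (hpq : p ≠ q) {H : Type*} [Group H]
    (f : (AlgebraicClosure ℚ ≃ₐ[ℚ] AlgebraicClosure ℚ) →* H)
    (F : IntermediateField ℚ (AlgebraicClosure ℚ)) [FiniteDimensional ℚ F]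
    (hF : ∀ s ∈ F.fixingSubgroup, f s = 1)
    (hpf : ∀ s ∈ (padicPlace q).inertiaSubgroupIn ℚ, ∃ n : ℕ, f s ^ p ^ n = 1) :
    (∀ s ∈ (padicPlace q).decompositionSubgroup ℚ, f s ∈ Subgroup.closure
      {f (localGaloisToGlobal q (tameFrob q)), f (localGaloisToGlobal q (tameGen q p))}) ∧
    ∀ s ∈ (padicPlace q).inertiaSubgroupIn ℚ, ∃ j : ℕ,
      f s = f (localGaloisToGlobal q (tameGen q p)) ^ j := by
  obtain ⟨-, hI, hgen⟩ := tame_relation_and_generation_global hp hpq f F hF hpf
  -- a finite Galois level containing `F`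
  set F' : IntermediateField ℚ (AlgebraicClosure ℚ) :=
    IntermediateField.normalClosure ℚ F (AlgebraicClosure ℚ) with hF'def
  have hnorm : Normal ℚ (AlgebraicClosure ℚ) := IsAlgClosure.normal ℚ (AlgebraicClosure ℚ)
  have hN' : Normal ℚ F' := normalClosure.normal _ _ _
  have hfd' : FiniteDimensional ℚ F' := normalClosure.is_finiteDimensional _ _ _
  have hG' : IsGalois ℚ F' := ⟨⟩
  have hFF' : F ≤ F' := IntermediateField.le_normalClosure F
  have hF' : ∀ s ∈ F'.fixingSubgroup, f s = 1 := fun s hs =>
    hF s (IntermediateField.fixingSubgroup_antitone hFF' hs)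
  -- lifting elements of the decomposition group
  have hlift : ∀ s ∈ (padicPlace q).decompositionSubgroup ℚ, ∃ τ : Γq,
      f s = f (localGaloisToGlobal q τ) ∧ ∀ x ∈ F', localGaloisToGlobal q τ x = s x := by
    intro s hs
    obtain ⟨τ, hτ⟩ := Fermat.Agent.S56lib.TWSel.exists_local_lift q hs F'
    refine ⟨τ, ?_, fun x hx => ?_⟩
    · have h1 := hF' _ hτ
      rw [map_mul, map_inv, inv_mul_eq_one] at h1
      exact h1.symm
    · rw [IntermediateField.mem_fixingSubgroup_iff] at hτ
      have h2 := hτ x hx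
      change (localGaloisToGlobal q τ)⁻¹ (s x) = x at h2
      rw [AlgEquiv.aut_inv, AlgEquiv.symm_apply_eq] at h2
      exact h2.symm
  refine ⟨fun s hs => ?_, fun s hs => ?_⟩
  · obtain ⟨τ, hτ, -⟩ := hlift s hs
    rw [hτ]
    exact hgen τ
  · have hsD : s ∈ (padicPlace q).decompositionSubgroup ℚ :=
      ((Fermat.Agent.S56lib.TWSel.mem_inertiaSubgroupIn_iff (A := padicPlace q)).1 hs).1
    have hsI := ((Fermat.Agent.S56lib.TWSel.mem_inertiaSubgroupIn_iff (A := padicPlace q)).1 hs).2
    obtain ⟨τ, hτ, hτx⟩ := hlift s hsD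
    have hNF : NumberField F' := { to_charZero := inferInstance, to_finiteDimensional := inferInstance }
    set L : IntermediateField ℚ_[q] Ω := localField q F' (Emb.canon q F') with hLdef
    have hLn : Normal ℚ_[q] L := Fermat.Agent.S55lib.Recip.localField_normal _
    have hLfd : FiniteDimensional ℚ_[q] L := Places.finiteDimensional_localField _
    -- `τ` lies in the inertia group of `L`
    have hτI : τ ∈ inertiaK L := by
      rw [mem_inertiaK_iff_norm]
      intro y hy
      obtain ⟨x, hx⟩ := Places.isApprox_of_mem_localField (Emb.canon q F') y.2 1 one_pos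
      rw [Emb.canon_apply] at hx
      have hx1 : ‖padicEmbedding q (x : AlgebraicClosure ℚ)‖ ≤ 1 := by
        have e : padicEmbedding q (x : AlgebraicClosure ℚ) =
            (y : Ω) - ((y : Ω) - padicEmbedding q (x : AlgebraicClosure ℚ)) := by ring
        rw [e]
        exact le_trans (LocalUnr.norm_sub_le_max' _ _) (max_le hy hx.le)
      have hxA : (x : AlgebraicClosure ℚ) ∈ padicPlace q := (mem_padicPlace_iff_norm q).2 hx1
      have h3 := hsI _ hxA
      rw [ValuationSubring.mem_nonunits_iff, padicPlace_valuation_lt_one_iff, map_sub,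
        ← hτx _ x.2, padicEmbedding_localGaloisToGlobal] at h3
      have e : τ (y : Ω) - (y : Ω) = (τ ((y : Ω) - padicEmbedding q (x : AlgebraicClosure ℚ)) +
          (τ (padicEmbedding q (x : AlgebraicClosure ℚ)) - padicEmbedding q (x : AlgebraicClosure ℚ))) -
          ((y : Ω) - padicEmbedding q (x : AlgebraicClosure ℚ)) := by
        rw [map_sub]; ring
      rw [e]
      refine lt_of_le_of_lt (LocalUnr.norm_sub_le_max' _ _) (max_lt ?_ hx)
      refine lt_of_le_of_lt (IsUltrametricDist.norm_add_le_max _ _) (max_lt ?_ h3)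
      rw [Places.norm_algEquiv τ]
      exact hx
    have hLU : L.fixingSubgroup ≤ (f.comp (localGaloisToGlobal q)).ker := by
      intro g hg
      rw [MonoidHom.mem_ker, MonoidHom.comp_apply]
      apply hF'
      rw [IntermediateField.mem_fixingSubgroup_iff] at hg ⊢
      intro x hx
      apply (padicEmbedding q).toRingHom.injective
      change padicEmbedding q (localGaloisToGlobal q g x) = padicEmbedding q x
      rw [padicEmbedding_localGaloisToGlobal]
      exact hg _ (IntermediateField.subset_adjoin _ _ ⟨⟨x, hx⟩, rfl⟩)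
    obtain ⟨i, hi, hgi⟩ := exists_absInertia_mul_inv_mem L hLU hτI
    rw [MonoidHom.mem_ker, map_mul, map_inv, mul_inv_eq_one, MonoidHom.comp_apply,
      MonoidHom.comp_apply] at hgi
    obtain ⟨j, hj⟩ := hI i hi
    exact ⟨j, by rw [hτ, hgi, hj]⟩

end Local

/-! ### The form indexed by `v : Nat.Primes` (the Prelude's `primeLocalGaloisGroup`, `primeLocalToGlobal`,
`primeLocalPlace`) -/

section Primes

/-- the chosen Frobenius lift in `Gal(ℚ̄_v/ℚ_v)`, `v : Nat.Primes` -/
def tameFrobAt (v : Nat.Primes) : primeLocalGaloisGroup v :=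
  letI : Fact (v : ℕ).Prime := ⟨v.2⟩
  tameFrob (v : ℕ)

/-- the chosen generator of the `p`-part of tame inertia in `Gal(ℚ̄_v/ℚ_v)`, `v : Nat.Primes` -/
def tameGenAt (v : Nat.Primes) (p : ℕ) : primeLocalGaloisGroup v :=
  letI : Fact (v : ℕ).Prime := ⟨v.2⟩
  tameGen (v : ℕ) p

/-- the chosen global Frobenius element at `v` -/
def globFrobAt (v : Nat.Primes) : AlgebraicClosure ℚ ≃ₐ[ℚ] AlgebraicClosure ℚ :=
  primeLocalToGlobal v (tameFrobAt v)

/-- the chosen global generator of the `p`-part of tame inertia at `v` -/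
def globGenAt (v : Nat.Primes) (p : ℕ) : AlgebraicClosure ℚ ≃ₐ[ℚ] AlgebraicClosure ℚ :=
  primeLocalToGlobal v (tameGenAt v p)

theorem globFrobAt_isFrobeniusAt (v : Nat.Primes) :
    (primeLocalPlace v).IsFrobeniusAt (globFrobAt v) (v : ℕ) := by
  letI : Fact (v : ℕ).Prime := ⟨v.2⟩
  exact localGaloisToGlobal_tameFrob_isFrobeniusAt

theorem globGenAt_mem_inertia (v : Nat.Primes) (p : ℕ) :
    globGenAt v p ∈ (primeLocalPlace v).inertiaSubgroupIn ℚ := by
  letI : Fact (v : ℕ).Prime := ⟨v.2⟩
  exact localGaloisToGlobal_tameGen_mem p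

/-- **TAME at `v : Nat.Primes`.**  For `f : G_ℚ → H` trivial on `Gal(ℚ̄/F)` (`F/ℚ` finite) whose inertia image
at the standard place over `v` consists of elements of `p`-power order, `p ≠ v`; `Φ = f (globFrobAt v)`,
`Σ = f (globGenAt v p)`:  `Φ Σ Φ⁻¹ = Σ ^ v`, the image of the local Galois group (and of the decomposition group
of the standard place) is contained in `⟨Φ, Σ⟩`, the image of the inertia group in `⟨Σ⟩`. -/
theorem tame_at_prime (v : Nat.Primes) {p : ℕ} (hp : p.Prime) (hpv : p ≠ (v : ℕ)) {H : Type*} [Group H]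
    (f : (AlgebraicClosure ℚ ≃ₐ[ℚ] AlgebraicClosure ℚ) →* H)
    (F : IntermediateField ℚ (AlgebraicClosure ℚ)) [FiniteDimensional ℚ F]
    (hF : ∀ s ∈ F.fixingSubgroup, f s = 1)
    (hpf : ∀ s ∈ (primeLocalPlace v).inertiaSubgroupIn ℚ, ∃ n : ℕ, f s ^ p ^ n = 1) :
    f (globFrobAt v) * f (globGenAt v p) * (f (globFrobAt v))⁻¹ = f (globGenAt v p) ^ (v : ℕ) ∧
    (∀ g : primeLocalGaloisGroup v,
      f (primeLocalToGlobal v g) ∈ Subgroup.closure {f (globFrobAt v), f (globGenAt v p)}) ∧
    (∀ s ∈ (primeLocalPlace v).decompositionSubgroup ℚ,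
      f s ∈ Subgroup.closure {f (globFrobAt v), f (globGenAt v p)}) ∧
    ∀ s ∈ (primeLocalPlace v).inertiaSubgroupIn ℚ, ∃ j : ℕ, f s = f (globGenAt v p) ^ j := by
  letI : Fact (v : ℕ).Prime := ⟨v.2⟩
  obtain ⟨h1, -, h3⟩ := tame_relation_and_generation_global (q := (v : ℕ)) hp hpv f F hF hpf
  obtain ⟨h4, h5⟩ := tame_decomposition_global (q := (v : ℕ)) hp hpv f F hF hpf
  exact ⟨h1, h3, h4, h5⟩

end Primes

end Fermat.Agent.S43lib.B3
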