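/-
S43lib / B3 / AdicTame (helper4): **the tame relation for an adic Galois representation.**

`A` a local ring, separated for the `𝔪`-adic topology, with `p ∈ 𝔪`; `r : G_ℚ → GL₂(A)` adically continuous,
residually trivial on the inertia group of the standard place over `v ≠ p`.  With `Φ = r (globFrobAt v)`,
`Σ = r (globGenAt v p)` (the tame generators of `B3/TameGlobal.lean`):

  `Φ Σ = Σ ^ v Φ`,

and for every `n` the image of the decomposition group at `v` in `GL₂(A/𝔪ⁿ)` is generated by `Φ`, `Σ`, the image of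
the inertia group by `Σ`.

Proof: modulo `𝔪ⁿ` the representation factors through a finite level, and the image of inertia is killed by `pⁿ`
(`(1 + X)^(p^k) ≡ 1 mod 𝔪^(k+1)` for `X ≡ 0 mod 𝔪`); apply `tame_at_prime` and pass to the limit.
-/
import Mathlib
import Fermat.Agent.S43lib.B3.TameGlobal
import Fermat.Agent.TeamA.MatRep
import Fermat.Agent.S56lib.TWSel.Descent
import Fermat.Agent.S29lib.S30.CycloAdic
import Fermat.Agent.S43lib.B3.Arith.Det

set_option autoImplicit false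
set_option linter.unusedSectionVars false
set_option linter.style.haveILetI false

noncomputable section

namespace Fermat.Agent.S43lib.B3

open IsLocalRing Fermat.Agent.TeamA.Rep ExtCitation

local notation "Qb" => AlgebraicClosure ℚ

/-! ### entrywise congruences -/

section Ent

variable {A : Type*} [CommRing A]

/-- all entries of `Y` lie in the ideal `I` -/
def EntIn (I : Ideal A) (Y : Matrix (Fin 2) (Fin 2) A) : Prop := ∀ i j, Y i j ∈ I

theorem EntIn.mono {I J : Ideal A} (h : I ≤ J) {Y : Matrix (Fin 2) (Fin 2) A} (hY : EntIn I Y) :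
    EntIn J Y := fun i j => h (hY i j)

theorem EntIn.add {I : Ideal A} {Y Z : Matrix (Fin 2) (Fin 2) A} (hY : EntIn I Y) (hZ : EntIn I Z) :
    EntIn I (Y + Z) := fun i j => by
  rw [Matrix.add_apply]
  exact I.add_mem (hY i j) (hZ i j)

theorem EntIn.zero (I : Ideal A) : EntIn I (0 : Matrix (Fin 2) (Fin 2) A) := fun i j => by
  rw [Matrix.zero_apply]
  exact I.zero_mem

theorem EntIn.mul {I J : Ideal A} {Y Z : Matrix (Fin 2) (Fin 2) A} (hY : EntIn I Y) (hZ : EntIn J Z) :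
    EntIn (I * J) (Y * Z) := fun i j => by
  rw [Matrix.mul_apply]
  exact Ideal.sum_mem _ fun l _ => Ideal.mul_mem_mul (hY i l) (hZ l j)

theorem EntIn.mul_right {I : Ideal A} {Y : Matrix (Fin 2) (Fin 2) A} (hY : EntIn I Y)
    (Z : Matrix (Fin 2) (Fin 2) A) : EntIn I (Y * Z) := fun i j => by
  rw [Matrix.mul_apply]
  exact Ideal.sum_mem _ fun l _ => I.mul_mem_right _ (hY i l)

theorem EntIn.mul_left {I : Ideal A} {Y : Matrix (Fin 2) (Fin 2) A} (hY : EntIn I Y)
    (Z : Matrix (Fin 2) (Fin 2) A) : EntIn I (Z * Y) := fun i j => by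
  rw [Matrix.mul_apply]
  exact Ideal.sum_mem _ fun l _ => I.mul_mem_left _ (hY l j)

theorem EntIn.natCast_smul {I J : Ideal A} {p : ℕ} (hp : (p : A) ∈ I) {Y : Matrix (Fin 2) (Fin 2) A}
    (hY : EntIn J Y) : EntIn (I * J) ((p : Matrix (Fin 2) (Fin 2) A) * Y) := fun i j => by
  have : ((p : Matrix (Fin 2) (Fin 2) A) * Y) i j = (p : A) * Y i j := by
    rw [← nsmul_eq_mul, Matrix.smul_apply, nsmul_eq_mul]
  rw [this]
  exact Ideal.mul_mem_mul hp (hY i j)

/-- powers of a matrix `≡ 1 mod I` are `≡ 1 mod I` -/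
theorem EntIn.pow_sub_one {I : Ideal A} {u : Matrix (Fin 2) (Fin 2) A} (hu : EntIn I (u - 1)) (j : ℕ) :
    EntIn I (u ^ j - 1) := by
  induction j with
  | zero => rw [pow_zero, sub_self]; exact EntIn.zero I
  | succ j ih =>
    have e : u ^ (j + 1) - 1 = (u ^ j - 1) * u + (u - 1) := by
      rw [pow_succ]; noncomm_ring
    rw [e]
    exact (ih.mul_right u).add hu

/-- the geometric sum of a matrix `≡ 1 mod I` is `≡ n mod I` -/
theorem EntIn.geom_sum_sub {I : Ideal A} {u : Matrix (Fin 2) (Fin 2) A} (hu : EntIn I (u - 1)) (n : ℕ) :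
    EntIn I (∑ j ∈ Finset.range n, u ^ j - (n : Matrix (Fin 2) (Fin 2) A)) := by
  induction n with
  | zero => simp [EntIn.zero]
  | succ n ih =>
    have e : ∑ j ∈ Finset.range (n + 1), u ^ j - ((n + 1 : ℕ) : Matrix (Fin 2) (Fin 2) A) =
        (∑ j ∈ Finset.range n, u ^ j - (n : Matrix (Fin 2) (Fin 2) A)) + (u ^ n - 1) := by
      rw [Finset.sum_range_succ, Nat.cast_succ]; abel
    rw [e]
    exact ih.add (hu.pow_sub_one n)

/-- **`u ≡ 1 mod I^k`, `p ∈ I`, `k ≥ 1` ⟹ `u^p ≡ 1 mod I^(k+1)`** -/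
theorem EntIn.pow_prime_sub_one {I : Ideal A} {p : ℕ} (hp : (p : A) ∈ I) {k : ℕ} (hk : 1 ≤ k)
    {u : Matrix (Fin 2) (Fin 2) A} (hu : EntIn (I ^ k) (u - 1)) : EntIn (I ^ (k + 1)) (u ^ p - 1) := by
  have e : u ^ p - 1 = (p : Matrix (Fin 2) (Fin 2) A) * (u - 1) +
      (u - 1) * (∑ j ∈ Finset.range p, u ^ j - (p : Matrix (Fin 2) (Fin 2) A)) := by
    have h1 : (u - 1) * ∑ j ∈ Finset.range p, u ^ j = u ^ p - 1 := mul_geom_sum u p
    have h2 : (p : Matrix (Fin 2) (Fin 2) A) * (u - 1) = (u - 1) * (p : Matrix (Fin 2) (Fin 2) A) :=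
      (Nat.cast_commute p (u - 1)).eq
    rw [h2, ← mul_add, ← h1]
    congr 1
    abel
  rw [e]
  refine EntIn.add ?_ ?_
  · have := EntIn.natCast_smul hp hu
    rw [← pow_succ'] at this
    exact this
  · have := hu.mul (hu.geom_sum_sub p)
    rw [← pow_add] at this
    exact this.mono (Ideal.pow_le_pow_right (by omega))

/-- **`u ≡ 1 mod I`, `p ∈ I` ⟹ `u^(p^k) ≡ 1 mod I^(k+1)`** -/
theorem EntIn.pow_prime_pow_sub_one {I : Ideal A} {p : ℕ} (hp : (p : A) ∈ I)
    {u : Matrix (Fin 2) (Fin 2) A} (hu : EntIn I (u - 1)) (k : ℕ) :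
    EntIn (I ^ (k + 1)) (u ^ p ^ k - 1) := by
  induction k with
  | zero => simpa using hu
  | succ k ih =>
    have e : u ^ p ^ (k + 1) = (u ^ p ^ k) ^ p := by rw [pow_succ, pow_mul]
    rw [e]
    exact EntIn.pow_prime_sub_one hp (by omega) ih

end Ent

/-! ### the tame relation -/

section Tame

variable {A : Type} [CommRing A] [IsLocalRing A]

/-- reduction of matrices modulo `𝔪ⁿ` -/
abbrev redMat (A : Type) [CommRing A] [IsLocalRing A] (n : ℕ) :
    Matrix (Fin 2) (Fin 2) A →+* Matrix (Fin 2) (Fin 2) (A ⧸ maximalIdeal A ^ n) :=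
  (Ideal.Quotient.mk (maximalIdeal A ^ n)).mapMatrix

theorem redMat_eq_iff (n : ℕ) (Y Z : Matrix (Fin 2) (Fin 2) A) :
    redMat A n Y = redMat A n Z ↔ EntIn (maximalIdeal A ^ n) (Y - Z) := by
  constructor
  · intro h i j
    have := congrFun (congrFun h i) j
    rw [RingHom.mapMatrix_apply, RingHom.mapMatrix_apply, Matrix.map_apply, Matrix.map_apply,
      Ideal.Quotient.eq] at this
    rw [Matrix.sub_apply]
    exact this
  · intro h
    ext i j
    rw [RingHom.mapMatrix_apply, RingHom.mapMatrix_apply, Matrix.map_apply, Matrix.map_apply,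
      Ideal.Quotient.eq, ← Matrix.sub_apply]
    exact h i j

/-- the reduction modulo `𝔪ⁿ` of a matrix representation, with values in the units -/
def redHom (r : (Qb ≃ₐ[ℚ] Qb) →* Matrix (Fin 2) (Fin 2) A) (n : ℕ) :
    (Qb ≃ₐ[ℚ] Qb) →* (Matrix (Fin 2) (Fin 2) (A ⧸ maximalIdeal A ^ n))ˣ :=
  ((redMat A n : Matrix (Fin 2) (Fin 2) A →* _).comp r).toHomUnits

theorem redHom_val (r : (Qb ≃ₐ[ℚ] Qb) →* Matrix (Fin 2) (Fin 2) A) (n : ℕ) (g : Qb ≃ₐ[ℚ] Qb) :
    ((redHom r n g : (Matrix (Fin 2) (Fin 2) (A ⧸ maximalIdeal A ^ n))ˣ) :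
      Matrix (Fin 2) (Fin 2) (A ⧸ maximalIdeal A ^ n)) = redMat A n (r g) := rfl

variable (p : ℕ) [hp : Fact p.Prime]

/-- **TAME modulo `𝔪ⁿ`.** -/
theorem tame_mod_pow (hpA : (p : A) ∈ maximalIdeal A)
    (r : (Qb ≃ₐ[ℚ] Qb) →* Matrix (Fin 2) (Fin 2) A) (hr : MatCont r)
    (v : Nat.Primes) (hpv : p ≠ (v : ℕ))
    (hur : ∀ s ∈ (primeLocalPlace v).inertiaSubgroupIn ℚ, EntIn (maximalIdeal A) (r s - 1)) (n : ℕ) :
    redHom r n (globFrobAt v) * redHom r n (globGenAt v p) * (redHom r n (globFrobAt v))⁻¹ =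
      redHom r n (globGenAt v p) ^ (v : ℕ) ∧
    (∀ s ∈ (primeLocalPlace v).decompositionSubgroup ℚ, redHom r n s ∈
      Subgroup.closure {redHom r n (globFrobAt v), redHom r n (globGenAt v p)}) ∧
    ∀ s ∈ (primeLocalPlace v).inertiaSubgroupIn ℚ, ∃ j : ℕ,
      redHom r n s = redHom r n (globGenAt v p) ^ j := by
  obtain ⟨L, hL, hLr⟩ := hr n
  haveI := hL
  have hF : ∀ s ∈ L.fixingSubgroup, redHom r n s = 1 := by
    intro s hs
    apply Units.ext
    rw [redHom_val, Units.val_one, ← map_one (redMat A n), redMat_eq_iff]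
    exact hLr s ((IntermediateField.mem_fixingSubgroup_iff L s).1 hs)
  have hpf : ∀ s ∈ (primeLocalPlace v).inertiaSubgroupIn ℚ, ∃ k : ℕ, redHom r n s ^ p ^ k = 1 := by
    intro s hs
    refine ⟨n, ?_⟩
    apply Units.ext
    rw [Units.val_pow_eq_pow_val, redHom_val, Units.val_one, ← map_pow, ← map_one (redMat A n),
      redMat_eq_iff]
    exact (EntIn.pow_prime_pow_sub_one hpA (hur s hs) n).mono (Ideal.pow_le_pow_right (by omega))
  obtain ⟨h1, -, h3, h4⟩ := tame_at_prime v hp.out hpv (redHom r n) L hF hpf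
  exact ⟨h1, h3, h4⟩

/-- **The tame relation `Φ Σ = Σ^v Φ`** for an adically continuous matrix representation over a separated local
ring, residually unramified at `v ≠ p`. -/
theorem tame_relation_of_matCont [IsHausdorff (maximalIdeal A) A] (hpA : (p : A) ∈ maximalIdeal A)
    (r : (Qb ≃ₐ[ℚ] Qb) →* Matrix (Fin 2) (Fin 2) A) (hr : MatCont r)
    (v : Nat.Primes) (hpv : p ≠ (v : ℕ))
    (hur : ∀ s ∈ (primeLocalPlace v).inertiaSubgroupIn ℚ, EntIn (maximalIdeal A) (r s - 1)) :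
    r (globFrobAt v) * r (globGenAt v p) = r (globGenAt v p) ^ (v : ℕ) * r (globFrobAt v) := by
  have key : ∀ n : ℕ, EntIn (maximalIdeal A ^ n)
      (r (globFrobAt v) * r (globGenAt v p) - r (globGenAt v p) ^ (v : ℕ) * r (globFrobAt v)) := by
    intro n
    obtain ⟨h1, -, -⟩ := tame_mod_pow p hpA r hr v hpv hur n
    rw [← redMat_eq_iff, map_mul, map_mul, map_pow, ← redHom_val, ← redHom_val,
      ← Units.val_pow_eq_pow_val, ← Units.val_mul, ← Units.val_mul, ← h1]
    congr 1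
    group
  rw [← sub_eq_zero]
  ext i j
  rw [Matrix.zero_apply]
  apply IsHausdorff.haus (inferInstance : IsHausdorff (maximalIdeal A) A)
  intro n
  rw [SModEq.zero, smul_eq_mul, Ideal.mul_top]
  exact key n i j

/-- **The tame relation for a based adic Galois representation**, residually unramified at `v ≠ p`. -/
theorem matOf_tame_relation [IsHausdorff (maximalIdeal A) A] (hpA : (p : A) ∈ maximalIdeal A)
    (ρ : GaloisRepAdic A) (b : Module.Basis (Fin 2) A ρ.V) (v : Nat.Primes) (hpv : p ≠ (v : ℕ))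
    (hur : ρ.residual.IsUnramifiedAt (v : ℕ)) :
    matOf ρ b (globFrobAt v) * matOf ρ b (globGenAt v p) =
      matOf ρ b (globGenAt v p) ^ (v : ℕ) * matOf ρ b (globFrobAt v) := by
  refine tame_relation_of_matCont p hpA (matOfHom ρ b) (matCont_matOf ρ b) v hpv ?_
  intro s hs i j
  have h1 : matOfRes ρ.residual (residualBasis ρ b) s = 1 := by
    unfold matOfRes
    rw [hur _ (Fermat.Agent.S56lib.TWSel.primeLocalPlace_liesOverPrime v) s hs]
    exact LinearMap.toMatrix_one _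
  rw [matOfRes_residual] at h1
  have h2 := congrFun (congrFun h1 i) j
  rw [Matrix.map_apply] at h2
  rw [matOfHom_apply, Matrix.sub_apply, ← residue_eq_zero_iff, map_sub, h2]
  by_cases hij : i = j
  · subst hij; simp
  · simp [hij]

end Tame

/-! ### determinants of the tame generators -/

section Det

variable {A : Type} [CommRing A] [IsLocalRing A]
variable (p : ℕ) [hp : Fact p.Prime]

/-- inertia at `ℓ ≠ p` fixes the `p`-power roots of unity -/
theorem inertia_apply_rootOfUnity {P : ValuationSubring Qb} {ℓ : ℕ} (hℓ : ℓ.Prime) (hℓp : ℓ ≠ p)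
    (hP : P.LiesOverPrime ℓ) {σ : Qb ≃ₐ[ℚ] Qb} (hσ : σ ∈ P.inertiaSubgroupIn ℚ) {n : ℕ} {t : Qb}
    (ht : t ^ p ^ n = 1) : σ t = t := by
  have h1 := Fermat.Agent.S29lib.S30.chiZp_spec p σ ht
  rw [Fermat.Agent.S29lib.S30.chiZp_of_mem_inertia hℓ hℓp hP hσ, Units.val_one, map_one,
    ZMod.val_one_eq_one_mod] at h1
  rw [h1]
  conv_rhs => rw [← pow_one t, ← Nat.mod_add_div 1 (p ^ n), pow_add, pow_mul, ht, one_pow, mul_one]

/-- an element of `A` which is divisible by every power of `p` vanishes -/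
theorem eq_of_forall_sub_mem_span [IsHausdorff (maximalIdeal A) A] (hpA : (p : A) ∈ maximalIdeal A)
    {x y : A} (h : ∀ n : ℕ, x - y ∈ Ideal.span {((p ^ n : ℕ) : A)}) : x = y := by
  rw [← sub_eq_zero]
  apply IsHausdorff.haus (inferInstance : IsHausdorff (maximalIdeal A) A)
  intro n
  rw [SModEq.zero, smul_eq_mul, Ideal.mul_top]
  have hle : Ideal.span {((p ^ n : ℕ) : A)} ≤ maximalIdeal A ^ n := by
    rw [Ideal.span_le, Set.singleton_subset_iff, Nat.cast_pow]
    exact Ideal.pow_mem_pow hpA n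
  exact hle (h n)

/-- `det ρ(Φ_v) = v` -/
theorem det_matOf_globFrobAt [IsHausdorff (maximalIdeal A) A] (ρ : GaloisRepAdic A)
    (hdet : ρ.DetIsCyclotomic p) (b : Module.Basis (Fin 2) A ρ.V) (v : Nat.Primes)
    (hpv : p ≠ (v : ℕ)) : (matOf ρ b (globFrobAt v)).det = ((v : ℕ) : A) := by
  unfold matOf
  rw [LinearMap.det_toMatrix]
  refine eq_of_forall_sub_mem_span p hdet.1 fun n => hdet.2 n _ _ fun μ hμ => ?_
  have hcop : Nat.Coprime (p ^ n) (v : ℕ) :=
    Nat.Coprime.pow_left n ((Nat.coprime_primes hp.out v.2).2 hpv)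
  exact frobenius_apply_rootOfUnity (Fermat.Agent.S56lib.TWSel.primeLocalPlace_liesOverPrime v)
    (pow_pos hp.out.pos n) hcop hμ (globFrobAt_isFrobeniusAt v)

/-- `det ρ(Σ_v) = 1` -/
theorem det_matOf_globGenAt [IsHausdorff (maximalIdeal A) A] (ρ : GaloisRepAdic A)
    (hdet : ρ.DetIsCyclotomic p) (b : Module.Basis (Fin 2) A ρ.V) (v : Nat.Primes)
    (hpv : p ≠ (v : ℕ)) : (matOf ρ b (globGenAt v p)).det = 1 := by
  unfold matOf
  rw [LinearMap.det_toMatrix]
  have h1 : LinearMap.det (ρ.ρ (globGenAt v p)) = ((1 : ℕ) : A) := by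
    refine eq_of_forall_sub_mem_span p hdet.1 fun n => hdet.2 n _ _ fun μ hμ => ?_
    rw [pow_one]
    exact inertia_apply_rootOfUnity p v.2 (Ne.symm hpv)
      (Fermat.Agent.S56lib.TWSel.primeLocalPlace_liesOverPrime v) (globGenAt_mem_inertia v p) hμ
  rw [h1, Nat.cast_one]

end Det

end Fermat.Agent.S43lib.B3
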