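/-
S43lib / B3 / UnramOfGen (helper4): **an adic representation, residually unramified at `v ≠ p`, whose tame
generator `Σ_v = globGenAt v p` acts trivially, is unramified at `v`.**

`A` a local ring, separated for the `𝔪`-adic topology, with `p ∈ 𝔪`.  By `tame_mod_pow` the image of the inertia
group at the standard place over `v` in `GL₂(A/𝔪ⁿ)` is generated by the image of `Σ_v`, for every `n`; all places
over `v` are conjugate.
-/
import Mathlib
import Fermat.Agent.S43lib.B3.AdicTame

set_option autoImplicit false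
set_option linter.unusedSectionVars false
set_option linter.style.haveILetI false

noncomputable section

namespace Fermat.Agent.S43lib.B3

open IsLocalRing Fermat.Agent.TeamA.Rep ExtCitation
open scoped Pointwise

local notation "Qb" => AlgebraicClosure ℚ

variable {A : Type} [CommRing A] [IsLocalRing A]
variable (p : ℕ) [hp : Fact p.Prime]

/-- matrix form, at the standard place over `v` -/
theorem eq_one_of_globGen_eq_one_of_matCont [IsHausdorff (maximalIdeal A) A]
    (hpA : (p : A) ∈ maximalIdeal A)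
    (r : (Qb ≃ₐ[ℚ] Qb) →* Matrix (Fin 2) (Fin 2) A) (hr : MatCont r)
    (v : Nat.Primes) (hpv : p ≠ (v : ℕ))
    (hur : ∀ s ∈ (primeLocalPlace v).inertiaSubgroupIn ℚ, EntIn (maximalIdeal A) (r s - 1))
    (hgen : r (globGenAt v p) = 1) :
    ∀ s ∈ (primeLocalPlace v).inertiaSubgroupIn ℚ, r s = 1 := by
  intro s hs
  have key : ∀ n : ℕ, EntIn (maximalIdeal A ^ n) (r s - 1) := by
    intro n
    obtain ⟨-, -, h3⟩ := tame_mod_pow p hpA r hr v hpv hur n
    obtain ⟨j, hj⟩ := h3 s hs
    have h1 : redHom r n (globGenAt v p) = 1 := by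
      apply Units.ext
      rw [redHom_val, hgen, map_one, Units.val_one]
    rw [h1, one_pow] at hj
    have h2 := congrArg Units.val hj
    rw [redHom_val, Units.val_one, ← map_one (redMat A n), redMat_eq_iff] at h2
    exact h2
  rw [← sub_eq_zero]
  ext i j
  rw [Matrix.zero_apply]
  apply IsHausdorff.haus (inferInstance : IsHausdorff (maximalIdeal A) A)
  intro n
  rw [SModEq.zero, smul_eq_mul, Ideal.mul_top]
  exact key n i j

/-- **`unram_of_globGen_eq_one`**: if `ρ` is residually unramified at `v ≠ p` and `ρ(Σ_v) = 1`, then `ρ` is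
unramified at `v`. -/
theorem unram_of_globGen_eq_one [IsHausdorff (maximalIdeal A) A] (hpA : (p : A) ∈ maximalIdeal A)
    (ρ : GaloisRepAdic A) (b : Module.Basis (Fin 2) A ρ.V) (v : Nat.Primes) (hpv : p ≠ (v : ℕ))
    (hur : ρ.residual.IsUnramifiedAt (v : ℕ))
    (hgen : matOf ρ b (globGenAt v p) = 1) : ρ.IsUnramifiedAt (v : ℕ) := by
  have h0 : ∀ s ∈ (primeLocalPlace v).inertiaSubgroupIn ℚ, ρ.ρ s = 1 := by
    intro s hs
    have h1 : matOfHom ρ b s = 1 := by
      refine eq_one_of_globGen_eq_one_of_matCont p hpA (matOfHom ρ b) (matCont_matOf ρ b) v hpv ?_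
        (by rw [matOfHom_apply]; exact hgen) s hs
      intro s hs i j
      have h1 : matOfRes ρ.residual (residualBasis ρ b) s = 1 := by
        unfold matOfRes
        rw [hur _ (Fermat.Agent.S56lib.TWSel.primeLocalPlace_liesOverPrime v) s hs]
        exact LinearMap.toMatrix_one _
      rw [matOfRes_residual] at h1
      have h2 := congrFun (congrFun h1 i) j
      rw [Matrix.map_apply] at h2
      rw [matOfHom_apply, Matrix.sub_apply, ← residue_eq_zero_iff, map_sub, h2]
      by_cases hij : i = j
      · subst hij; simp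
      · simp [hij]
    rw [matOfHom_apply] at h1
    unfold matOf at h1
    apply (LinearMap.toMatrix b b).injective
    rw [h1]
    exact (LinearMap.toMatrix_one b).symm
  intro P hP σ hσ
  obtain ⟨g, hg⟩ : ∃ g : Qb ≃ₐ[ℚ] Qb, P = g • primeLocalPlace v :=
    Fermat.Agent.S56lib.TWSel.exists_smul_eq_of_liesOverPrime v.2
      (Fermat.Agent.S56lib.TWSel.primeLocalPlace_liesOverPrime v) hP
  have h1 : g⁻¹ * σ * g⁻¹⁻¹ ∈ (g⁻¹ • P).inertiaSubgroupIn ℚ :=
    Fermat.Agent.S56lib.TWSel.conj_mem_inertia hσ
  rw [inv_inv, hg, inv_smul_smul] at h1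
  have h2 := h0 _ h1
  have h3 : σ = g * (g⁻¹ * σ * g) * g⁻¹ := by group
  rw [h3, map_mul, map_mul, h2, mul_one, ← map_mul, mul_inv_cancel, map_one]

end Fermat.Agent.S43lib.B3
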