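/-
S43lib / B3 / EndGal (helper4): **END-GLUE, Galois half.**

* `unram_of_forall_trace_globGen`: `A` local Hausdorff, `p ∈ 𝔪`; `ρ` residually absolutely irreducible and
  residually unramified at `v ≠ p`; if `tr ρ(Σ_v h) = tr ρ(h)` for all `h` then `ρ` is unramified at `v`.
* base change along a local hom `x : R →+* A`: the matrices of `ρ.baseChangeAlong x` span `M₂(A)`
  (`span_range_matOf_baseChangeAlong`, `span_range_rho_baseChangeAlong`), its residual representation is
  absolutely irreducible / unramified at `v` when that of `ρ` is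
  (`residual_absIrr_baseChangeAlong`, `residual_isUnramifiedAt_baseChangeAlong`), and
  `unram_baseChangeAlong_of_forall_trace`: if `x (tr ρ(Σ_v h)) = x (tr ρ(h))` for all `h` then
  `ρ.baseChangeAlong x` is unramified at `v`.
* for a `HeckeGaloisRepDatum` `H` and a local `x : T →+* 𝒪'`: the Frobenius characteristic polynomials and
  the span statement for `H.ρ.baseChangeAlong x` (`heckeDatum_charpoly_baseChangeAlong`,
  `heckeDatum_span_baseChangeAlong`) – the shape of the hypotheses of `ENDStmt`.
-/
import Mathlib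
import Fermat.Agent.S43lib.B3.UnramOfGen
import Fermat.Agent.S43lib.Loc.TraceKernelGal

set_option autoImplicit false
set_option linter.unusedSectionVars false
set_option linter.style.haveILetI false

noncomputable section

namespace Fermat.Agent.S43lib.B3

open IsLocalRing Fermat.Agent.TeamA.Rep ExtCitation Polynomial
open Fermat.Agent.S43lib.Loc
open scoped TensorProduct

local notation "Qb" => AlgebraicClosure ℚ

/-! ### Spanning families of matrices under a ring hom -/

section span

/-- the image of a spanning family of matrices under a ring hom spans -/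
theorem span_range_map_eq_top {R A : Type*} [CommRing R] [CommRing A] (x : R →+* A) {G : Type*}
    (r : G → Matrix (Fin 2) (Fin 2) R) (h : Submodule.span R (Set.range r) = ⊤) :
    Submodule.span A (Set.range fun g => (r g).map x) = ⊤ := by
  have key : ∀ Y ∈ Submodule.span R (Set.range r),
      Y.map x ∈ Submodule.span A (Set.range fun g => (r g).map x) := by
    intro Y hY
    induction hY using Submodule.span_induction with
    | mem Y hY =>
      obtain ⟨g, rfl⟩ := hY
      exact Submodule.subset_span ⟨g, rfl⟩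
    | zero =>
      have : (0 : Matrix (Fin 2) (Fin 2) R).map x = 0 := by
        ext i j; simp
      rw [this]
      exact Submodule.zero_mem _
    | add Y Z _ _ hY hZ =>
      have : (Y + Z).map x = Y.map x + Z.map x := by
        ext i j; simp
      rw [this]
      exact Submodule.add_mem _ hY hZ
    | smul c Y _ hY =>
      have : (c • Y).map x = x c • Y.map x := by
        ext i j; simp
      rw [this]
      exact Submodule.smul_mem _ _ hY
  rw [eq_top_iff]
  intro Z _
  rw [Matrix.matrix_eq_sum_single Z]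
  refine Submodule.sum_mem _ fun i _ => Submodule.sum_mem _ fun j _ => ?_
  have h1 : Matrix.single i j (Z i j) = Z i j • (Matrix.single i j (1 : R)).map x := by
    ext a b
    by_cases hab : i = a ∧ j = b
    · obtain ⟨rfl, rfl⟩ := hab
      simp
    · simp [hab]
  rw [h1]
  exact Submodule.smul_mem _ _ (key _ (by rw [h]; trivial))

end span

/-! ### 2a: the trace criterion -/

section crit

variable {A : Type} [CommRing A] [IsLocalRing A]
variable (p : ℕ) [hp : Fact p.Prime]

/-- matrix form of the criterion: if the matrices of `ρ` span `M₂(A)`, `ρ` is residually unramified at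
`v ≠ p` and `Σ_v` does not change the trace function, then `ρ` is unramified at `v`. -/
theorem unram_of_span_of_forall_trace [IsHausdorff (maximalIdeal A) A]
    (hpA : (p : A) ∈ maximalIdeal A) (ρ : GaloisRepAdic A) (b : Module.Basis (Fin 2) A ρ.V)
    (hspan : Submodule.span A (Set.range (matOf ρ b)) = ⊤)
    (v : Nat.Primes) (hpv : p ≠ (v : ℕ)) (hur : ρ.residual.IsUnramifiedAt (v : ℕ))
    (htr : ∀ h : Qb ≃ₐ[ℚ] Qb, ρ.trace (globGenAt v p * h) = ρ.trace h) :
    ρ.IsUnramifiedAt (v : ℕ) := by
  refine unram_of_globGen_eq_one p hpA ρ b v hpv hur ?_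
  have htr' : ∀ g, ρ.trace g = (matOfHom ρ b g).trace := fun g =>
    LinearMap.trace_eq_matrix_trace A b (ρ.ρ g)
  have h1 := (eq_one_iff_forall_trace_mul (matOfHom ρ b) hspan (globGenAt v p)).mpr
    fun g => by rw [← htr', ← htr', htr]
  rw [matOfHom_apply] at h1
  exact h1

/-- **END-GLUE (2a).** -/
theorem unram_of_forall_trace_globGen [IsHausdorff (maximalIdeal A) A]
    (hpA : (p : A) ∈ maximalIdeal A) (ρ : GaloisRepAdic A)
    (hirr : ρ.residual.IsAbsolutelyIrreducible)
    (v : Nat.Primes) (hpv : p ≠ (v : ℕ)) (hur : ρ.residual.IsUnramifiedAt (v : ℕ))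
    (htr : ∀ h : Qb ≃ₐ[ℚ] Qb, ρ.trace (globGenAt v p * h) = ρ.trace h) :
    ρ.IsUnramifiedAt (v : ℕ) := by
  let b : Module.Basis (Fin 2) A ρ.V := Module.finBasisOfFinrankEq A ρ.V ρ.finrank_eq
  exact unram_of_span_of_forall_trace p hpA ρ b (span_range_matOf_eq_top ρ hirr b) v hpv hur htr

end crit

/-! ### From matrices to endomorphisms -/

section endo

variable {A : Type} [CommRing A] [IsLocalRing A]

/-- if the matrices of `ρ` span `M₂(A)` then the operators `ρ(g)` span `End_A(V)` -/
theorem span_range_rho_of_span_matOf (ρ : GaloisRepAdic A) (b : Module.Basis (Fin 2) A ρ.V)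
    (h1 : Submodule.span A (Set.range (matOf ρ b)) = ⊤) :
    Submodule.span A (Set.range ρ.ρ) = (⊤ : Submodule A (Module.End A ρ.V)) := by
  have h2 : Set.range (matOf ρ b) =
      (((LinearMap.toMatrix b b : Module.End A ρ.V ≃ₗ[A] Matrix (Fin 2) (Fin 2) A) :
        Module.End A ρ.V →ₗ[A] Matrix (Fin 2) (Fin 2) A)) '' Set.range ρ.ρ := by
    ext W
    constructor
    · rintro ⟨g, rfl⟩
      exact ⟨ρ.ρ g, ⟨g, rfl⟩, rfl⟩
    · rintro ⟨_, ⟨g, rfl⟩, rfl⟩
      exact ⟨g, rfl⟩
  rw [h2, ← Submodule.map_span] at h1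
  rw [eq_top_iff]
  intro f _
  have hf : (LinearMap.toMatrix b b : Module.End A ρ.V ≃ₗ[A] Matrix (Fin 2) (Fin 2) A) f ∈
      (⊤ : Submodule A (Matrix (Fin 2) (Fin 2) A)) := Submodule.mem_top
  rw [← h1] at hf
  obtain ⟨f', hf', hff'⟩ := hf
  have : f' = f := (LinearMap.toMatrix b b).injective hff'
  rw [← this]
  exact hf'

end endo

/-! ### Converse Burnside for residual representations -/

section burnside

/-- a subspace stable under all endomorphisms is trivial -/
theorem eq_bot_or_eq_top_of_forall_end {K V : Type*} [Field K] [AddCommGroup V] [Module K V]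
    (W : Submodule K V) (h : ∀ f : Module.End K V, ∀ x ∈ W, f x ∈ W) : W = ⊥ ∨ W = ⊤ := by
  by_cases hW : W = ⊥
  · exact Or.inl hW
  · right
    obtain ⟨w, hwW, hw0⟩ := (Submodule.ne_bot_iff W).mp hW
    obtain ⟨φ, hφ⟩ : ∃ φ : Module.Dual K V, φ w ≠ 0 := by
      by_contra hcon
      exact hw0 ((Module.forall_dual_apply_eq_zero_iff K w).mp fun φ =>
        not_not.mp fun hne => hcon ⟨φ, hne⟩)
    rw [eq_top_iff]
    intro y _
    have h1 := h ((φ w)⁻¹ • (φ.smulRight y)) w hwW
    rw [LinearMap.smul_apply, LinearMap.smulRight_apply, smul_smul, inv_mul_cancel₀ hφ,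
      one_smul] at h1
    exact h1

variable {k : Type} [Field k]

/-- **converse Burnside**: a residual representation whose matrices span `M₂(k)` is absolutely
irreducible -/
theorem res_absIrr_of_span (ρ : ResidualGaloisRep k) (b : Module.Basis (Fin 2) k ρ.V)
    (h : Submodule.span k (Set.range (matOfRes ρ b)) = ⊤) : ρ.IsAbsolutelyIrreducible := by
  unfold ResidualGaloisRep.IsAbsolutelyIrreducible ResidualGaloisRep.IsIrreducible
  intro W hW
  let K := AlgebraicClosure k
  let bK : Module.Basis (Fin 2) K (ρ.baseChange K).V := Algebra.TensorProduct.basis K b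
  have hmat : ∀ g, LinearMap.toMatrix bK bK ((ρ.baseChange K).ρ g) =
      (matOfRes ρ b g).map (algebraMap k K) := fun g =>
    LinearMap.toMatrix_baseChange K (ρ.ρ g) b b
  have h1 := span_range_map_eq_top (algebraMap k K) (matOfRes ρ b) h
  -- the operators span `End_K`
  have h2 : Submodule.span K (Set.range (ρ.baseChange K).ρ) =
      (⊤ : Submodule K (Module.End K (ρ.baseChange K).V)) := by
    have h3 : (Set.range fun g => (matOfRes ρ b g).map (algebraMap k K)) =
        (((LinearMap.toMatrix bK bK :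
          Module.End K (ρ.baseChange K).V ≃ₗ[K] Matrix (Fin 2) (Fin 2) K) :
          Module.End K (ρ.baseChange K).V →ₗ[K] Matrix (Fin 2) (Fin 2) K)) ''
          Set.range (ρ.baseChange K).ρ := by
      ext Z
      constructor
      · rintro ⟨g, rfl⟩
        exact ⟨(ρ.baseChange K).ρ g, ⟨g, rfl⟩, hmat g⟩
      · rintro ⟨_, ⟨g, rfl⟩, rfl⟩
        exact ⟨g, (hmat g).symm⟩
    rw [h3, ← Submodule.map_span] at h1
    rw [eq_top_iff]
    intro f _
    have hf : (LinearMap.toMatrix bK bK :
        Module.End K (ρ.baseChange K).V ≃ₗ[K] Matrix (Fin 2) (Fin 2) K) f ∈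
        (⊤ : Submodule K (Matrix (Fin 2) (Fin 2) K)) := Submodule.mem_top
    rw [← h1] at hf
    obtain ⟨f', hf', hff'⟩ := hf
    have : f' = f := (LinearMap.toMatrix bK bK).injective hff'
    rw [← this]
    exact hf'
  refine eq_bot_or_eq_top_of_forall_end W fun f => ?_
  have hf : f ∈ Submodule.span K (Set.range (ρ.baseChange K).ρ) := by rw [h2]; trivial
  induction hf using Submodule.span_induction with
  | mem f hf =>
    obtain ⟨g, rfl⟩ := hf
    exact hW g
  | zero => intro x _; rw [LinearMap.zero_apply]; exact W.zero_mem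
  | add f f' _ _ hf hf' =>
    intro x hx
    rw [LinearMap.add_apply]
    exact W.add_mem (hf x hx) (hf' x hx)
  | smul c f _ hf =>
    intro x hx
    rw [LinearMap.smul_apply]
    exact W.smul_mem c (hf x hx)

end burnside

/-! ### Base change along a local homomorphism -/

section bc

variable {R A : Type} [CommRing R] [IsLocalRing R] [CommRing A] [IsLocalRing A]

/-- traces under base change -/
theorem trace_baseChangeAlong' (x : R →+* A) (hx : IsLocalHom x) (ρ : GaloisRepAdic R)
    (g : Qb ≃ₐ[ℚ] Qb) : (ρ.baseChangeAlong x hx).trace g = x (ρ.trace g) := by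
  let b : Module.Basis (Fin 2) R ρ.V := Module.finBasisOfFinrankEq R ρ.V ρ.finrank_eq
  have h1 : (ρ.baseChangeAlong x hx).trace g =
      (matOf (ρ.baseChangeAlong x hx) (bcBasis x hx ρ b) g).trace :=
    LinearMap.trace_eq_matrix_trace A (bcBasis x hx ρ b) _
  have h2 : ρ.trace g = (matOf ρ b g).trace := LinearMap.trace_eq_matrix_trace R b _
  rw [h1, h2, matOf_baseChangeAlong, Matrix.trace_fin_two, Matrix.trace_fin_two, map_add]
  rfl

/-- the matrices of a base change span `M₂` when those of `ρ` do -/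
theorem span_range_matOf_baseChangeAlong (x : R →+* A) (hx : IsLocalHom x) (ρ : GaloisRepAdic R)
    (b : Module.Basis (Fin 2) R ρ.V) (h : Submodule.span R (Set.range (matOf ρ b)) = ⊤) :
    Submodule.span A (Set.range (matOf (ρ.baseChangeAlong x hx) (bcBasis x hx ρ b))) = ⊤ := by
  have h1 := span_range_map_eq_top x (matOf ρ b) h
  have h2 : (matOf (ρ.baseChangeAlong x hx) (bcBasis x hx ρ b)) =
      fun g => (matOf ρ b g).map x := funext fun g => matOf_baseChangeAlong x hx ρ b g
  rw [h2]
  exact h1

/-- **the operators of a base change of a residually absolutely irreducible representation span** -/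
theorem span_range_rho_baseChangeAlong (x : R →+* A) (hx : IsLocalHom x) (ρ : GaloisRepAdic R)
    (hirr : ρ.residual.IsAbsolutelyIrreducible) :
    Submodule.span A (Set.range (ρ.baseChangeAlong x hx).ρ) =
      (⊤ : Submodule A (Module.End A (ρ.baseChangeAlong x hx).V)) := by
  let b : Module.Basis (Fin 2) R ρ.V := Module.finBasisOfFinrankEq R ρ.V ρ.finrank_eq
  exact span_range_rho_of_span_matOf _ (bcBasis x hx ρ b)
    (span_range_matOf_baseChangeAlong x hx ρ b (span_range_matOf_eq_top ρ hirr b))

/-- residual matrices of a base change -/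
theorem matOfRes_residual_baseChangeAlong (x : R →+* A) (hx : IsLocalHom x) (ρ : GaloisRepAdic R)
    (b : Module.Basis (Fin 2) R ρ.V) (g : Qb ≃ₐ[ℚ] Qb) :
    matOfRes (ρ.baseChangeAlong x hx).residual
        (residualBasis (ρ.baseChangeAlong x hx) (bcBasis x hx ρ b)) g =
      (matOfRes ρ.residual (residualBasis ρ b) g).map
        (haveI := hx; ResidueField.map x) := by
  haveI := hx
  rw [matOfRes_residual, matOf_baseChangeAlong, matOfRes_residual]
  ext i j
  rw [Matrix.map_apply, Matrix.map_apply, Matrix.map_apply, Matrix.map_apply,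
    ResidueField.map_residue]

/-- **residual absolute irreducibility passes to a base change** -/
theorem residual_absIrr_baseChangeAlong (x : R →+* A) (hx : IsLocalHom x) (ρ : GaloisRepAdic R)
    (hirr : ρ.residual.IsAbsolutelyIrreducible) :
    (ρ.baseChangeAlong x hx).residual.IsAbsolutelyIrreducible := by
  haveI := hx
  let b : Module.Basis (Fin 2) R ρ.V := Module.finBasisOfFinrankEq R ρ.V ρ.finrank_eq
  have h1 := span_range_matOfRes_eq_top ρ.residual hirr (residualBasis ρ b)
  have h2 := span_range_map_eq_top (ResidueField.map x) _ h1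
  refine res_absIrr_of_span _ (residualBasis (ρ.baseChangeAlong x hx) (bcBasis x hx ρ b)) ?_
  have h3 : matOfRes (ρ.baseChangeAlong x hx).residual
      (residualBasis (ρ.baseChangeAlong x hx) (bcBasis x hx ρ b)) =
      fun g => (matOfRes ρ.residual (residualBasis ρ b) g).map (ResidueField.map x) :=
    funext fun g => matOfRes_residual_baseChangeAlong x hx ρ b g
  rw [h3]
  exact h2

/-- **residual unramifiedness passes to a base change** -/
theorem residual_isUnramifiedAt_baseChangeAlong (x : R →+* A) (hx : IsLocalHom x)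
    (ρ : GaloisRepAdic R) {q : ℕ} (h : ρ.residual.IsUnramifiedAt q) :
    (ρ.baseChangeAlong x hx).residual.IsUnramifiedAt q := by
  haveI := hx
  let b : Module.Basis (Fin 2) R ρ.V := Module.finBasisOfFinrankEq R ρ.V ρ.finrank_eq
  intro P hP σ hσ
  have h1 : matOfRes ρ.residual (residualBasis ρ b) σ = 1 := by
    unfold matOfRes
    rw [h P hP σ hσ]
    exact LinearMap.toMatrix_one _
  have h2 := matOfRes_residual_baseChangeAlong x hx ρ b σ
  rw [h1] at h2
  have h3 : (1 : Matrix (Fin 2) (Fin 2) (ResidueField R)).map (ResidueField.map x) = 1 := by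
    ext i j
    by_cases hij : i = j
    · subst hij; simp
    · simp [hij]
  rw [h3] at h2
  unfold matOfRes at h2
  apply (LinearMap.toMatrix (residualBasis (ρ.baseChangeAlong x hx) (bcBasis x hx ρ b))
    (residualBasis (ρ.baseChangeAlong x hx) (bcBasis x hx ρ b))).injective
  rw [h2]
  exact (LinearMap.toMatrix_one _).symm

variable (p : ℕ) [hp : Fact p.Prime]

/-- **END-GLUE (2b), base-change form.** -/
theorem unram_baseChangeAlong_of_forall_trace [IsHausdorff (maximalIdeal A) A]
    (hpA : (p : A) ∈ maximalIdeal A) (x : R →+* A) (hx : IsLocalHom x) (ρ : GaloisRepAdic R)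
    (hirr : ρ.residual.IsAbsolutelyIrreducible)
    (v : Nat.Primes) (hpv : p ≠ (v : ℕ)) (hur : ρ.residual.IsUnramifiedAt (v : ℕ))
    (htr : ∀ h : Qb ≃ₐ[ℚ] Qb, x (ρ.trace (globGenAt v p * h)) = x (ρ.trace h)) :
    (ρ.baseChangeAlong x hx).IsUnramifiedAt (v : ℕ) := by
  let b : Module.Basis (Fin 2) R ρ.V := Module.finBasisOfFinrankEq R ρ.V ρ.finrank_eq
  refine unram_of_span_of_forall_trace p hpA _ (bcBasis x hx ρ b)
    (span_range_matOf_baseChangeAlong x hx ρ b (span_range_matOf_eq_top ρ hirr b)) v hpv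
    (residual_isUnramifiedAt_baseChangeAlong x hx ρ hur) fun h => ?_
  rw [trace_baseChangeAlong', trace_baseChangeAlong', htr]

end bc

/-! ### Hecke data -/

section hecke

open CuspForm

variable {N : ℕ} [NeZero N] {S : Set ℕ}
  {𝒪 : Type} [CommRing 𝒪] [IsDomain 𝒪] [IsDiscreteValuationRing 𝒪]
  [IsAdicComplete (maximalIdeal 𝒪) 𝒪]
  {θ : heckeAlgebra N 2 S →+* ResidueField 𝒪}
  {T : Type} [CommRing T] [IsLocalRing T] [IsNoetherianRing T]
  [IsAdicComplete (maximalIdeal T) T] [Algebra 𝒪 T] [IsLocalHom (algebraMap 𝒪 T)]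
  [Module.Finite 𝒪 T] [Module.Free 𝒪 T]
  {𝒪' : Type} [CommRing 𝒪'] [IsLocalRing 𝒪']

/-- characteristic polynomials under `GaloisRepAdic.baseChangeAlong` -/
theorem charpoly_baseChangeAlong {R A : Type} [CommRing R] [IsLocalRing R] [CommRing A]
    [IsLocalRing A] (x : R →+* A) (hx : IsLocalHom x) (ρ : GaloisRepAdic R) (σ : Qb ≃ₐ[ℚ] Qb) :
    LinearMap.charpoly ((ρ.baseChangeAlong x hx).ρ σ) = (LinearMap.charpoly (ρ.ρ σ)).map x := by
  letI : Algebra R A := x.toAlgebra
  exact LinearMap.charpoly_baseChange (A := A) (ρ.ρ σ)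

/-- **Frobenius characteristic polynomials at a point of a Hecke datum** -/
theorem heckeDatum_charpoly_baseChangeAlong (H : HeckeGaloisRepDatum N S 𝒪 θ T)
    (x : T →+* 𝒪') (hx : IsLocalHom x)
    (ℓ : ℕ) (hℓ : ℓ.Prime) (hℓN : ¬ ℓ ∣ N) (hℓS : ℓ ∉ S)
    (P : ValuationSubring Qb) (hP : P.LiesOverPrime ℓ) (σ : Qb ≃ₐ[ℚ] Qb)
    (hσ : P.IsFrobeniusAt σ ℓ) :
    LinearMap.charpoly ((H.ρ.baseChangeAlong x hx).ρ σ) =
      X ^ 2 - C (x (H.π (heckeAlgebra.T hℓ hℓN hℓS))) * X + C ((ℓ : 𝒪')) := by
  rw [charpoly_baseChangeAlong, H.charpoly_frob ℓ hℓ hℓN hℓS P hP σ hσ]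
  simp only [Polynomial.map_add, Polynomial.map_sub, Polynomial.map_mul, Polynomial.map_pow,
    Polynomial.map_X, Polynomial.map_C, map_natCast, Polynomial.map_natCast]

/-- **the operators at a point of a Hecke datum span** -/
theorem heckeDatum_span_baseChangeAlong (H : HeckeGaloisRepDatum N S 𝒪 θ T)
    (x : T →+* 𝒪') (hx : IsLocalHom x) :
    Submodule.span 𝒪' (Set.range fun σ : Qb ≃ₐ[ℚ] Qb => (H.ρ.baseChangeAlong x hx).ρ σ) = ⊤ :=
  span_range_rho_baseChangeAlong x hx H.ρ H.residual_absIrr

/-- the residual representation at a point of a Hecke datum is absolutely irreducible -/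
theorem heckeDatum_absIrr_baseChangeAlong (H : HeckeGaloisRepDatum N S 𝒪 θ T)
    (x : T →+* 𝒪') (hx : IsLocalHom x) :
    (H.ρ.baseChangeAlong x hx).residual.IsAbsolutelyIrreducible :=
  residual_absIrr_baseChangeAlong x hx H.ρ H.residual_absIrr

end hecke

end Fermat.Agent.S43lib.B3
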