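/-
S43lib / B3 / TrivComp (helper4): **(D₀) — the trivial component.**

Per-point statement for a prime `v` at which the nebentypus is trivial.  Let `M = N₁ T₁` (`T₁` squarefree
and prime to `N₁`: the conductor of the nebentypus), `𝒪` a complete DVR of characteristic zero with finite
residue field of characteristic `p`, `K ⊇ 𝒪` a field.  Let `x ≠ 0` be a class in
`H¹(Γ₀(M), W)` (helper3's `B1.H1 (levelPi χ) K W`; `W` a `K`-vector space on which the diamonds act through a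
character `ψ₁` of `(ℤ/T₁)ˣ`, primitive at all primes of `T₁`) which is an eigenvector of all `T_ℓ` with
eigenvalues `t ℓ ∈ 𝒪` lifting the Frobenius traces of an irreducible `ρ₀` mod `p`; let `ξ² = ψ₁`, `ξ ≡ 1`.
Then every `ρ : GaloisRepAdic 𝒪` with Frobenius characteristic polynomials `X² − ξ(ℓ)⁻¹ t_ℓ X + ℓ`
is unipotent on the inertia groups at every prime `v ∥ N₁`, `v ≠ p`: `tr ρ(σ) = 2`.

Proof: helper5's `bridge_H1` at `(N₁, T := T₁, T₂ := 1)` shows that `T_ℓ ↦ ξ(ℓ)⁻¹ t_ℓ` is a character of the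
Hecke algebra of level `N' = N₁ T₁²` (`v ∥ N'`); a Hecke datum of level `N'` over `𝒪`
(`B2.exists_heckeGaloisRepDatum`) has a point there (`exists_point`), the representation at that point is
unipotent on inertia at `v` by `S34`, and has the same Frobenius characteristic polynomials as `ρ`
(Chebotarev, `S58lib.Cmp.trace_det_map_eq_of_frobenius`).
-/
import Mathlib
import Fermat.Agent.S34
import Fermat.Agent.S58lib.Cmp.Charpoly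
import Fermat.Agent.S43lib.B2.Main
import Fermat.Agent.S43lib.B2.Bridge.ToB1
import Fermat.Agent.S43lib.B2.Bridge.Lift
import Fermat.Agent.S43lib.B3.EndGal

set_option autoImplicit false
set_option linter.unusedSectionVars false
set_option linter.style.haveILetI false

noncomputable section

namespace Fermat.Agent.S43lib.B3

open IsLocalRing Polynomial CuspForm
open Fermat.Agent.S43lib.B2.Bridge

local notation "Qb" => AlgebraicClosure ℚ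

/-! ### Evaluation of the twisted operators on a simultaneous eigenvector -/

section eigen

variable {N₁ T : ℕ} [NeZero (N₁ * T)] {S : Set ℕ} {G : Type*} [Group G]
  (χ : (ZMod (N₁ * T))ˣ →* G)
  (K : Type*) [Field K] (W : Type*) [AddCommGroup W] [Module K W] [DistribMulAction G W]
  [SMulCommClass G K W]
  (T₁ T₂ : ℕ) [NeZero T₁] (hTT : T₁ * T₂ = T) (ξ : (ZMod T₁)ˣ →* Kˣ)

theorem heckeHOp_smul (ℓ : GoodPrime (N₁ * T * T) S) (k : K) (x : B1.H1 (B1.levelPi χ) K W) :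
    heckeHOp χ K W T₁ T₂ hTT ξ ℓ (k • x) = k • heckeHOp χ K W T₁ T₂ hTT ξ ℓ x := by
  rw [heckeHOp_apply, heckeHOp_apply, map_smul, smul_comm]

/-- on a simultaneous eigenvector the evaluation of a polynomial is the scalar given by the eigenvalues -/
theorem evalH_eigen (c : GoodPrime (N₁ * T * T) S → K) (x : B1.H1 (B1.levelPi χ) K W)
    (hx : ∀ ℓ : GoodPrime (N₁ * T * T) S, heckeHOp χ K W T₁ T₂ hTT ξ ℓ x = c ℓ • x)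
    (P : FreeAlgebra ℤ (GoodPrime (N₁ * T * T) S)) (k : K) :
    evalH χ K W T₁ T₂ hTT ξ P (k • x) = (FreeAlgebra.lift ℤ c P * k) • x := by
  induction P using FreeAlgebra.induction generalizing k with
  | grade0 r =>
    rw [AlgHom.commutes, AlgHom.commutes, Module.algebraMap_end_apply, mul_smul]
    rw [eq_intCast, Int.cast_smul_eq_zsmul]
  | grade1 ℓ =>
    unfold evalH
    rw [FreeAlgebra.lift_ι_apply, FreeAlgebra.lift_ι_apply, heckeHOp_smul, hx, smul_smul,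
      mul_comm k (c ℓ)]
  | mul p q hp hq =>
    rw [map_mul, map_mul, Module.End.mul_apply, hq, hp,
      mul_assoc (FreeAlgebra.lift ℤ c p) (FreeAlgebra.lift ℤ c q) k]
  | add p q hp hq =>
    rw [map_add, map_add, LinearMap.add_apply, hp, hq, add_mul, add_smul]

end eigen

/-! ### The relations of level `N₁ T₁²` hold for the twisted eigenvalues -/

section rel

variable {𝒪 : Type} [CommRing 𝒪] {K : Type*} [Field K] [CharZero K] [Algebra 𝒪 K]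
variable {N₁ T₁ : ℕ} [NeZero (N₁ * T₁)] [NeZero (N₁ * T₁ * T₁)] [NeZero T₁] {S : Set ℕ}
variable {G : Type*} [Group G] (χ : (ZMod (N₁ * T₁))ˣ →* G)
  (W : Type*) [AddCommGroup W] [Module K W] [DistribMulAction G W] [SMulCommClass G K W]
  [IsAddTorsionFree W]

/-- a character with values in `𝒪ˣ`, viewed in `Kˣ` -/
def toK (K : Type*) [Field K] [Algebra 𝒪 K] {n : ℕ} (ξ : (ZMod n)ˣ →* 𝒪ˣ) : (ZMod n)ˣ →* Kˣ :=
  (Units.map (algebraMap 𝒪 K : 𝒪 →* K)).comp ξ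

theorem coe_toK {n : ℕ} (ξ : (ZMod n)ˣ →* 𝒪ˣ) (u : (ZMod n)ˣ) :
    ((toK K ξ u : Kˣ) : K) = algebraMap 𝒪 K (ξ u : 𝒪) := rfl

theorem coe_toK_inv {n : ℕ} (ξ : (ZMod n)ˣ →* 𝒪ˣ) (u : (ZMod n)ˣ) :
    (((toK K ξ u)⁻¹ : Kˣ) : K) = algebraMap 𝒪 K (((ξ u)⁻¹ : 𝒪ˣ) : 𝒪) := by
  rw [← map_inv, coe_toK, map_inv]

/-- the twisted eigenvalues `ξ(ℓ)⁻¹ t_ℓ` -/
def twEig (ξ : (ZMod T₁)ˣ →* 𝒪ˣ) (t : ℕ → 𝒪) (ℓ : GoodPrime (N₁ * T₁ * T₁) S) : 𝒪 :=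
  (((ξ (goodUnit T₁ 1 (mul_one T₁) ℓ))⁻¹ : 𝒪ˣ) : 𝒪) * t ℓ.1

/-- **the twisted eigenvalues of an eigenclass satisfy the relations of the Hecke algebra of level
`N₁ T₁²`** -/
theorem relations_of_eigenclass (hK : Function.Injective (algebraMap 𝒪 K)) (hsq : Squarefree T₁)
    (hcop : N₁.Coprime T₁) (ψ₁ ξ : (ZMod T₁)ˣ →* 𝒪ˣ) (hξ : ∀ u, ξ u * ξ u = ψ₁ u)
    (hprim : ∀ (t : ℕ) (ht : t ∣ T₁), t.Prime →
      ∃ x : (ZMod T₁)ˣ, ZMod.unitsMap (Nat.div_dvd_of_dvd ht) x = 1 ∧ ψ₁ x * ψ₁ x ≠ 1)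
    (hW : ActsThrough χ K W T₁ (dvd_of_mul_eq T₁ 1 (mul_one T₁)) (toK K ψ₁))
    (x : B1.H1 (B1.levelPi χ) K W) (hx : x ≠ 0) (t : ℕ → 𝒪)
    (hxt : ∀ ℓ : GoodPrime (N₁ * T₁ * T₁) S,
      (haveI : Fact ℓ.1.Prime := ⟨ℓ.2.1⟩; B1.heckeH K W (nData_equi (χ := χ) ℓ.2.2.1) x) =
        algebraMap 𝒪 K (t ℓ.1) • x)
    (ℓ₀ : GoodPrime (N₁ * T₁ * T₁) S) (h1 : ((N₁ * T₁ * T₁ : ℕ) : ℤ) ∣ (ℓ₀.1 : ℤ) - 1)
    (hne : t ℓ₀.1 ≠ 1 + (ℓ₀.1 : 𝒪))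
    (P : FreeAlgebra ℤ (GoodPrime (N₁ * T₁ * T₁) S))
    (hP : (evalForms P : ↥(heckeAlgebra (N₁ * T₁ * T₁) 2 S)) = 0) :
    FreeAlgebra.lift ℤ (twEig (S := S) (N₁ := N₁) ξ t) P = 0 := by
  haveI : Fact ℓ₀.1.Prime := ⟨ℓ₀.2.1⟩
  -- the eigenvalues of the twisted operators
  set c : GoodPrime (N₁ * T₁ * T₁) S → K := fun ℓ => algebraMap 𝒪 K (twEig ξ t ℓ) with hc
  have hxc : ∀ ℓ : GoodPrime (N₁ * T₁ * T₁) S,
      heckeHOp χ K W T₁ 1 (mul_one T₁) (toK K ξ) ℓ x = c ℓ • x := by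
    intro ℓ
    rw [heckeHOp_apply, hxt ℓ, smul_smul, hc]
    show _ = algebraMap 𝒪 K (twEig ξ t ℓ) • x
    unfold twEig
    rw [map_mul, coe_toK_inv]
  have hlift : FreeAlgebra.lift ℤ c P = algebraMap 𝒪 K (FreeAlgebra.lift ℤ (twEig ξ t) P) := by
    have h2 : FreeAlgebra.lift ℤ c =
        ((algebraMap 𝒪 K).toIntAlgHom).comp (FreeAlgebra.lift ℤ (twEig (S := S) (N₁ := N₁) ξ t)) := by
      refine FreeAlgebra.hom_ext (funext fun ℓ => ?_)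
      show FreeAlgebra.lift ℤ c (FreeAlgebra.ι ℤ ℓ) =
        algebraMap 𝒪 K (FreeAlgebra.lift ℤ (twEig ξ t) (FreeAlgebra.ι ℤ ℓ))
      rw [FreeAlgebra.lift_ι_apply, FreeAlgebra.lift_ι_apply]
    rw [h2]
    rfl
  -- the bridge
  have hb := bridge_H1 (χ := χ) (K := K) (W := W) 1 (mul_one T₁) hsq hcop (toK K ψ₁) (toK K ξ)
    (fun u => by
      apply Units.ext
      rw [Units.val_mul, coe_toK, coe_toK, ← map_mul, ← Units.val_mul, hξ])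
    (fun q hq hqp => by
      obtain ⟨y, hy1, hy2⟩ := hprim q hq hqp
      refine ⟨y, hy1, fun h => hy2 ?_⟩
      apply Units.ext
      apply hK
      have h3 := congrArg (fun u : Kˣ => (u : K)) h
      simp only [Units.val_mul, coe_toK, Units.val_one] at h3
      rw [Units.val_mul, map_mul, h3, Units.val_one, map_one])
    hW P hP ℓ₀.2.2.1 h1 x
  rw [hxt ℓ₀] at hb
  set k : K := algebraMap 𝒪 K (t ℓ₀.1) - ((1 + ℓ₀.1 : ℕ) : K) with hk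
  have hk0 : k ≠ 0 := by
    intro h0
    apply hne
    apply hK
    rw [hk, sub_eq_zero] at h0
    rw [h0, map_add, map_one, map_natCast]
    push_cast
    rfl
  have harg : algebraMap 𝒪 K (t ℓ₀.1) • x - (1 + ℓ₀.1) • x = k • x := by
    rw [hk, sub_smul, Nat.cast_smul_eq_nsmul]
  rw [harg, evalH_eigen χ K W T₁ 1 (mul_one T₁) (toK K ξ) c x hxc P k] at hb
  rcases smul_eq_zero.mp hb with h | h
  · rcases mul_eq_zero.mp h with h | h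
    · rw [hlift] at h
      exact hK (by rw [h, map_zero])
    · exact absurd h hk0
  · exact absurd h hx

end rel

/-! ### Characters of the Hecke algebra from relations -/

section char

/-- values satisfying all the relations of the Hecke algebra define a character of it -/
theorem exists_character_of_relations {N : ℕ} [NeZero N] {S : Set ℕ}
    (hS : ∀ q : ℕ, q.Prime → q ∣ N → q ∈ S) {E : Type*} [CommRing E] (t : GoodPrime N S → E)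
    (hR : ∀ P : FreeAlgebra ℤ (GoodPrime N S),
      (evalForms P : ↥(heckeAlgebra N 2 S)) = 0 → FreeAlgebra.lift ℤ t P = 0) :
    ∃ χ' : ↥(heckeAlgebra N 2 S) →+* E, ∀ ℓ : GoodPrime N S,
      χ' (heckeAlgebra.T ℓ.2.1 ℓ.2.2.1 ℓ.2.2.2) = t ℓ := by
  have hsurj := evalForms_surjective N S hS
  let ev : FreeAlgebra ℤ (GoodPrime N S) →+* ↥(heckeAlgebra N 2 S) :=
    (evalForms (M := N) (S := S) : FreeAlgebra ℤ (GoodPrime N S) →+* ↥(heckeAlgebra N 2 S))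
  let lt : FreeAlgebra ℤ (GoodPrime N S) →+* E :=
    (FreeAlgebra.lift ℤ t : FreeAlgebra ℤ (GoodPrime N S) →+* E)
  have hker : RingHom.ker ev ≤ RingHom.ker lt := by
    intro P hP
    rw [RingHom.mem_ker] at hP ⊢
    exact hR P hP
  let χ' : ↥(heckeAlgebra N 2 S) →+* E := RingHom.liftOfSurjective ev hsurj ⟨lt, hker⟩
  have hχ : ∀ P : FreeAlgebra ℤ (GoodPrime N S), χ' (evalForms P) = FreeAlgebra.lift ℤ t P :=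
    fun P => RingHom.liftOfRightInverse_comp_apply ev _ _ ⟨lt, hker⟩ P
  refine ⟨χ', fun ℓ => ?_⟩
  rw [← evalForms_ι, hχ, FreeAlgebra.lift_ι_apply]

end char

/-! ### (D₀) -/

section main

variable {p : ℕ} [Fact p.Prime]
  {𝒪 : Type} [CommRing 𝒪] [IsDomain 𝒪] [IsDiscreteValuationRing 𝒪]
  [IsAdicComplete (maximalIdeal 𝒪) 𝒪] [Finite (ResidueField 𝒪)] [CharZero 𝒪]

/-- **(D₀), literal level `N₁ * T₁`.** -/
theorem isUnipotentOnInertiaAt_of_eigenclass_aux (hp2 : p ≠ 2) (hp𝒪 : (p : 𝒪) ∈ maximalIdeal 𝒪)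
    {K : Type*} [Field K] [CharZero K] [Algebra 𝒪 K] (hK : Function.Injective (algebraMap 𝒪 K))
    {N₁ T₁ : ℕ} [NeZero (N₁ * T₁)] (hsq : Squarefree T₁) (hcop : N₁.Coprime T₁)
    {S : Finset ℕ} (hpS : p ∈ S) (hNS : ∀ q : ℕ, q.Prime → q ∣ N₁ * T₁ → q ∈ S)
    (ρ₀ : ResidualGaloisRep (ZMod p)) (hirr : ρ₀.IsIrreducible) (a : ℕ → ℤ) (S₀ : Finset ℕ)
    (h₀ : ∀ ℓ : ℕ, ℓ.Prime → ℓ ∉ S₀ → ∀ A : ValuationSubring Qb, A.LiesOverPrime ℓ →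
      ∀ φ : Qb ≃ₐ[ℚ] Qb, A.IsFrobeniusAt φ ℓ →
        LinearMap.charpoly (ρ₀.ρ φ) =
          X ^ 2 - C ((a ℓ : ℤ) : ZMod p) * X + C ((ℓ : ℕ) : ZMod p))
    {G : Type*} [Group G] (χ : (ZMod (N₁ * T₁))ˣ →* G)
    (W : Type*) [AddCommGroup W] [Module K W] [DistribMulAction G W] [SMulCommClass G K W]
    [IsAddTorsionFree W]
    (ψ₁ ξ : (ZMod T₁)ˣ →* 𝒪ˣ) (hξ : ∀ u, ξ u * ξ u = ψ₁ u)
    (hξ1 : ∀ u, residue 𝒪 ((ξ u : 𝒪ˣ) : 𝒪) = 1)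
    (hprim : ∀ (t : ℕ) (ht : t ∣ T₁), t.Prime →
      ∃ x : (ZMod T₁)ˣ, ZMod.unitsMap (Nat.div_dvd_of_dvd ht) x = 1 ∧ ψ₁ x * ψ₁ x ≠ 1)
    (hW : ∀ (u : (ZMod (N₁ * T₁))ˣ) (w : W),
      χ u • w = algebraMap 𝒪 K ((ψ₁ (ZMod.unitsMap (Dvd.intro_left N₁ rfl) u) : 𝒪ˣ) : 𝒪) • w)
    (x : B1.H1 (B1.levelPi χ) K W) (hx : x ≠ 0) (t : ℕ → 𝒪)
    (hxt : ∀ (ℓ : ℕ) [Fact ℓ.Prime] (hℓ : ¬ ℓ ∣ N₁ * T₁), ℓ ∉ S →
      B1.heckeH K W (B1.isEquivariant_levelPi χ (B1.nData_equivariant hℓ)) x =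
        algebraMap 𝒪 K (t ℓ) • x)
    (ht : ∀ ℓ : ℕ, ℓ.Prime → ℓ ∉ S → ℓ ∉ S₀ →
      residue 𝒪 (t ℓ) = ((a ℓ : ℤ) : ResidueField 𝒪))
    {ℓ₀ : ℕ} (hℓ₀ : ℓ₀.Prime) (hℓ₀S : ℓ₀ ∉ S) (h1 : N₁ * T₁ * T₁ ∣ ℓ₀ - 1)
    (hne : t ℓ₀ ≠ 1 + (ℓ₀ : 𝒪))
    (ρ : GaloisRepAdic 𝒪)
    (hρ : ∀ ℓ : ℕ, ℓ.Prime → ℓ ∉ S → ∀ u : (ZMod T₁)ˣ, (u : ZMod T₁) = (ℓ : ZMod T₁) →
      ∀ A : ValuationSubring Qb, A.LiesOverPrime ℓ → ∀ σ : Qb ≃ₐ[ℚ] Qb, A.IsFrobeniusAt σ ℓ →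
        LinearMap.charpoly (ρ.ρ σ) =
          X ^ 2 - C ((((ξ u)⁻¹ : 𝒪ˣ) : 𝒪) * t ℓ) * X + C ((ℓ : 𝒪)))
    (v : ℕ) (hv : v.Prime) (hvp : v ≠ p) (hvN : v ∣ N₁) (hv2 : ¬ v ^ 2 ∣ N₁) :
    ρ.IsUnipotentOnInertiaAt v := by
  classical
  haveI : NeZero T₁ := ⟨fun h => NeZero.ne (N₁ * T₁) (by rw [h, mul_zero])⟩
  haveI : NeZero (N₁ * T₁ * T₁) := ⟨mul_ne_zero (NeZero.ne _) (NeZero.ne T₁)⟩
  have hNS' : ∀ q : ℕ, q.Prime → q ∣ N₁ * T₁ * T₁ → q ∈ (↑S : Set ℕ) := fun q hq hd => by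
    rcases (Nat.Prime.dvd_mul hq).mp hd with h | h
    · exact hNS q hq h
    · exact hNS q hq (Dvd.dvd.mul_left h N₁)
  have hnd : ∀ ℓ : ℕ, ℓ.Prime → ℓ ∉ S → ¬ ℓ ∣ N₁ * T₁ * T₁ := fun ℓ hℓ hS hd =>
    hS (hNS' ℓ hℓ hd)
  -- the relations
  let L₀ : GoodPrime (N₁ * T₁ * T₁) (↑S : Set ℕ) := ⟨ℓ₀, hℓ₀, hnd ℓ₀ hℓ₀ hℓ₀S, hℓ₀S⟩
  have h1' : ((N₁ * T₁ * T₁ : ℕ) : ℤ) ∣ ((L₀.1 : ℕ) : ℤ) - 1 := by
    have h2 : ((ℓ₀ - 1 : ℕ) : ℤ) = (ℓ₀ : ℤ) - 1 := by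
      have := hℓ₀.one_le
      omega
    rw [show (L₀.1 : ℕ) = ℓ₀ from rfl, ← h2]
    exact Int.natCast_dvd_natCast.mpr h1
  have hR := relations_of_eigenclass (S := (↑S : Set ℕ)) χ W hK hsq hcop ψ₁ ξ hξ hprim
    (fun u w => hW u w) x hx t
    (fun ℓ => by
      haveI : Fact ℓ.1.Prime := ⟨ℓ.2.1⟩
      exact hxt ℓ.1 (not_dvd_lvl ℓ.2.2.1) ℓ.2.2.2) L₀ h1' hne
  obtain ⟨χ', hχ'⟩ := exists_character_of_relations hNS' (twEig ξ t) hR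
  -- the residual character
  let θ' : ↥(heckeAlgebra (N₁ * T₁ * T₁) 2 (↑S : Set ℕ)) →+* ResidueField 𝒪 :=
    (residue 𝒪).comp χ'
  have hθ' : ∀ (ℓ : ℕ) (hℓ : ℓ.Prime) (hℓN : ¬ ℓ ∣ N₁ * T₁ * T₁) (hℓS : ℓ ∉ (↑S : Set ℕ)),
      ℓ ∉ S₀ → θ' (heckeAlgebra.T hℓ hℓN hℓS) = ((a ℓ : ℤ) : ResidueField 𝒪) := by
    intro ℓ hℓ hℓN hℓS hℓS₀
    show residue 𝒪 (χ' (heckeAlgebra.T hℓ hℓN hℓS)) = _
    rw [hχ' ⟨ℓ, hℓ, hℓN, hℓS⟩]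
    unfold twEig
    rw [map_mul, ht ℓ hℓ hℓS hℓS₀]
    have h3 : residue 𝒪 (((ξ (goodUnit T₁ 1 (mul_one T₁)
        (⟨ℓ, hℓ, hℓN, hℓS⟩ : GoodPrime (N₁ * T₁ * T₁) (↑S : Set ℕ))))⁻¹ : 𝒪ˣ) : 𝒪) = 1 := by
      rw [← map_inv, hξ1]
    rw [h3, one_mul]
  -- the Hecke datum of level `N₁ T₁²` and its point
  obtain ⟨H'⟩ := B2.exists_heckeGaloisRepDatum hp2 hp𝒪 hpS hNS' θ' ρ₀ hirr a S₀ h₀ hθ'
  obtain ⟨ψ, hψ⟩ := H'.exists_point χ' (fun _ => rfl)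
  have hψsurj : Function.Surjective (ψ : heckeLocal (N₁ * T₁ * T₁) (↑S : Set ℕ) 𝒪 θ' →+* 𝒪) :=
    fun b => ⟨algebraMap 𝒪 _ b, ψ.commutes b⟩
  have hψloc : IsLocalHom (ψ : heckeLocal (N₁ * T₁ * T₁) (↑S : Set ℕ) 𝒪 θ' →+* 𝒪) :=
    IsLocalHom.of_surjective _ hψsurj
  -- unipotence at level `N₁ T₁²`
  have hvN' : v ∣ N₁ * T₁ * T₁ := Dvd.dvd.mul_right (Dvd.dvd.mul_right hvN T₁) T₁
  have hvT : ¬ v ∣ T₁ := fun h => by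
    have := Nat.eq_one_of_dvd_coprimes hcop hvN h
    exact hv.one_lt.ne' this
  have hv2' : ¬ v ^ 2 ∣ N₁ * T₁ * T₁ := by
    intro h
    apply hv2
    have hc : Nat.Coprime (v ^ 2) (T₁ * T₁) :=
      Nat.Coprime.pow_left 2 (Nat.Coprime.mul_right
        ((Nat.Prime.coprime_iff_not_dvd hv).mpr hvT) ((Nat.Prime.coprime_iff_not_dvd hv).mpr hvT))
    rw [mul_assoc] at h
    exact hc.dvd_of_dvd_mul_right h
  have hun := Fermat.Agent.S34.result (Fact.out : p.Prime) hp𝒪 hpS hNS' H' v hv hvp hvN' hv2'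
  -- comparison
  have hcmp : ∀ σ : Qb ≃ₐ[ℚ] Qb,
      LinearMap.trace 𝒪 ρ.V (ρ.ρ σ) = LinearMap.trace 𝒪 _
        ((H'.ρ.baseChangeAlong (ψ : _ →+* 𝒪) hψloc).ρ σ) ∧
      LinearMap.det (ρ.ρ σ) = LinearMap.det ((H'.ρ.baseChangeAlong (ψ : _ →+* 𝒪) hψloc).ρ σ) := by
    intro σ
    have key := Fermat.Agent.S58lib.Cmp.trace_det_map_eq_of_frobenius (RingHom.id 𝒪)
      (fun _ h => h) (H'.ρ.baseChangeAlong (ψ : _ →+* 𝒪) hψloc) ρ S ?_ σ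
    · simpa using key
    · intro ℓ hℓ hℓS A hA φ hφ
      rw [Polynomial.map_id,
        heckeDatum_charpoly_baseChangeAlong H' (ψ : _ →+* 𝒪) hψloc ℓ hℓ (hnd ℓ hℓ hℓS)
          (fun h => hℓS h) A hA φ hφ]
      have h4 : (ψ : heckeLocal (N₁ * T₁ * T₁) (↑S : Set ℕ) 𝒪 θ' →+* 𝒪)
          (H'.π (heckeAlgebra.T hℓ (hnd ℓ hℓ hℓS) (fun h => hℓS h))) =
          twEig ξ t (⟨ℓ, hℓ, hnd ℓ hℓ hℓS, fun h => hℓS h⟩ :
            GoodPrime (N₁ * T₁ * T₁) (↑S : Set ℕ)) := by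
        show ψ (H'.π _) = _
        rw [hψ, hχ' ⟨ℓ, hℓ, hnd ℓ hℓ hℓS, fun h => hℓS h⟩]
      rw [h4]
      exact hρ ℓ hℓ hℓS _ (coe_goodUnit T₁ 1 (mul_one T₁) _) A hA φ hφ
  intro A hA σ hσ
  obtain ⟨htr, hdet⟩ := hcmp σ
  rw [Fermat.Agent.S34lib.charpoly_eq_of_finrank_two ρ.finrank_eq, htr, hdet,
    ← Fermat.Agent.S34lib.charpoly_eq_of_finrank_two
      (H'.ρ.baseChangeAlong (ψ : _ →+* 𝒪) hψloc).finrank_eq,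
    charpoly_baseChangeAlong, hun A hA σ hσ]
  simp

/-- a unit of `p`-power order is residually trivial -/
theorem residue_eq_one_of_pow_eq_one (hp𝒪 : (p : 𝒪) ∈ maximalIdeal 𝒪) (u : 𝒪ˣ) (n : ℕ)
    (h : u ^ p ^ n = 1) : residue 𝒪 ((u : 𝒪ˣ) : 𝒪) = 1 := by
  haveI : CharP (ResidueField 𝒪) p := by
    have h0 : ((p : ℕ) : ResidueField 𝒪) = 0 := by
      have h1 : residue 𝒪 (p : 𝒪) = 0 := (residue_eq_zero_iff _).2 hp𝒪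
      rwa [map_natCast] at h1
    exact (CharP.charP_iff_prime_eq_zero (Fact.out : p.Prime)).2 h0
  have h1 : (residue 𝒪 ((u : 𝒪ˣ) : 𝒪)) ^ p ^ n = 1 := by
    rw [← map_pow, ← Units.val_pow_eq_pow_val, h, Units.val_one, map_one]
  have h2 : (residue 𝒪 ((u : 𝒪ˣ) : 𝒪) - 1) ^ p ^ n = 0 := by
    rw [sub_pow_char_pow, h1, one_pow, sub_self]
  exact sub_eq_zero.mp (pow_eq_zero_iff (pow_ne_zero n (Fact.out : p.Prime).ne_zero) |>.mp h2)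

/-- **(D₀), general level `M = N₁ * T₁`, non-Eisenstein prime from the residual representation.** -/
theorem isUnipotentOnInertiaAt_of_eigenclass (hp2 : p ≠ 2) (hp𝒪 : (p : 𝒪) ∈ maximalIdeal 𝒪)
    {K : Type*} [Field K] [CharZero K] [Algebra 𝒪 K] (hK : Function.Injective (algebraMap 𝒪 K))
    {M N₁ T₁ : ℕ} [NeZero M] (hM : M = N₁ * T₁) (hsq : Squarefree T₁) (hcop : N₁.Coprime T₁)
    {S : Finset ℕ} (hpS : p ∈ S) (hNS : ∀ q : ℕ, q.Prime → q ∣ M → q ∈ S)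
    (ρ₀ : ResidualGaloisRep (ZMod p)) (hirr : ρ₀.IsIrreducible) (a : ℕ → ℤ) (S₀ : Finset ℕ)
    (h₀ : ∀ ℓ : ℕ, ℓ.Prime → ℓ ∉ S₀ → ∀ A : ValuationSubring Qb, A.LiesOverPrime ℓ →
      ∀ φ : Qb ≃ₐ[ℚ] Qb, A.IsFrobeniusAt φ ℓ →
        LinearMap.charpoly (ρ₀.ρ φ) =
          X ^ 2 - C ((a ℓ : ℤ) : ZMod p) * X + C ((ℓ : ℕ) : ZMod p))
    (hnE : ∃ (ℓ₀ : ℕ) (A : ValuationSubring Qb) (φ : Qb ≃ₐ[ℚ] Qb), ℓ₀.Prime ∧ ℓ₀ ∉ S ∧ ℓ₀ ∉ S₀ ∧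
      N₁ * T₁ * T₁ ∣ ℓ₀ - 1 ∧ A.LiesOverPrime ℓ₀ ∧ A.IsFrobeniusAt φ ℓ₀ ∧
      (LinearMap.charpoly (ρ₀.ρ φ)).eval 1 ≠ 0)
    {G : Type*} [Group G] (χ : (ZMod M)ˣ →* G)
    (W : Type*) [AddCommGroup W] [Module K W] [DistribMulAction G W] [SMulCommClass G K W]
    [IsAddTorsionFree W]
    (ψ₁ ξ : (ZMod T₁)ˣ →* 𝒪ˣ) (hξ : ∀ u, ξ u * ξ u = ψ₁ u)
    (hξ1 : ∀ u, residue 𝒪 ((ξ u : 𝒪ˣ) : 𝒪) = 1)
    (hprim : ∀ (t : ℕ) (ht : t ∣ T₁), t.Prime →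
      ∃ x : (ZMod T₁)ˣ, ZMod.unitsMap (Nat.div_dvd_of_dvd ht) x = 1 ∧ ψ₁ x * ψ₁ x ≠ 1)
    (hdv : T₁ ∣ M)
    (hW : ∀ (u : (ZMod M)ˣ) (w : W),
      χ u • w = algebraMap 𝒪 K ((ψ₁ (ZMod.unitsMap hdv u) : 𝒪ˣ) : 𝒪) • w)
    (x : B1.H1 (B1.levelPi χ) K W) (hx : x ≠ 0) (t : ℕ → 𝒪)
    (hxt : ∀ (ℓ : ℕ) [Fact ℓ.Prime] (hℓ : ¬ ℓ ∣ M), ℓ ∉ S →
      B1.heckeH K W (B1.isEquivariant_levelPi χ (B1.nData_equivariant hℓ)) x =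
        algebraMap 𝒪 K (t ℓ) • x)
    (ht : ∀ ℓ : ℕ, ℓ.Prime → ℓ ∉ S → ℓ ∉ S₀ →
      residue 𝒪 (t ℓ) = ((a ℓ : ℤ) : ResidueField 𝒪))
    (ρ : GaloisRepAdic 𝒪)
    (hρ : ∀ ℓ : ℕ, ℓ.Prime → ℓ ∉ S → ∀ u : (ZMod T₁)ˣ, (u : ZMod T₁) = (ℓ : ZMod T₁) →
      ∀ A : ValuationSubring Qb, A.LiesOverPrime ℓ → ∀ σ : Qb ≃ₐ[ℚ] Qb, A.IsFrobeniusAt σ ℓ →
        LinearMap.charpoly (ρ.ρ σ) =
          X ^ 2 - C ((((ξ u)⁻¹ : 𝒪ˣ) : 𝒪) * t ℓ) * X + C ((ℓ : 𝒪)))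
    (v : ℕ) (hv : v.Prime) (hvp : v ≠ p) (hvN : v ∣ N₁) (hv2 : ¬ v ^ 2 ∣ N₁) :
    ρ.IsUnipotentOnInertiaAt v := by
  subst hM
  obtain ⟨ℓ₀, A₀, φ₀, hℓ₀, hℓ₀S, hℓ₀S₀, h1, hA₀, hφ₀, hev⟩ := hnE
  refine isUnipotentOnInertiaAt_of_eigenclass_aux hp2 hp𝒪 hK hsq hcop hpS hNS ρ₀ hirr a S₀ h₀ χ W
    ψ₁ ξ hξ hξ1 hprim (fun u w => hW u w) x hx t hxt ht hℓ₀ hℓ₀S h1 ?_ ρ hρ v hv hvp hvN hv2
  -- the prime `ℓ₀` is not Eisenstein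
  intro heq
  apply hev
  haveI : CharP (ResidueField 𝒪) p := by
    have h0 : ((p : ℕ) : ResidueField 𝒪) = 0 := by
      have h1 : residue 𝒪 (p : 𝒪) = 0 := (residue_eq_zero_iff _).2 hp𝒪
      rwa [map_natCast] at h1
    exact (CharP.charP_iff_prime_eq_zero (Fact.out : p.Prime)).2 h0
  have h2 := ht ℓ₀ hℓ₀ hℓ₀S hℓ₀S₀
  rw [heq, map_add, map_one, map_natCast] at h2
  have h3 : (((a ℓ₀ - (1 + (ℓ₀ : ℤ)) : ℤ)) : ResidueField 𝒪) = 0 := by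
    push_cast
    rw [← h2]
    ring
  have h4 : (p : ℤ) ∣ a ℓ₀ - (1 + (ℓ₀ : ℤ)) := (CharP.intCast_eq_zero_iff (ResidueField 𝒪) p _).mp h3
  have h5 : (((a ℓ₀ - (1 + (ℓ₀ : ℤ)) : ℤ)) : ZMod p) = 0 :=
    (ZMod.intCast_zmod_eq_zero_iff_dvd _ p).mpr h4
  rw [h₀ ℓ₀ hℓ₀ hℓ₀S₀ A₀ hA₀ φ₀ hφ₀]
  simp only [eval_add, eval_sub, eval_mul, eval_pow, eval_X, eval_C, one_pow, mul_one]
  push_cast at h5
  linear_combination -h5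

/-- **(D₀), trace form**: `tr ρ(σ) = 2` on the inertia groups at `v`. -/
theorem trace_eq_two_of_isUnipotentOnInertiaAt (ρ : GaloisRepAdic 𝒪) {v : ℕ}
    (h : ρ.IsUnipotentOnInertiaAt v) (A : ValuationSubring Qb) (hA : A.LiesOverPrime v)
    (σ : Qb ≃ₐ[ℚ] Qb) (hσ : σ ∈ A.inertiaSubgroupIn ℚ) : ρ.trace σ = 2 := by
  have h1 : LinearMap.charpoly (ρ.ρ σ) = X ^ 2 - C (2 : 𝒪) * X + C (1 : 𝒪) := by
    rw [h A hA σ hσ]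
    simp only [map_ofNat, map_one]
    ring
  have h2 := Fermat.Agent.S34lib.charpoly_eq_of_finrank_two ρ.finrank_eq (ρ.ρ σ)
  rw [h1] at h2
  have h3 := congrArg (fun q : 𝒪[X] => q.coeff 1) h2
  simp only [coeff_add, coeff_sub, coeff_X_pow, coeff_C_mul, coeff_X_one, coeff_C] at h3
  norm_num at h3
  exact h3.symm

end main

end Fermat.Agent.S43lib.B3
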