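/-
S43lib / B3 / TrivCompChar (helper4): **(D₀), global form** — no conductor bookkeeping for the caller.

`M = N₀ T` (`T` squarefree, prime to `N₀`), `Ψ : (ℤ/M)ˣ → 𝒪ˣ` a character of odd order `n`, residually trivial,
factoring through `(ℤ/T)ˣ`; `x ≠ 0` a `T_ℓ`-eigenclass in `H¹(Γ₀(M), W)` (`W` a `K`-vector space on which the
diamonds act through `Ψ`) with eigenvalues `t ℓ ∈ 𝒪` lifting the Frobenius traces of an irreducible, strongly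
non-Eisenstein `ρ₀` mod `p`.  Then every `ρ : GaloisRepAdic 𝒪` with Frobenius characteristic polynomials
`X² − Ψ(ℓ)^{-(n+1)/2} t_ℓ X + ℓ` is unipotent on inertia at every prime `v ∥ N₀`, `v ≠ p`.
-/
import Mathlib
import Fermat.Agent.S43lib.B3.TrivComp
import Fermat.Agent.S43lib.B2.Bridge.Cond

set_option autoImplicit false
set_option linter.unusedSectionVars false
set_option linter.style.haveILetI false

noncomputable section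

namespace Fermat.Agent.S43lib.B3

open IsLocalRing Polynomial CuspForm
open Fermat.Agent.S43lib.B2.Bridge

local notation "Qb" => AlgebraicClosure ℚ

/-! ### The Chinese remainder theorem for units -/

section CRT

theorem crt_fst {m n : ℕ} (h : m.Coprime n) (x : ZMod (m * n)) :
    (ZMod.chineseRemainder h x).1 = ZMod.castHom (dvd_mul_right m n) (ZMod m) x := by
  have : (RingHom.fst (ZMod m) (ZMod n)).comp (ZMod.chineseRemainder h : ZMod (m * n) →+* _) =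
      ZMod.castHom (dvd_mul_right m n) (ZMod m) := Subsingleton.elim _ _
  exact congrArg (fun f : ZMod (m * n) →+* ZMod m => f x) this

theorem crt_snd {m n : ℕ} (h : m.Coprime n) (x : ZMod (m * n)) :
    (ZMod.chineseRemainder h x).2 = ZMod.castHom (dvd_mul_left n m) (ZMod n) x := by
  have : (RingHom.snd (ZMod m) (ZMod n)).comp (ZMod.chineseRemainder h : ZMod (m * n) →+* _) =
      ZMod.castHom (dvd_mul_left n m) (ZMod n) := Subsingleton.elim _ _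
  exact congrArg (fun f : ZMod (m * n) →+* ZMod n => f x) this

/-- surjectivity of the Chinese remainder map on units, literal modulus `m * n` -/
theorem exists_unit_crt_aux {m n : ℕ} (h : m.Coprime n) (a : (ZMod m)ˣ) (b : (ZMod n)ˣ) :
    ∃ u : (ZMod (m * n))ˣ, ZMod.unitsMap (dvd_mul_right m n) u = a ∧
      ZMod.unitsMap (dvd_mul_left n m) u = b := by
  let e : (ZMod m)ˣ × (ZMod n)ˣ ≃* (ZMod (m * n))ˣ :=
    (MulEquiv.prodUnits.symm).trans (Units.mapEquiv (ZMod.chineseRemainder h).symm.toMulEquiv)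
  refine ⟨e (a, b), ?_, ?_⟩
  · apply Units.ext
    show ZMod.castHom (dvd_mul_right m n) (ZMod m)
      ((ZMod.chineseRemainder h).symm ((a : ZMod m), (b : ZMod n))) = a
    rw [← crt_fst h, RingEquiv.apply_symm_apply]
  · apply Units.ext
    show ZMod.castHom (dvd_mul_left n m) (ZMod n)
      ((ZMod.chineseRemainder h).symm ((a : ZMod m), (b : ZMod n))) = b
    rw [← crt_snd h, RingEquiv.apply_symm_apply]

/-- injectivity of the Chinese remainder map on units, literal modulus `m * n` -/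
theorem unit_eq_one_of_crt_aux {m n : ℕ} (h : m.Coprime n) (u : (ZMod (m * n))ˣ)
    (h1 : ZMod.unitsMap (dvd_mul_right m n) u = 1) (h2 : ZMod.unitsMap (dvd_mul_left n m) u = 1) :
    u = 1 := by
  apply Units.ext
  apply (ZMod.chineseRemainder h).injective
  have e1 := congrArg (fun w : (ZMod m)ˣ => (w : ZMod m)) h1
  have e2 := congrArg (fun w : (ZMod n)ˣ => (w : ZMod n)) h2
  simp only [Units.val_one] at e1 e2
  refine Prod.ext ?_ ?_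
  · rw [crt_fst, Units.val_one, map_one]
    exact e1
  · rw [crt_snd, Units.val_one, map_one]
    exact e2

/-- surjectivity of the Chinese remainder map on units, general modulus -/
theorem exists_unit_crt {M m n : ℕ} (hM : M = m * n) (h : m.Coprime n) (hm : m ∣ M) (hn : n ∣ M)
    (a : (ZMod m)ˣ) (b : (ZMod n)ˣ) :
    ∃ u : (ZMod M)ˣ, ZMod.unitsMap hm u = a ∧ ZMod.unitsMap hn u = b := by
  subst hM
  exact exists_unit_crt_aux h a b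

/-- injectivity of the Chinese remainder map on units, general modulus -/
theorem unit_eq_one_of_crt {M m n : ℕ} (hM : M = m * n) (h : m.Coprime n) (hm : m ∣ M)
    (hn : n ∣ M) (u : (ZMod M)ˣ) (h1 : ZMod.unitsMap hm u = 1) (h2 : ZMod.unitsMap hn u = 1) :
    u = 1 := by
  subst hM
  exact unit_eq_one_of_crt_aux h u h1 h2

theorem unitsMap_unitsMap {d m n : ℕ} (hm : n ∣ m) (hd : m ∣ d) (u : (ZMod d)ˣ) :
    ZMod.unitsMap hm (ZMod.unitsMap hd u) = ZMod.unitsMap (dvd_trans hm hd) u := by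
  rw [← ZMod.unitsMap_comp hm hd]
  rfl

/-- a character trivial on the `v`-component and factoring through `(ℤ/(v T'))ˣ` factors through
`(ℤ/T')ˣ` -/
theorem char_trivial_of_component {H : Type*} [CommGroup H] {M N₀ v T' : ℕ}
    (hM : M = N₀ * (v * T')) (hcop : N₀.Coprime (v * T')) (hvT' : v.Coprime T')
    (Ψ : (ZMod M)ˣ →* H) (hTM : v * T' ∣ M) (hΨT : ∀ u, ZMod.unitsMap hTM u = 1 → Ψ u = 1)
    (hvM : N₀ * T' ∣ M) (hΨv : ∀ u : (ZMod M)ˣ, ZMod.unitsMap hvM u = 1 → Ψ u = 1)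
    (hT'M : T' ∣ M) (u : (ZMod M)ˣ) (hu : ZMod.unitsMap hT'M u = 1) : Ψ u = 1 := by
  have hvdM : v ∣ M := (Dvd.intro T' rfl).trans hTM
  have hM2 : M = v * (N₀ * T') := by rw [hM]; ring
  have hcop2 : v.Coprime (N₀ * T') :=
    Nat.Coprime.mul_right (Nat.Coprime.coprime_dvd_right (Dvd.intro T' rfl) hcop).symm hvT'
  obtain ⟨u₁, hu₁v, hu₁M⟩ := exists_unit_crt hM2 hcop2 hvdM hvM (ZMod.unitsMap hvdM u) 1
  have h1 : Ψ u₁ = 1 := hΨv u₁ hu₁M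
  have h2 : Ψ (u * u₁⁻¹) = 1 := by
    apply hΨT
    refine unit_eq_one_of_crt rfl hvT' (Dvd.intro T' rfl) (Dvd.intro_left v rfl) _ ?_ ?_
    · rw [unitsMap_unitsMap, map_mul, map_inv, hu₁v, mul_inv_cancel]
    · rw [unitsMap_unitsMap, map_mul, map_inv]
      have h3 : ZMod.unitsMap ((Dvd.intro_left v rfl : T' ∣ v * T').trans hTM) u₁ = 1 := by
        have h4 := congrArg (ZMod.unitsMap (Dvd.intro_left N₀ rfl : T' ∣ N₀ * T')) hu₁M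
        rw [unitsMap_unitsMap, map_one] at h4
        exact h4
      rw [h3, inv_one, mul_one]
      exact hu
  have h3 : u = (u * u₁⁻¹) * u₁ := by rw [inv_mul_cancel_right]
  rw [h3, map_mul, h1, h2, one_mul]

end CRT

section main

variable {p : ℕ} [Fact p.Prime]
  {𝒪 : Type} [CommRing 𝒪] [IsDomain 𝒪] [IsDiscreteValuationRing 𝒪]
  [IsAdicComplete (maximalIdeal 𝒪) 𝒪] [Finite (ResidueField 𝒪)] [CharZero 𝒪]

/-- **(D₀), global form.** -/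
theorem isUnipotentOnInertiaAt_of_eigenclass_char (hp2 : p ≠ 2) (hp𝒪 : (p : 𝒪) ∈ maximalIdeal 𝒪)
    {K : Type*} [Field K] [CharZero K] [Algebra 𝒪 K] (hK : Function.Injective (algebraMap 𝒪 K))
    {M N₀ T : ℕ} [NeZero M] (hM : M = N₀ * T) (hsq : Squarefree T) (hcop : N₀.Coprime T)
    (hTM : T ∣ M)
    {S : Finset ℕ} (hpS : p ∈ S) (hNS : ∀ q : ℕ, q.Prime → q ∣ M → q ∈ S)
    (ρ₀ : ResidualGaloisRep (ZMod p)) (hirr : ρ₀.IsIrreducible) (a : ℕ → ℤ) (S₀ : Finset ℕ)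
    (h₀ : ∀ ℓ : ℕ, ℓ.Prime → ℓ ∉ S₀ → ∀ A : ValuationSubring Qb, A.LiesOverPrime ℓ →
      ∀ φ : Qb ≃ₐ[ℚ] Qb, A.IsFrobeniusAt φ ℓ →
        LinearMap.charpoly (ρ₀.ρ φ) =
          X ^ 2 - C ((a ℓ : ℤ) : ZMod p) * X + C ((ℓ : ℕ) : ZMod p))
    (hnE : ∀ m : ℕ, 0 < m → ∀ S₁ : Finset ℕ,
      ∃ (ℓ₀ : ℕ) (A : ValuationSubring Qb) (φ : Qb ≃ₐ[ℚ] Qb), ℓ₀.Prime ∧ ℓ₀ ∉ S₁ ∧
        m ∣ ℓ₀ - 1 ∧ A.LiesOverPrime ℓ₀ ∧ A.IsFrobeniusAt φ ℓ₀ ∧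
        (LinearMap.charpoly (ρ₀.ρ φ)).eval 1 ≠ 0)
    {G : Type*} [Group G] (χ : (ZMod M)ˣ →* G)
    (W : Type*) [AddCommGroup W] [Module K W] [DistribMulAction G W] [SMulCommClass G K W]
    [IsAddTorsionFree W]
    (Ψ : (ZMod M)ˣ →* 𝒪ˣ) {n : ℕ} (hn : Odd n) (hpow : ∀ u, Ψ u ^ n = 1)
    (hΨ1 : ∀ u, residue 𝒪 ((Ψ u : 𝒪ˣ) : 𝒪) = 1)
    (hΨT : ∀ u, ZMod.unitsMap hTM u = 1 → Ψ u = 1)
    (hW : ∀ (u : (ZMod M)ˣ) (w : W), χ u • w = algebraMap 𝒪 K ((Ψ u : 𝒪ˣ) : 𝒪) • w)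
    (x : B1.H1 (B1.levelPi χ) K W) (hx : x ≠ 0) (t : ℕ → 𝒪)
    (hxt : ∀ (ℓ : ℕ) [Fact ℓ.Prime] (hℓ : ¬ ℓ ∣ M), ℓ ∉ S →
      B1.heckeH K W (B1.isEquivariant_levelPi χ (B1.nData_equivariant hℓ)) x =
        algebraMap 𝒪 K (t ℓ) • x)
    (ht : ∀ ℓ : ℕ, ℓ.Prime → ℓ ∉ S → ℓ ∉ S₀ →
      residue 𝒪 (t ℓ) = ((a ℓ : ℤ) : ResidueField 𝒪))
    (ρ : GaloisRepAdic 𝒪)
    (hρ : ∀ ℓ : ℕ, ℓ.Prime → ℓ ∉ S → ∀ u : (ZMod M)ˣ, (u : ZMod M) = (ℓ : ZMod M) →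
      ∀ A : ValuationSubring Qb, A.LiesOverPrime ℓ → ∀ σ : Qb ≃ₐ[ℚ] Qb, A.IsFrobeniusAt σ ℓ →
        LinearMap.charpoly (ρ.ρ σ) =
          X ^ 2 - C (((((Ψ u) ^ ((n + 1) / 2))⁻¹ : 𝒪ˣ) : 𝒪) * t ℓ) * X + C ((ℓ : 𝒪)))
    (v : ℕ) (hv : v.Prime) (hvp : v ≠ p) (hvN : v ∣ N₀) (hv2 : ¬ v ^ 2 ∣ N₀) :
    ρ.IsUnipotentOnInertiaAt v := by
  classical
  obtain ⟨T₁, hT₁, ψ₁, hfac, hprim⟩ := exists_conductor hTM Ψ hΨT hn hpow
  have hM0 : M ≠ 0 := NeZero.ne M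
  have hT0 : T ≠ 0 := fun h => hM0 (by rw [hM, h, mul_zero])
  have hT₁0 : T₁ ≠ 0 := fun h => hT0 (by rw [h] at hT₁; exact zero_dvd_iff.mp hT₁)
  haveI : NeZero T₁ := ⟨hT₁0⟩
  have hdv : T₁ ∣ M := hT₁.trans hTM
  -- the decomposition `M = N₁ T₁`
  obtain ⟨T₂, hT₂⟩ := hT₁
  have hM' : M = N₀ * T₂ * T₁ := by rw [hM, hT₂]; ring
  have hsq₁ : Squarefree T₁ := hsq.squarefree_of_dvd ⟨T₂, hT₂⟩
  have hcop₁ : (N₀ * T₂).Coprime T₁ := by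
    refine Nat.Coprime.mul_left ?_ ?_
    · exact Nat.Coprime.coprime_dvd_right ⟨T₂, hT₂⟩ hcop
    · rw [hT₂] at hsq
      exact (Nat.coprime_of_squarefree_mul hsq).symm
  have hvN₁ : v ∣ N₀ * T₂ := Dvd.dvd.mul_right hvN T₂
  have hvT : ¬ v ∣ T := fun h => by
    have := Nat.eq_one_of_dvd_coprimes hcop hvN h
    exact hv.one_lt.ne' this
  have hv2₁ : ¬ v ^ 2 ∣ N₀ * T₂ := by
    intro h
    apply hv2
    have hvT₂ : ¬ v ∣ T₂ := fun h2 => hvT (by rw [hT₂]; exact Dvd.dvd.mul_left h2 T₁)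
    have hc : Nat.Coprime (v ^ 2) T₂ :=
      Nat.Coprime.pow_left 2 ((Nat.Prime.coprime_iff_not_dvd hv).mpr hvT₂)
    exact hc.dvd_of_dvd_mul_right h
  -- surjectivity of the reduction
  have hsurj : Function.Surjective (ZMod.unitsMap hdv) := ZMod.unitsMap_surjective hdv
  have hpow₁ : ∀ u₁, ψ₁ u₁ ^ n = 1 := by
    intro u₁
    obtain ⟨u, rfl⟩ := hsurj u₁
    rw [← hfac, hpow]
  have hres₁ : ∀ u₁, residue 𝒪 ((ψ₁ u₁ : 𝒪ˣ) : 𝒪) = 1 := by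
    intro u₁
    obtain ⟨u, rfl⟩ := hsurj u₁
    rw [← hfac, hΨ1]
  -- the square root
  set ξ : (ZMod T₁)ˣ →* 𝒪ˣ := ψ₁ ^ ((n + 1) / 2) with hξdef
  have hξ : ∀ u, ξ u * ξ u = ψ₁ u := exists_sqrt_char ψ₁ hn hpow₁
  have hξ1 : ∀ u, residue 𝒪 ((ξ u : 𝒪ˣ) : 𝒪) = 1 := by
    intro u
    rw [hξdef, MonoidHom.pow_apply, Units.val_pow_eq_pow_val, map_pow, hres₁, one_pow]
  -- the non-Eisenstein prime
  have hpos : 0 < N₀ * T₂ * T₁ * T₁ := by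
    have : N₀ * T₂ * T₁ ≠ 0 := hM' ▸ hM0
    exact Nat.pos_of_ne_zero (mul_ne_zero this hT₁0)
  obtain ⟨ℓ₀, A₀, φ₀, hℓ₀, hℓ₀S, hdvd, hA₀, hφ₀, hev⟩ := hnE _ hpos (S ∪ S₀)
  rw [Finset.mem_union, not_or] at hℓ₀S
  refine isUnipotentOnInertiaAt_of_eigenclass hp2 hp𝒪 hK hM' hsq₁ hcop₁ hpS hNS ρ₀ hirr a S₀ h₀
    ⟨ℓ₀, A₀, φ₀, hℓ₀, hℓ₀S.1, hℓ₀S.2, hdvd, hA₀, hφ₀, hev⟩ χ W ψ₁ ξ hξ hξ1 hprim hdv
    (fun u w => by rw [hW, hfac]) x hx t hxt ht ρ ?_ v hv hvp hvN₁ hv2₁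
  intro ℓ hℓ hℓS u₁ hu₁ A hA σ hσ
  have hℓM : ¬ ℓ ∣ M := fun h => hℓS (hNS ℓ hℓ h)
  have hcopℓ : Nat.Coprime ℓ M := (Nat.Prime.coprime_iff_not_dvd hℓ).mpr hℓM
  have h1 := hρ ℓ hℓ hℓS (ZMod.unitOfCoprime ℓ hcopℓ) (ZMod.coe_unitOfCoprime ℓ hcopℓ) A hA σ hσ
  have h2 : ZMod.unitsMap hdv (ZMod.unitOfCoprime ℓ hcopℓ) = u₁ := by
    apply Units.ext
    rw [ZMod.unitsMap_val, ZMod.coe_unitOfCoprime, hu₁, ZMod.cast_natCast hdv]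
  rw [hfac, h2] at h1
  rw [h1, hξdef, MonoidHom.pow_apply]

/-- **(D₀), global form, trivial `v`-component**: `Ψ` factors through `(ℤ/T)ˣ`, `v ∣ T`, and `Ψ` is trivial on
the units `≡ 1` modulo `M / v`. -/
theorem isUnipotentOnInertiaAt_of_trivial_component (hp2 : p ≠ 2)
    (hp𝒪 : (p : 𝒪) ∈ maximalIdeal 𝒪)
    {K : Type*} [Field K] [CharZero K] [Algebra 𝒪 K] (hK : Function.Injective (algebraMap 𝒪 K))
    {M N₀ T : ℕ} [NeZero M] (hM : M = N₀ * T) (hsq : Squarefree T) (hcop : N₀.Coprime T)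
    (hTM : T ∣ M)
    {S : Finset ℕ} (hpS : p ∈ S) (hNS : ∀ q : ℕ, q.Prime → q ∣ M → q ∈ S)
    (ρ₀ : ResidualGaloisRep (ZMod p)) (hirr : ρ₀.IsIrreducible) (a : ℕ → ℤ) (S₀ : Finset ℕ)
    (h₀ : ∀ ℓ : ℕ, ℓ.Prime → ℓ ∉ S₀ → ∀ A : ValuationSubring Qb, A.LiesOverPrime ℓ →
      ∀ φ : Qb ≃ₐ[ℚ] Qb, A.IsFrobeniusAt φ ℓ →
        LinearMap.charpoly (ρ₀.ρ φ) =
          X ^ 2 - C ((a ℓ : ℤ) : ZMod p) * X + C ((ℓ : ℕ) : ZMod p))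
    (hnE : ∀ m : ℕ, 0 < m → ∀ S₁ : Finset ℕ,
      ∃ (ℓ₀ : ℕ) (A : ValuationSubring Qb) (φ : Qb ≃ₐ[ℚ] Qb), ℓ₀.Prime ∧ ℓ₀ ∉ S₁ ∧
        m ∣ ℓ₀ - 1 ∧ A.LiesOverPrime ℓ₀ ∧ A.IsFrobeniusAt φ ℓ₀ ∧
        (LinearMap.charpoly (ρ₀.ρ φ)).eval 1 ≠ 0)
    {G : Type*} [Group G] (χ : (ZMod M)ˣ →* G)
    (W : Type*) [AddCommGroup W] [Module K W] [DistribMulAction G W] [SMulCommClass G K W]
    [IsAddTorsionFree W]
    (Ψ : (ZMod M)ˣ →* 𝒪ˣ) {n : ℕ} (hn : Odd n) (hpow : ∀ u, Ψ u ^ n = 1)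
    (hΨ1 : ∀ u, residue 𝒪 ((Ψ u : 𝒪ˣ) : 𝒪) = 1)
    (hΨT : ∀ u, ZMod.unitsMap hTM u = 1 → Ψ u = 1)
    (hW : ∀ (u : (ZMod M)ˣ) (w : W), χ u • w = algebraMap 𝒪 K ((Ψ u : 𝒪ˣ) : 𝒪) • w)
    (x : B1.H1 (B1.levelPi χ) K W) (hx : x ≠ 0) (t : ℕ → 𝒪)
    (hxt : ∀ (ℓ : ℕ) [Fact ℓ.Prime] (hℓ : ¬ ℓ ∣ M), ℓ ∉ S →
      B1.heckeH K W (B1.isEquivariant_levelPi χ (B1.nData_equivariant hℓ)) x =
        algebraMap 𝒪 K (t ℓ) • x)
    (ht : ∀ ℓ : ℕ, ℓ.Prime → ℓ ∉ S → ℓ ∉ S₀ →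
      residue 𝒪 (t ℓ) = ((a ℓ : ℤ) : ResidueField 𝒪))
    (ρ : GaloisRepAdic 𝒪)
    (hρ : ∀ ℓ : ℕ, ℓ.Prime → ℓ ∉ S → ∀ u : (ZMod M)ˣ, (u : ZMod M) = (ℓ : ZMod M) →
      ∀ A : ValuationSubring Qb, A.LiesOverPrime ℓ → ∀ σ : Qb ≃ₐ[ℚ] Qb, A.IsFrobeniusAt σ ℓ →
        LinearMap.charpoly (ρ.ρ σ) =
          X ^ 2 - C (((((Ψ u) ^ ((n + 1) / 2))⁻¹ : 𝒪ˣ) : 𝒪) * t ℓ) * X + C ((ℓ : 𝒪)))
    (v : ℕ) (hv : v.Prime) (hvp : v ≠ p) (hvT : v ∣ T)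
    (hΨv : ∀ u : (ZMod M)ˣ,
      ZMod.unitsMap (Nat.div_dvd_of_dvd (hvT.trans hTM)) u = 1 → Ψ u = 1) :
    ρ.IsUnipotentOnInertiaAt v := by
  obtain ⟨T', rfl⟩ := hvT
  have hvT' : v.Coprime T' := Nat.coprime_of_squarefree_mul hsq
  have hM' : M = N₀ * v * T' := by rw [hM]; ring
  have hT'M : T' ∣ M := (Dvd.intro_left v rfl).trans hTM
  have hdiv : M / v = N₀ * T' := by
    rw [hM, show N₀ * (v * T') = v * (N₀ * T') by ring, Nat.mul_div_cancel_left _ hv.pos]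
  have hvM : N₀ * T' ∣ M := ⟨v, by rw [hM]; ring⟩
  have hΨv' : ∀ u : (ZMod M)ˣ, ZMod.unitsMap hvM u = 1 → Ψ u = 1 := by
    intro u hu
    apply hΨv u
    have key : ∀ (d : ℕ) (hd : d = N₀ * T') (hdM : d ∣ M), ZMod.unitsMap hdM u = 1 := by
      intro d hd hdM
      subst hd
      exact hu
    exact key _ hdiv _
  have hvN₀ : ¬ v ∣ N₀ := fun h => by
    have := Nat.eq_one_of_dvd_coprimes hcop h (Dvd.intro T' rfl)
    exact hv.one_lt.ne' this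
  refine isUnipotentOnInertiaAt_of_eigenclass_char hp2 hp𝒪 hK hM' (hsq.squarefree_of_dvd
    (Dvd.intro_left v rfl)) ?_ hT'M hpS hNS ρ₀ hirr a S₀ h₀ hnE χ W Ψ hn hpow hΨ1
    (fun u hu => char_trivial_of_component hM hcop hvT' Ψ hTM hΨT hvM hΨv' hT'M u hu)
    hW x hx t hxt ht ρ hρ v hv hvp (Dvd.intro_left N₀ rfl) ?_
  · exact Nat.Coprime.mul_left (Nat.Coprime.coprime_dvd_right (Dvd.intro_left v rfl) hcop) hvT'
  · intro h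
    apply hvN₀
    rw [pow_two] at h
    exact (Nat.mul_dvd_mul_iff_right hv.pos).mp h

end main

end Fermat.Agent.S43lib.B3
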