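/-
S43lib / B3 / TwistChar (helper4): **(C), global form** — the one-prime partial twist with no conductor/CRT
bookkeeping for the caller.

`M = N₀ T` (`T` squarefree, prime to `N₀`), `Ψ : (ℤ/M)ˣ → Kˣ` a character of odd order `n` factoring through
`(ℤ/T)ˣ`, `v ∣ T` a prime; write `Ψ = ψ_v Ψ'` (`ψ_v` the `v`-component).  A nonzero `T_ℓ`-eigenclass `x` in
`H¹(Γ₀(M), W)` (the diamonds acting through `Ψ`) with eigenvalues `a_ℓ` gives, for every `L` divisible by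
`N₀ T (T/v)` and `X ≤ (ℤ/L)ˣ` on whose reductions modulo `v` the component `ψ_v` is trivial, a nonzero parabolic
`Φ ∈ Hom(GammaD L X, W)` with `T_ℓ Φ = Ψ'(ℓ)^{-(n+1)/2} a_ℓ Φ` on which `Γ₀(L)` acts through `ψ_v(d mod v)`.

* `exists_char_split`         : a character of `(ℤ/mn)ˣ` is a product of characters of `(ℤ/m)ˣ`, `(ℤ/n)ˣ`;
* `partial_twist_of_class`    : helper1's CLASS-Y + helper5's `partial_twist_core` (= `partial_twist` of #h5-H11);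
* `exists_partial_twist_gen`  : the same + helper5's `deepen`, at a general level `M = N₁ T₁`;
* `exists_partial_twist_aux`  : the character form, `M = N₀ (v T')`, `M / v` replaced by `Mv = N₀ T'`;
* **`exists_partial_twist_char`** : the statement of #h5-H11.
-/
import Mathlib
import Fermat.Agent.S43lib.B2.Tw.CoreY
import Fermat.Agent.S43lib.B2.Tw.Deepen
import Fermat.Agent.S43lib.B1x.ClassY
import Fermat.Agent.S43lib.B3.TrivCompChar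

set_option autoImplicit false
set_option linter.unusedSectionVars false
set_option linter.style.haveILetI false

noncomputable section

namespace Fermat.Agent.S43lib.B3

open CongruenceSubgroup Matrix.SpecialLinearGroup ModularForm ModularCurve.Period
open Fermat.Agent.S41lib.HC Fermat.Agent.S16lib.LH Fermat.Agent.S29lib.H
open Fermat.Agent.S43lib.B2.Bridge Fermat.Agent.S43lib.B2.Tw
open P2MW.S_ModularForm_heckeT_slash_eq_self_of_mem_Gamma0.ModularForm.HeckeSlashInvariance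
open scoped MatrixGroups

/-! ### Splitting a character along a coprime factorisation -/

/-- a character of `(ℤ/mn)ˣ` (`m`, `n` coprime) is the product of a character of `(ℤ/m)ˣ` and one of
`(ℤ/n)ˣ` -/
theorem exists_char_split {M m n : ℕ} (hM : M = m * n) (h : m.Coprime n) (hm : m ∣ M) (hn : n ∣ M)
    {H : Type*} [CommGroup H] (Ψ : (ZMod M)ˣ →* H) :
    ∃ (ψm : (ZMod m)ˣ →* H) (ψn : (ZMod n)ˣ →* H),
      ∀ u, Ψ u = ψm (ZMod.unitsMap hm u) * ψn (ZMod.unitsMap hn u) := by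
  let F : (ZMod M)ˣ →* (ZMod m)ˣ × (ZMod n)ˣ := (ZMod.unitsMap hm).prod (ZMod.unitsMap hn)
  have hF : Function.Bijective F := by
    constructor
    · rw [injective_iff_map_eq_one]
      intro u hu
      have h1 : ZMod.unitsMap hm u = 1 := congrArg Prod.fst hu
      have h2 : ZMod.unitsMap hn u = 1 := congrArg Prod.snd hu
      exact unit_eq_one_of_crt hM h hm hn u h1 h2
    · rintro ⟨a, b⟩
      obtain ⟨u, h1, h2⟩ := exists_unit_crt hM h hm hn a b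
      exact ⟨u, Prod.ext h1 h2⟩
  let e : (ZMod M)ˣ ≃* (ZMod m)ˣ × (ZMod n)ˣ := MulEquiv.ofBijective F hF
  refine ⟨Ψ.comp (e.symm.toMonoidHom.comp (MonoidHom.inl _ _)),
    Ψ.comp (e.symm.toMonoidHom.comp (MonoidHom.inr _ _)), fun u => ?_⟩
  simp only [MonoidHom.comp_apply, MonoidHom.inl_apply, MonoidHom.inr_apply,
    MulEquiv.coe_toMonoidHom]
  rw [← map_mul, ← map_mul, Prod.mk_mul_mk, mul_one, one_mul]
  have h3 : e u = (ZMod.unitsMap hm u, ZMod.unitsMap hn u) := rfl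
  rw [← h3, MulEquiv.symm_apply_apply]

/-! ### The partial twist at a general level -/

/-- helper1's `exists_eigenhom_of_eigenclass` composed with helper5's `partial_twist_core` (this is the
statement `partial_twist` of #h5-H11, inlined here so that this file depends on pushed files only) -/
theorem partial_twist_of_class {N₁ T : ℕ} [NeZero (N₁ * T)] (hsq : Squarefree T)
    (hcop : N₁.Coprime T)
    {G : Type*} [Group G] (χ : (ZMod (N₁ * T))ˣ →* G) {K : Type*} [Field K] [CharZero K]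
    {W : Type*} [AddCommGroup W] [Module K W] [DistribMulAction G W] [SMulCommClass G K W]
    [IsAddTorsionFree W]
    (ψ₁ ξ : (ZMod T)ˣ →* Kˣ) (hξ : ∀ u, ξ u * ξ u = ψ₁ u)
    (hprim : ∀ (t : ℕ) (ht : t ∣ T), t.Prime →
      ∃ x : (ZMod T)ˣ, ZMod.unitsMap (Nat.div_dvd_of_dvd ht) x = 1 ∧ ψ₁ x * ψ₁ x ≠ 1)
    (ψN : (ZMod N₁)ˣ →* Kˣ) (XN : Subgroup (ZMod N₁)ˣ) (hXN : ∀ x ∈ XN, ψN x = 1)
    (hW : ActsThroughY χ K W ψ₁ ψN)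
    (c : B1.H1 (B1.levelPi χ) K W) (hc : c ≠ 0) (S : Set ℕ) (a : ℕ → K)
    (hca : ∀ (ℓ : ℕ) [Fact ℓ.Prime] (hℓ : ¬ ℓ ∣ N₁ * T), ℓ ∉ S →
      B1.heckeH K W (B1.isEquivariant_levelPi χ (B1.nData_equivariant hℓ)) c = a ℓ • c)
    {ℓ₀ : ℕ} [Fact ℓ₀.Prime] (hℓ₀ : ¬ ℓ₀ ∣ N₁ * T * T) (hℓ₀S : ℓ₀ ∉ S)
    (h1 : ((N₁ * T * T : ℕ) : ℤ) ∣ (ℓ₀ : ℤ) - 1) (hne : a ℓ₀ ≠ 1 + (ℓ₀ : K)) :
    ∃ Φ : H (GammaD (N₁ * T * T) (unitsXN N₁ T XN)) W, Φ ≠ 0 ∧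
      IsParabolicHom (GammaD (N₁ * T * T) (unitsXN N₁ T XN)) Φ ∧
      (∀ (ℓ : ℕ) [Fact ℓ.Prime] (hℓ : ¬ ℓ ∣ N₁ * T * T), ℓ ∉ S →
        ∀ lu : (ZMod T)ˣ, ((lu : (ZMod T)ˣ) : ZMod T) = (ℓ : ZMod T) →
          heckeD hℓ (unitsXN N₁ T XN) W Φ = ((((ξ lu)⁻¹ : Kˣ) : K) * a ℓ) • Φ) ∧
      ∀ b : ↥(Gamma0 (N₁ * T * T)),
        cjD (unitsXN N₁ T XN) b W Φ = ((ψN (dNu2 b) : Kˣ) : K) • Φ := by
  have hNT : N₁ * T ≠ 0 := NeZero.ne _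
  have hT : T ≠ 0 := fun h => hNT (by rw [h, mul_zero])
  haveI : NeZero T := ⟨hT⟩
  haveI : NeZero (N₁ * T * T) := ⟨mul_ne_zero hNT hT⟩
  obtain ⟨φ, hφ0, hφE, hφa⟩ := exists_eigenhom_of_eigenclass hW (unitsYN_le XN)
    (fun y hy => hXN _ hy.2) c hc
  exact partial_twist_core hsq hcop ψ₁ ξ hξ hprim ψN XN hXN φ hφ0 hφE S a
    (fun ℓ _ hℓ hℓS => hφa ℓ hℓ (a ℓ) (hca ℓ (not_dvd_lvl hℓ) hℓS)) hℓ₀ hℓ₀S h1 hne

/-- **the one-prime partial twist, general level `M = N₁ T₁` and general deeper level `(L, X)`** -/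
theorem exists_partial_twist_gen {K : Type*} [Field K] [CharZero K] {M N₁ T₁ : ℕ} [NeZero M]
    (hM : M = N₁ * T₁) (hsq : Squarefree T₁) (hcop : N₁.Coprime T₁)
    (hT₁M : T₁ ∣ M) (hN₁M : N₁ ∣ M)
    {G : Type*} [Group G] (χ : (ZMod M)ˣ →* G)
    (W : Type*) [AddCommGroup W] [Module K W] [DistribMulAction G W] [SMulCommClass G K W]
    [IsAddTorsionFree W]
    (ψ₁ ξ : (ZMod T₁)ˣ →* Kˣ) (hξ : ∀ u, ξ u * ξ u = ψ₁ u)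
    (hprim : ∀ (t : ℕ) (ht : t ∣ T₁), t.Prime →
      ∃ x : (ZMod T₁)ˣ, ZMod.unitsMap (Nat.div_dvd_of_dvd ht) x = 1 ∧ ψ₁ x * ψ₁ x ≠ 1)
    (ψN : (ZMod N₁)ˣ →* Kˣ)
    (hW : ∀ (u : (ZMod M)ˣ) (w : W), χ u • w =
      ((ψ₁ (ZMod.unitsMap hT₁M u) * ψN (ZMod.unitsMap hN₁M u) : Kˣ) : K) • w)
    (x : B1.H1 (B1.levelPi χ) K W) (hx : x ≠ 0) (S : Set ℕ) (a : ℕ → K)
    (hxa : ∀ (ℓ : ℕ) [Fact ℓ.Prime] (hℓ : ¬ ℓ ∣ M), ℓ ∉ S →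
      B1.heckeH K W (B1.isEquivariant_levelPi χ (B1.nData_equivariant hℓ)) x = a ℓ • x)
    (L : ℕ) [NeZero L] (hL : N₁ * T₁ * T₁ ∣ L) (hN₁L : N₁ ∣ L)
    (X : Subgroup (ZMod L)ˣ) (hX : ∀ y ∈ X, ψN (ZMod.unitsMap hN₁L y) = 1)
    {ℓ₀ : ℕ} [Fact ℓ₀.Prime] (hℓ₀ : ¬ ℓ₀ ∣ L) (hℓ₀S : ℓ₀ ∉ S)
    (h1 : (L : ℤ) ∣ (ℓ₀ : ℤ) - 1) (hne : a ℓ₀ ≠ 1 + (ℓ₀ : K)) :
    ∃ Φ : H (GammaD L X) W, Φ ≠ 0 ∧ IsParabolicHom (GammaD L X) Φ ∧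
      (∀ (ℓ : ℕ) [Fact ℓ.Prime] (hℓ : ¬ ℓ ∣ L), ℓ ∉ S →
        ∀ lu : (ZMod T₁)ˣ, ((lu : (ZMod T₁)ˣ) : ZMod T₁) = (ℓ : ZMod T₁) →
          heckeD hℓ X W Φ = ((((ξ lu)⁻¹ : Kˣ) : K) * a ℓ) • Φ) ∧
      ∀ (b : ↥(Gamma0 L)) (z : (ZMod N₁)ˣ),
        ((z : (ZMod N₁)ˣ) : ZMod N₁) = (((b : SL(2, ℤ)) 1 1 : ℤ) : ZMod N₁) →
        cjD X b W Φ = ((ψN z : Kˣ) : K) • Φ := by
  subst hM
  have hℓ₀' : ¬ ℓ₀ ∣ N₁ * T₁ * T₁ := fun h => hℓ₀ (h.trans hL)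
  have h1' : ((N₁ * T₁ * T₁ : ℕ) : ℤ) ∣ (ℓ₀ : ℤ) - 1 := (Int.natCast_dvd_natCast.mpr hL).trans h1
  obtain ⟨Φ₀, hΦ₀, hpar, heig, hcj⟩ := partial_twist_of_class hsq hcop χ ψ₁ ξ hξ hprim ψN ψN.ker
    (fun z hz => hz) (fun u w => hW u w) x hx S a hxa hℓ₀' hℓ₀S h1' hne
  have hle : GammaD L X ≤ GammaD (N₁ * T₁ * T₁) (unitsXN N₁ T₁ ψN.ker) := by
    refine GammaD_le_of_dvd hL (fun y hy => ?_)
    show ψN (ZMod.unitsMap (dvd_N_NTT N₁ T₁) (ZMod.unitsMap hL y)) = 1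
    rw [unitsMap_unitsMap]
    exact hX y hy
  obtain ⟨d1, d2, d3, d4⟩ := deepen (K := K) hL (unitsXN N₁ T₁ ψN.ker) X hle Φ₀
  refine ⟨resOp hle W Φ₀, d1 hΦ₀, d2 hpar, ?_, ?_⟩
  · intro ℓ _ hℓ hℓS lu hlu
    have hℓ' : ¬ ℓ ∣ N₁ * T₁ * T₁ := fun h => hℓ (h.trans hL)
    exact d3 ℓ hℓ' hℓ _ (heig ℓ hℓ' hℓS lu hlu)
  · intro b z hz
    refine d4 b _ ?_
    rw [hcj]
    congr 3
    apply Units.ext
    rw [coe_dNu2, hz]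
    rfl

/-! ### The character form -/

/-- **(C), character form**, `M = N₀ (v T')`, with `M / v` replaced by a variable `Mv = N₀ T'` -/
theorem exists_partial_twist_aux {K : Type*} [Field K] [CharZero K] {M N₀ v T' Mv : ℕ} [NeZero M]
    (hM : M = N₀ * (v * T')) (hMv : Mv = N₀ * T') (hsq : Squarefree (v * T'))
    (hcop : N₀.Coprime (v * T')) (hTM : v * T' ∣ M)
    {G : Type*} [Group G] (χ : (ZMod M)ˣ →* G)
    (W : Type*) [AddCommGroup W] [Module K W] [DistribMulAction G W] [SMulCommClass G K W]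
    [IsAddTorsionFree W]
    (Ψ : (ZMod M)ˣ →* Kˣ) {n : ℕ} (hn : Odd n) (hpow : ∀ u, Ψ u ^ n = 1)
    (hΨT : ∀ u, ZMod.unitsMap hTM u = 1 → Ψ u = 1)
    (hW : ∀ (u : (ZMod M)ˣ) (w : W), χ u • w = ((Ψ u : Kˣ) : K) • w)
    (x : B1.H1 (B1.levelPi χ) K W) (hx : x ≠ 0) (S : Set ℕ) (a : ℕ → K)
    (hxa : ∀ (ℓ : ℕ) [Fact ℓ.Prime] (hℓ : ¬ ℓ ∣ M), ℓ ∉ S →
      B1.heckeH K W (B1.isEquivariant_levelPi χ (B1.nData_equivariant hℓ)) x = a ℓ • x)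
    (hvM : v ∣ M) (hMvM : Mv ∣ M)
    (L : ℕ) [NeZero L] (hL : N₀ * (v * T') * T' ∣ L) (hvL : v ∣ L)
    (X : Subgroup (ZMod L)ˣ)
    (hX : ∀ y ∈ X, ∀ u : (ZMod M)ˣ, ZMod.unitsMap hMvM u = 1 →
      ZMod.unitsMap hvM u = ZMod.unitsMap hvL y → Ψ u = 1)
    {ℓ₀ : ℕ} [Fact ℓ₀.Prime] (hℓ₀ : ¬ ℓ₀ ∣ L) (hℓ₀S : ℓ₀ ∉ S)
    (h1 : (L : ℤ) ∣ (ℓ₀ : ℤ) - 1) (hne : a ℓ₀ ≠ 1 + (ℓ₀ : K)) :
    ∃ Φ : H (GammaD L X) W, Φ ≠ 0 ∧ IsParabolicHom (GammaD L X) Φ ∧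
      (∀ (ℓ : ℕ) [Fact ℓ.Prime] (hℓ : ¬ ℓ ∣ L), ℓ ∉ S → ∀ u : (ZMod M)ˣ,
        ZMod.unitsMap hvM u = 1 →
        ((ZMod.unitsMap hMvM u : (ZMod Mv)ˣ) : ZMod Mv) = (ℓ : ZMod Mv) →
        heckeD hℓ X W Φ = (((((Ψ u) ^ ((n + 1) / 2))⁻¹ : Kˣ) : K) * a ℓ) • Φ) ∧
      (∀ (b : ↥(Gamma0 L)) (u : (ZMod M)ˣ), ZMod.unitsMap hMvM u = 1 →
        ((ZMod.unitsMap hvM u : (ZMod v)ˣ) : ZMod v) = (((b : SL(2, ℤ)) 1 1 : ℤ) : ZMod v) →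
        cjD X b W Φ = ((Ψ u : Kˣ) : K) • Φ) := by
  classical
  subst hMv
  have hM0 : M ≠ 0 := NeZero.ne M
  have hvT' : v.Coprime T' := Nat.coprime_of_squarefree_mul hsq
  have hMsplit : M = v * (N₀ * T') := by rw [hM]; ring
  have hcopv : v.Coprime (N₀ * T') :=
    Nat.Coprime.mul_right (Nat.Coprime.coprime_dvd_right (Dvd.intro T' rfl) hcop).symm hvT'
  haveI : NeZero (N₀ * T') := ⟨fun h => hM0 (by rw [hMsplit, h, mul_zero])⟩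
  -- the splitting `Ψ = ψ_v Ψ'`
  obtain ⟨ψv, Ψ', hsplit⟩ := exists_char_split hMsplit hcopv hvM hMvM Ψ
  have hΨ_of_v : ∀ u, ZMod.unitsMap hvM u = 1 → Ψ u = Ψ' (ZMod.unitsMap hMvM u) := by
    intro u hu
    rw [hsplit, hu, map_one, one_mul]
  have hΨ_of_Mv : ∀ u, ZMod.unitsMap hMvM u = 1 → Ψ u = ψv (ZMod.unitsMap hvM u) := by
    intro u hu
    rw [hsplit, hu, map_one, mul_one]
  have hlift : ∀ u' : (ZMod (N₀ * T'))ˣ, ∃ u : (ZMod M)ˣ,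
      ZMod.unitsMap hvM u = 1 ∧ ZMod.unitsMap hMvM u = u' :=
    fun u' => exists_unit_crt hMsplit hcopv hvM hMvM 1 u'
  have hT'Mv : T' ∣ N₀ * T' := Dvd.intro_left N₀ rfl
  -- `Ψ'` factors through `(ℤ/T')ˣ`
  have hfac : ∀ u', ZMod.unitsMap hT'Mv u' = 1 → Ψ' u' = 1 := by
    intro u' hu'
    obtain ⟨u, huv, hu⟩ := hlift u'
    rw [← hu, ← hΨ_of_v u huv]
    apply hΨT
    refine unit_eq_one_of_crt rfl hvT' (Dvd.intro T' rfl) (Dvd.intro_left v rfl) _ ?_ ?_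
    · rw [unitsMap_unitsMap]
      exact huv
    · rw [unitsMap_unitsMap]
      have h2 := congrArg (ZMod.unitsMap hT'Mv) hu
      rw [unitsMap_unitsMap, hu'] at h2
      exact h2
  have hpow' : ∀ u', Ψ' u' ^ n = 1 := by
    intro u'
    obtain ⟨u, huv, hu⟩ := hlift u'
    rw [← hu, ← hΨ_of_v u huv, hpow]
  -- the conductor of `Ψ'`
  obtain ⟨T₁, hT₁, ψ₁, hψ₁, hprim⟩ := exists_conductor hT'Mv Ψ' hfac hn hpow'
  have hT₁T' : T₁ ∣ T' := hT₁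
  obtain ⟨T₂, hT₂⟩ := hT₁T'
  have hM' : M = N₀ * v * T₂ * T₁ := by rw [hM, hT₂]; ring
  have hT₁Mv : T₁ ∣ N₀ * T' := hT₁.trans hT'Mv
  have hT₁M : T₁ ∣ M := hT₁Mv.trans hMvM
  have hN₁M : N₀ * v * T₂ ∣ M := ⟨T₁, hM'⟩
  have hvN₁ : v ∣ N₀ * v * T₂ := ⟨N₀ * T₂, by ring⟩
  have hsq₁ : Squarefree T₁ := hsq.squarefree_of_dvd (hT₁.trans (Dvd.intro_left v rfl))
  have hcop₁ : (N₀ * v * T₂).Coprime T₁ := by
    refine Nat.Coprime.mul_left (Nat.Coprime.mul_left ?_ ?_) ?_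
    · exact Nat.Coprime.coprime_dvd_right (hT₁.trans (Dvd.intro_left v rfl)) hcop
    · exact Nat.Coprime.coprime_dvd_right hT₁ hvT'
    · have h2 : Squarefree (T₁ * T₂) := hT₂ ▸ hsq.squarefree_of_dvd (Dvd.intro_left v rfl)
      exact (Nat.coprime_of_squarefree_mul h2).symm
  have hsurj₁ : Function.Surjective (ZMod.unitsMap hT₁Mv) := ZMod.unitsMap_surjective hT₁Mv
  have hpow₁ : ∀ u₁, ψ₁ u₁ ^ n = 1 := by
    intro u₁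
    obtain ⟨u', rfl⟩ := hsurj₁ u₁
    rw [← hψ₁, hpow']
  -- the square root
  set ξ : (ZMod T₁)ˣ →* Kˣ := ψ₁ ^ ((n + 1) / 2) with hξdef
  have hξ : ∀ u, ξ u * ξ u = ψ₁ u := exists_sqrt_char ψ₁ hn hpow₁
  -- the character at `N₁`
  set ψN : (ZMod (N₀ * v * T₂))ˣ →* Kˣ := ψv.comp (ZMod.unitsMap hvN₁) with hψN
  have hψ₁M : ∀ u : (ZMod M)ˣ, Ψ' (ZMod.unitsMap hMvM u) = ψ₁ (ZMod.unitsMap hT₁M u) := by
    intro u
    rw [hψ₁, unitsMap_unitsMap]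
  have hψNM : ∀ u : (ZMod M)ˣ, ψN (ZMod.unitsMap hN₁M u) = ψv (ZMod.unitsMap hvM u) := by
    intro u
    rw [hψN, MonoidHom.comp_apply, unitsMap_unitsMap]
  have hW' : ∀ (u : (ZMod M)ˣ) (w : W), χ u • w =
      ((ψ₁ (ZMod.unitsMap hT₁M u) * ψN (ZMod.unitsMap hN₁M u) : Kˣ) : K) • w := by
    intro u w
    rw [hW, hsplit, hψ₁M, hψNM, mul_comm]
  have hL' : N₀ * v * T₂ * T₁ * T₁ ∣ L := by
    refine Dvd.dvd.trans ⟨T₂, ?_⟩ hL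
    rw [hT₂]
    ring
  have hN₁L : N₀ * v * T₂ ∣ L := Dvd.dvd.trans ⟨T₁ * T₁, by ring⟩ hL'
  have hX' : ∀ y ∈ X, ψN (ZMod.unitsMap hN₁L y) = 1 := by
    intro y hy
    obtain ⟨u, huv, hu⟩ := exists_unit_crt hMsplit hcopv hvM hMvM (ZMod.unitsMap hvL y) 1
    have h2 := hX y hy u hu huv
    rw [hΨ_of_Mv u hu, huv] at h2
    rw [hψN, MonoidHom.comp_apply, unitsMap_unitsMap]
    exact h2
  obtain ⟨Φ, hΦ0, hΦpar, hΦeig, hΦcj⟩ := exists_partial_twist_gen hM' hsq₁ hcop₁ hT₁M hN₁M χ W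
    ψ₁ ξ hξ hprim ψN hW' x hx S a hxa L hL' hN₁L X hX' hℓ₀ hℓ₀S h1 hne
  refine ⟨Φ, hΦ0, hΦpar, ?_, ?_⟩
  · intro ℓ _ hℓ hℓS u huv huℓ
    have hlu : ((ZMod.unitsMap hT₁M u : (ZMod T₁)ˣ) : ZMod T₁) = (ℓ : ZMod T₁) := by
      have h3 : ZMod.unitsMap hT₁M u = ZMod.unitsMap hT₁Mv (ZMod.unitsMap hMvM u) :=
        (unitsMap_unitsMap _ _ _).symm
      rw [h3, ZMod.unitsMap_val, huℓ, ZMod.cast_natCast hT₁Mv]
    have h4 := hΦeig ℓ hℓ hℓS (ZMod.unitsMap hT₁M u) hlu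
    have h5 : ξ (ZMod.unitsMap hT₁M u) = (Ψ u) ^ ((n + 1) / 2) := by
      rw [hξdef, MonoidHom.pow_apply, hΨ_of_v u huv, hψ₁M]
    rw [h5] at h4
    exact h4
  · intro b u hu hub
    have hz : (((ZMod.unitsMap hN₁L (dUnit L b)) : (ZMod (N₀ * v * T₂))ˣ) : ZMod (N₀ * v * T₂)) =
        (((b : SL(2, ℤ)) 1 1 : ℤ) : ZMod (N₀ * v * T₂)) := by
      rw [ZMod.unitsMap_val, coe_dUnit', ZMod.cast_intCast hN₁L]
    have h4 := hΦcj b _ hz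
    have h5 : ψN (ZMod.unitsMap hN₁L (dUnit L b)) = Ψ u := by
      rw [hΨ_of_Mv u hu, hψN, MonoidHom.comp_apply]
      congr 1
      apply Units.ext
      rw [ZMod.unitsMap_val, hz, ZMod.cast_intCast hvN₁, hub]
    rw [h5] at h4
    exact h4

/-- **(C), global form** (the statement of #h5-H11): the one-prime partial twist by the square root of the
prime-to-`v` part of the nebentypus, at any deeper level `(L, X)`. -/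
theorem exists_partial_twist_char {K : Type*} [Field K] [CharZero K] {M N₀ T : ℕ} [NeZero M]
    (hM : M = N₀ * T) (hsq : Squarefree T) (hcop : N₀.Coprime T) (hTM : T ∣ M)
    {G : Type*} [Group G] (χ : (ZMod M)ˣ →* G)
    (W : Type*) [AddCommGroup W] [Module K W] [DistribMulAction G W] [SMulCommClass G K W]
    [IsAddTorsionFree W]
    (Ψ : (ZMod M)ˣ →* Kˣ) {n : ℕ} (hn : Odd n) (hpow : ∀ u, Ψ u ^ n = 1)
    (hΨT : ∀ u, ZMod.unitsMap hTM u = 1 → Ψ u = 1)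
    (hW : ∀ (u : (ZMod M)ˣ) (w : W), χ u • w = ((Ψ u : Kˣ) : K) • w)
    (x : B1.H1 (B1.levelPi χ) K W) (hx : x ≠ 0) (S : Set ℕ) (a : ℕ → K)
    (hxa : ∀ (ℓ : ℕ) [Fact ℓ.Prime] (hℓ : ¬ ℓ ∣ M), ℓ ∉ S →
      B1.heckeH K W (B1.isEquivariant_levelPi χ (B1.nData_equivariant hℓ)) x = a ℓ • x)
    (v : ℕ) (hv : v.Prime) (hvT : v ∣ T) (hvM : v ∣ M) (hMv : M / v ∣ M)
    (L : ℕ) [NeZero L] (hL : N₀ * T * (T / v) ∣ L) (hvL : v ∣ L)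
    (X : Subgroup (ZMod L)ˣ)
    (hX : ∀ y ∈ X, ∀ u : (ZMod M)ˣ, ZMod.unitsMap hMv u = 1 →
      ZMod.unitsMap hvM u = ZMod.unitsMap hvL y → Ψ u = 1)
    {ℓ₀ : ℕ} [Fact ℓ₀.Prime] (hℓ₀ : ¬ ℓ₀ ∣ L) (hℓ₀S : ℓ₀ ∉ S)
    (h1 : (L : ℤ) ∣ (ℓ₀ : ℤ) - 1) (hne : a ℓ₀ ≠ 1 + (ℓ₀ : K)) :
    ∃ Φ : H (GammaD L X) W, Φ ≠ 0 ∧ IsParabolicHom (GammaD L X) Φ ∧
      (∀ (ℓ : ℕ) [Fact ℓ.Prime] (hℓ : ¬ ℓ ∣ L), ℓ ∉ S → ∀ u : (ZMod M)ˣ,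
        ZMod.unitsMap hvM u = 1 →
        ((ZMod.unitsMap hMv u : (ZMod (M / v))ˣ) : ZMod (M / v)) = (ℓ : ZMod (M / v)) →
        heckeD hℓ X W Φ = (((((Ψ u) ^ ((n + 1) / 2))⁻¹ : Kˣ) : K) * a ℓ) • Φ) ∧
      (∀ (b : ↥(Gamma0 L)) (u : (ZMod M)ˣ), ZMod.unitsMap hMv u = 1 →
        ((ZMod.unitsMap hvM u : (ZMod v)ˣ) : ZMod v) = (((b : SL(2, ℤ)) 1 1 : ℤ) : ZMod v) →
        cjD X b W Φ = ((Ψ u : Kˣ) : K) • Φ) := by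
  obtain ⟨T', rfl⟩ := hvT
  have hdiv : M / v = N₀ * T' := by
    rw [hM, show N₀ * (v * T') = v * (N₀ * T') by ring, Nat.mul_div_cancel_left _ hv.pos]
  have hT'div : v * T' / v = T' := Nat.mul_div_cancel_left T' hv.pos
  rw [hT'div] at hL
  exact exists_partial_twist_aux hM hdiv hsq hcop hTM χ W Ψ hn hpow hΨT hW x hx S a hxa hvM hMv L hL
    hvL X hX hℓ₀ hℓ₀S h1 hne

end Fermat.Agent.S43lib.B3
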