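/-
S43lib / B3 / DiamGact  (helper4).

DIAMOND = GACT: on the localised cohomology `(levelSys χ f).F R W 𝔪` of helper3's level-`M` Hecke
system, the variable `X i` of an index `i` with `f i = Sum.inr u` (the diamond operator `⟨u⟩`) acts
as the coefficient action `Gact 𝔪 (χ u)`.
-/
import Mathlib
import Fermat.Agent.S43lib.B1.Iface

set_option autoImplicit false
set_option linter.unusedSectionVars false
set_option linter.unusedVariables false

noncomputable section

namespace Fermat.Agent.S43lib.B3

open MvPolynomial Fermat.Agent.S41lib.HC Fermat.Agent.S43lib.B1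
open CongruenceSubgroup Matrix.SpecialLinearGroup
open Fermat.Agent.S16lib.LH Fermat.Agent.S29lib.H Fermat.Agent.S48lib.W1
open scoped MatrixGroups

section

variable {M : ℕ} [NeZero M] {G : Type} [CommGroup G] (χ : (ZMod M)ˣ →* G)
variable {R : Type} [CommRing R]
variable (W : Type) [AddCommGroup W] [Module R W] [DistribMulAction G W] [SMulCommClass G R W]

/-- the operator of a general index `j` which happens to be a diamond index, with an arbitrary
equivariance proof -/
theorem heckeH_lvlD_of_eq_inr (j : LvlIdx M) (u : (ZMod M)ˣ) (hj : j = Sum.inr u)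
    (hD : CosetData.IsEquivariant (levelPi χ) (lvlD M j)) (x : H1 (levelPi χ) R W) :
    heckeH R W hD x =
      H1.map (levelPi χ) (QuotG.actLin (G := G) R W (χ u)) (isEquivar_actLin (χ u)) x := by
  subst hj
  have h := heckeH_diamData (levelPi χ) R W (unitRep u) x
  have hu : levelPi χ (unitRep u) = χ u := by
    rw [levelPi_apply, unitHom_apply, gamma0Unit_unitRep]
  rw [hu] at h
  exact h

/-- the operator of a general index `j` which happens to be the index of `T_ℓ`, with an arbitrary
equivariance proof -/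
theorem heckeH_lvlD_of_eq_inl (j : LvlIdx M) {ℓ : ℕ} [Fact ℓ.Prime] (hℓ : ¬ ℓ ∣ M)
    (hj : j = Sum.inl (Sum.inl ⟨ℓ, Fact.out, hℓ⟩))
    (hD : CosetData.IsEquivariant (levelPi χ) (lvlD M j)) (x : H1 (levelPi χ) R W) :
    heckeH R W hD x =
      heckeH R W (isEquivariant_levelPi χ (nData_equivariant hℓ)) x := by
  subst hj
  show heckeH R W _ x = heckeH R W (isEquivariant_levelPi χ (nData_equivariant hℓ)) x
  congr!

variable {I : Type} (f : I → LvlIdx M)

/-- before localisation: `T_i` is helper3's normalised `T_ℓ` when `f i` is the index of `T_ℓ` -/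
theorem levelSys_T_of_eq_inl (i : I) {ℓ : ℕ} [Fact ℓ.Prime] (hℓ : ¬ ℓ ∣ M)
    (hi : f i = Sum.inl (Sum.inl ⟨ℓ, Fact.out, hℓ⟩)) (x : (levelSys χ f).Coh R W) :
    (levelSys χ f).T R W i x =
      heckeH R W (isEquivariant_levelPi χ (nData_equivariant hℓ)) x :=
  heckeH_lvlD_of_eq_inl χ W (f i) hℓ hi _ x

/-- before localisation: `T_i` is the coefficient action of `χ u` when `f i = ⟨u⟩` -/
theorem levelSys_T_of_eq_inr (i : I) (u : (ZMod M)ˣ) (hi : f i = Sum.inr u)
    (x : (levelSys χ f).Coh R W) :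
    (levelSys χ f).T R W i x =
      (levelSys χ f).map (QuotG.actLin (G := G) R W (χ u)) (isEquivar_actLin (χ u)) x :=
  heckeH_lvlD_of_eq_inr χ W (f i) u hi _ x

/-- **DIAMOND = GACT.** -/
theorem X_smul_eq_Gact (i : I) (u : (ZMod M)ˣ) (hi : f i = Sum.inr u)
    (𝔪 : Ideal (MvPolynomial I R)) [𝔪.IsPrime] (y : (levelSys χ f).F R W 𝔪) :
    (X i : MvPolynomial I R) • y = (levelSys χ f).Gact 𝔪 (χ u) y := by
  have h : ((X i : MvPolynomial I R) •
      (LinearMap.id : (levelSys χ f).F R W 𝔪 →ₗ[MvPolynomial I R] (levelSys χ f).F R W 𝔪)) =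
      (levelSys χ f).Gact 𝔪 (χ u) := by
    apply (levelSys χ f).F_hom_ext 𝔪
    intro x
    rw [LinearMap.smul_apply, LinearMap.id_apply, HeckeSys.X_smul_loc]
    unfold HeckeSys.Gact
    rw [HeckeSys.Fmap_loc, levelSys_T_of_eq_inr χ W f i u hi]
  rw [← h, LinearMap.smul_apply, LinearMap.id_apply]

end

end Fermat.Agent.S43lib.B3
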