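/-
S43lib / B3 / CycGen (helper4): **CYC-GEN — the image of the tame generator `Σ_v` generates every `p`-group quotient
of `(ℤ/v)ˣ`.**

`v` a prime, `p ≠ v` a prime, `c = cyc_v(Σ_v) ∈ (ℤ/v)ˣ` the value of the mod `v` cyclotomic character at the tame
generator `Σ_v = globGenAt v p`; `C` a finite commutative `p`-group, `κ : (ℤ/v)ˣ → C` surjective.  Then `κ c` generates
`C`.

Proof: `f = κ ∘ cyc_v : G_ℚ → C` is unramified outside `v`, and the image of every inertia group at `v` lies in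
`C' = ⟨κ c⟩` (`tame_at_prime`; `C` is commutative, so conjugation does not matter).  So `f mod C'` is unramified
everywhere, hence trivial (Minkowski: `S13lib.monoidHom_eq_one_of_unramified`), and `f` is onto.
-/
import Mathlib
import Fermat.Agent.S43lib.B3.AdicTame
import Fermat.Agent.S56lib.TW.Cyclo
import Fermat.Agent.S13lib.UnramTop

set_option autoImplicit false
set_option linter.unusedSectionVars false
set_option linter.style.haveILetI false

noncomputable section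

namespace Fermat.Agent.S43lib.B3

open ExtCitation Fermat.Agent.S56lib.TW
open scoped Pointwise

local notation "Qb" => AlgebraicClosure ℚ

/-- a homomorphism from `G_ℚ` through the mod `v` cyclotomic character has open kernel and finite level `ℚ(μ_v)` -/
theorem exists_level_cycloChar (v : ℕ) [hv : Fact v.Prime] :
    ∃ F : IntermediateField ℚ Qb, FiniteDimensional ℚ F ∧
      ∀ s ∈ F.fixingSubgroup, cycloChar v s = 1 := by
  haveI : NeZero v := ⟨hv.out.ne_zero⟩
  obtain ⟨ζ, hζ⟩ := HasEnoughRootsOfUnity.exists_primitiveRoot Qb v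
  refine ⟨IntermediateField.adjoin ℚ {ζ}, ?_, fun s hs => ?_⟩
  · exact IntermediateField.adjoin.finiteDimensional (hζ.isIntegral hv.out.pos).tower_top
  · apply cycloChar_eq_one_of_fixes
    intro μ hμ
    obtain ⟨j, -, rfl⟩ := hζ.eq_pow_of_pow_eq_one hμ
    have h1 : s ζ = ζ := by
      have := (IntermediateField.mem_fixingSubgroup_iff _ s).1 hs ζ
        (IntermediateField.mem_adjoin_simple_self ℚ ζ)
      exact this
    rw [map_pow, h1]

/-- **CYC-GEN.** -/
theorem zpowers_eq_top_of_cycloChar_globGenAt (v : Nat.Primes) {p : ℕ} (hp : p.Prime)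
    (hpv : p ≠ (v : ℕ)) (c : (ZMod (v : ℕ))ˣ)
    (hc : ∀ μ : Qb, μ ^ (v : ℕ) = 1 → globGenAt v p μ = μ ^ (c : ZMod (v : ℕ)).val)
    {C : Type*} [CommGroup C] (hC : IsPGroup p C)
    (κ : (ZMod (v : ℕ))ˣ →* C) (hκ : Function.Surjective κ) :
    Subgroup.zpowers (κ c) = ⊤ := by
  haveI : Fact (v : ℕ).Prime := ⟨v.2⟩
  have hcSig : cycloChar (v : ℕ) (globGenAt v p) = c := cycloChar_eq_of_spec (v : ℕ) _ c hc
  set f : (Qb ≃ₐ[ℚ] Qb) →* C := κ.comp (cycloChar (v : ℕ)) with hf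
  set C' : Subgroup C := Subgroup.zpowers (κ c) with hC'
  set χ : (Qb ≃ₐ[ℚ] Qb) →* C ⧸ C' := (QuotientGroup.mk' C').comp f with hχ
  obtain ⟨F, hFfin, hF⟩ := exists_level_cycloChar (v : ℕ)
  haveI := hFfin
  have hFf : ∀ s ∈ F.fixingSubgroup, f s = 1 := by
    intro s hs
    rw [hf, MonoidHom.comp_apply, hF s hs, map_one]
  -- the inertia group of the standard place over `v`
  have h0 : ∀ s ∈ (primeLocalPlace v).inertiaSubgroupIn ℚ, f s ∈ C' := by
    obtain ⟨-, -, -, h4⟩ := tame_at_prime v hp hpv f F hFf (fun s _ => hC (f s))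
    intro s hs
    obtain ⟨j, hj⟩ := h4 s hs
    rw [hj, hf, MonoidHom.comp_apply, hcSig, hC']
    exact Subgroup.pow_mem _ (Subgroup.mem_zpowers _) j
  -- `χ` is unramified everywhere
  have hin : ∀ ℓ : ℕ, ℓ.Prime → ∀ A : ValuationSubring Qb, A.LiesOverPrime ℓ →
      ∀ σ ∈ A.inertiaSubgroupIn ℚ, χ σ = 1 := by
    intro ℓ hℓ A hA σ hσ
    by_cases hℓv : ℓ = (v : ℕ)
    · subst hℓv
      obtain ⟨g, hg⟩ : ∃ g : Qb ≃ₐ[ℚ] Qb, A = g • primeLocalPlace v :=
        Fermat.Agent.S56lib.TWSel.exists_smul_eq_of_liesOverPrime v.2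
          (Fermat.Agent.S56lib.TWSel.primeLocalPlace_liesOverPrime v) hA
      have h1 : g⁻¹ * σ * g⁻¹⁻¹ ∈ (g⁻¹ • A).inertiaSubgroupIn ℚ :=
        Fermat.Agent.S56lib.TWSel.conj_mem_inertia hσ
      rw [inv_inv, hg, inv_smul_smul] at h1
      have h2 := h0 _ h1
      have h3 : f (g⁻¹ * σ * g) = f σ := by
        rw [map_mul, map_mul, map_inv, mul_comm (f g)⁻¹, mul_assoc, inv_mul_cancel, mul_one]
      rw [h3] at h2
      rw [hχ, MonoidHom.comp_apply, QuotientGroup.mk'_apply, QuotientGroup.eq_one_iff]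
      exact h2
    · have h1 : cycloChar (v : ℕ) σ = 1 := by
        apply cycloChar_eq_one_of_fixes
        intro μ hμ
        exact inertia_apply_rootOfUnity (v : ℕ) hℓ hℓv hA hσ (n := 1) (by rwa [pow_one])
      rw [hχ, MonoidHom.comp_apply, hf, MonoidHom.comp_apply, h1, map_one, map_one]
  -- open kernel
  have hopen : IsOpen (χ.ker : Set (Qb ≃ₐ[ℚ] Qb)) := by
    refine Subgroup.isOpen_mono (H₁ := F.fixingSubgroup) ?_ (IntermediateField.fixingSubgroup_isOpen F)
    intro s hs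
    rw [MonoidHom.mem_ker, hχ, MonoidHom.comp_apply, hFf s hs, map_one]
  have htriv := Fermat.Agent.S13lib.monoidHom_eq_one_of_unramified χ hopen hin
  rw [Subgroup.eq_top_iff']
  intro x
  obtain ⟨u, rfl⟩ := hκ x
  obtain ⟨σ, rfl⟩ := cycloChar_surjective (v : ℕ) u
  have := htriv σ
  rw [hχ, MonoidHom.comp_apply, QuotientGroup.mk'_apply, QuotientGroup.eq_one_iff] at this
  exact this

/-- the value `c = cyc_v(Σ_v)` of the mod `v` cyclotomic character at the tame generator -/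
def cycGen (v : Nat.Primes) (p : ℕ) : (ZMod (v : ℕ))ˣ :=
  haveI : Fact (v : ℕ).Prime := ⟨v.2⟩
  cycloChar (v : ℕ) (globGenAt v p)

theorem cycGen_spec (v : Nat.Primes) (p : ℕ) (μ : Qb) (hμ : μ ^ (v : ℕ) = 1) :
    globGenAt v p μ = μ ^ (cycGen v p : ZMod (v : ℕ)).val := by
  haveI : Fact (v : ℕ).Prime := ⟨v.2⟩
  exact cycloChar_spec (v : ℕ) (globGenAt v p) μ hμ

/-- **CYC-GEN** for `c = cycGen v p` -/
theorem zpowers_cycGen_eq_top (v : Nat.Primes) {p : ℕ} (hp : p.Prime) (hpv : p ≠ (v : ℕ))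
    {C : Type*} [CommGroup C] (hC : IsPGroup p C)
    (κ : (ZMod (v : ℕ))ˣ →* C) (hκ : Function.Surjective κ) :
    Subgroup.zpowers (κ (cycGen v p)) = ⊤ :=
  zpowers_eq_top_of_cycloChar_globGenAt v hp hpv (cycGen v p) (cycGen_spec v p) hC κ hκ

/-- **CYC-GEN, corollary**: for `p` odd and `p ^ a ∣ v - 1` there is a surjection `κ : (ℤ/v)ˣ → ℤ/p^a` (written
multiplicatively) with `κ (cyc_v(Σ_v)) = 2`, i.e. `cyc_v(Σ_v)^{1/2} ↦` the generator `1`. -/
theorem exists_kappa (v : Nat.Primes) {p : ℕ} (hp : p.Prime) (hp2 : p ≠ 2) (hpv : p ≠ (v : ℕ))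
    (a : ℕ) (ha : p ^ a ∣ (v : ℕ) - 1) :
    ∃ κ : (ZMod (v : ℕ))ˣ →* Multiplicative (ZMod (p ^ a)), Function.Surjective κ ∧
      κ (cycGen v p) = Multiplicative.ofAdd 2 := by
  haveI : Fact (v : ℕ).Prime := ⟨v.2⟩
  haveI : NeZero (p ^ a) := ⟨pow_ne_zero a hp.ne_zero⟩
  obtain ⟨g, hg⟩ := IsCyclic.exists_generator (α := (ZMod (v : ℕ))ˣ)
  have hog : orderOf g = (v : ℕ) - 1 := by
    rw [orderOf_eq_card_of_forall_mem_zpowers hg, Nat.card_eq_fintype_card,
      ZMod.card_units_eq_totient, Nat.totient_prime v.2]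
  set g' : Multiplicative (ZMod (p ^ a)) := Multiplicative.ofAdd 1 with hg'
  have hog' : orderOf g' = p ^ a := by
    rw [hg', orderOf_ofAdd_eq_addOrderOf, ZMod.addOrderOf_one]
  have hdvd : orderOf g' ∣ orderOf g := by rw [hog, hog']; exact ha
  set κ₀ : (ZMod (v : ℕ))ˣ →* Multiplicative (ZMod (p ^ a)) :=
    monoidHomOfForallMemZpowers hg hdvd with hκ₀
  have hκ₀g : κ₀ g = g' := monoidHomOfForallMemZpowers_apply_gen hg hdvd
  have hgen' : ∀ x : Multiplicative (ZMod (p ^ a)), x ∈ Subgroup.zpowers g' := by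
    intro x
    refine ⟨((Multiplicative.toAdd x).val : ℤ), ?_⟩
    show g' ^ ((Multiplicative.toAdd x).val : ℤ) = x
    rw [zpow_natCast, hg', ← ofAdd_nsmul, nsmul_eq_mul, mul_one, ZMod.natCast_zmod_val]
    rfl
  have hκ₀surj : Function.Surjective κ₀ := by
    intro x
    obtain ⟨k, rfl⟩ := hgen' x
    exact ⟨g ^ k, by rw [map_zpow, hκ₀g]⟩
  have hC : IsPGroup p (Multiplicative (ZMod (p ^ a))) := by
    refine IsPGroup.of_card (n := a) ?_
    rw [Nat.card_eq_fintype_card, Fintype.card_multiplicative, ZMod.card]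
  have htop := zpowers_cycGen_eq_top v hp hpv hC κ₀ hκ₀surj
  set u : ZMod (p ^ a) := Multiplicative.toAdd (κ₀ (cycGen v p)) with hu
  have huu : IsUnit u := by
    have h1 : g' ∈ Subgroup.zpowers (κ₀ (cycGen v p)) := by rw [htop]; exact Subgroup.mem_top _
    obtain ⟨k, hk⟩ := h1
    have h2 : (k : ZMod (p ^ a)) * u = 1 := by
      have := congrArg Multiplicative.toAdd hk
      simp only [toAdd_zpow] at this
      rw [zsmul_eq_mul] at this
      rw [this, hg']
      rfl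
    exact IsUnit.of_mul_eq_one_right _ h2
  have h2u : IsUnit (2 : ZMod (p ^ a)) := by
    have hcop : Nat.Coprime 2 (p ^ a) :=
      Nat.Coprime.pow_right a ((Nat.coprime_primes Nat.prime_two hp).2 (Ne.symm hp2))
    have := (ZMod.isUnit_iff_coprime 2 (p ^ a)).2 hcop
    exact_mod_cast this
  obtain ⟨uu, huu'⟩ := huu
  obtain ⟨tw, htw⟩ := h2u
  set w : (ZMod (p ^ a))ˣ := tw * uu⁻¹ with hw
  refine ⟨(AddMonoidHom.mulLeft (w : ZMod (p ^ a))).toMultiplicative.comp κ₀, ?_, ?_⟩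
  · intro x
    obtain ⟨y, hy⟩ := hκ₀surj (Multiplicative.ofAdd (((w⁻¹ : (ZMod (p ^ a))ˣ) : ZMod (p ^ a)) *
      Multiplicative.toAdd x))
    refine ⟨y, ?_⟩
    rw [MonoidHom.comp_apply, hy]
    show Multiplicative.ofAdd ((w : ZMod (p ^ a)) * (((w⁻¹ : (ZMod (p ^ a))ˣ) : ZMod (p ^ a)) *
      Multiplicative.toAdd x)) = x
    rw [← mul_assoc, ← Units.val_mul, mul_inv_cancel, Units.val_one, one_mul]
    rfl
  · rw [MonoidHom.comp_apply]
    show Multiplicative.ofAdd ((w : ZMod (p ^ a)) * u) = Multiplicative.ofAdd 2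
    rw [hw, ← huu', ← Units.val_mul, mul_assoc, inv_mul_cancel, mul_one, htw]

end Fermat.Agent.S43lib.B3
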