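/-
S43lib / B3 / RelCount (helper4).  **The relative (framed) Greenberg–Wiles count.**

`S56lib/Main/Count.card_selmer_le` bounds `|Sel_L(G_{S₀ ∪ Q}, M)|` by `κ ^ |Q|`.  For the framed
patching of Project H we need the same bound *with weights*: if at some places `v ∈ S₀` the local
condition is smaller than the Euler-characteristic bound by a factor `w v` (e.g. `L_v = ⊥` at the places
`v ∈ T` where `ρ̄|G_v` is scalar: `w v = |H⁰(G_v, ad⁰ρ̄)| = κ³`), then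

  `|Sel_L(G_{S₀ ∪ Q}, M)| * ∏_{v ∈ S₀} w v ≤ κ ^ |Q|`.

* `le_pow_of_count_weighted`  : the arithmetic (a corollary of `Main.le_pow_of_count`);
* `card_selmer_weighted_le`   : the weighted Selmer bound.
-/
import Mathlib
import Fermat.Agent.S56lib.Main.Count

set_option autoImplicit false
set_option linter.unusedSectionVars false
set_option linter.style.haveILetI false

noncomputable section

namespace Fermat.Agent.S43lib.B3

open Finset Fermat.Agent.S55lib Fermat.Agent.S56lib.PT9a Fermat.Agent.S56lib.Main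
  Fermat.Agent.S56lib ExtCitation

/-- the arithmetic of the weighted Selmer bound -/
lemma le_pow_of_count_weighted {ι : Type*} [Fintype ι] [DecidableEq ι] (h1 h2 l w : ι → ℕ)
    (sel H1 H2 D0 κ : ℕ) (p₀ : ι) (Q : Finset ι) (hpQ : p₀ ∉ Q)
    (hid : sel * H2 * D0 * ∏ q, h1 q = H1 * (∏ q, h2 q) * ∏ q, l q)
    (hG : H1 ≤ H2 * κ ^ 2)
    (hP : l p₀ * h2 p₀ * κ ^ 2 * w p₀ ≤ h1 p₀)
    (hq : ∀ q, q ∉ Q → q ≠ p₀ → l q * h2 q * w q ≤ h1 q)
    (hT : ∀ q ∈ Q, l q * h2 q * w q ≤ κ * h1 q)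
    (hH2 : 0 < H2) (hD0 : 0 < D0) (h1pos : ∀ q, 0 < h1 q) :
    sel * ∏ q, w q ≤ κ ^ Q.card := by
  classical
  refine le_pow_of_count h1 h2 (fun q => l q * w q) (sel * ∏ q, w q) H1 H2 D0 κ p₀ Q hpQ ?_ hG ?_ ?_ ?_
    hH2 hD0 h1pos
  · rw [Finset.prod_mul_distrib]
    calc sel * (∏ q, w q) * H2 * D0 * ∏ q, h1 q
        = (sel * H2 * D0 * ∏ q, h1 q) * ∏ q, w q := by ring
      _ = (H1 * (∏ q, h2 q) * ∏ q, l q) * ∏ q, w q := by rw [hid]
      _ = H1 * (∏ q, h2 q) * ((∏ q, l q) * ∏ q, w q) := by ring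
  · calc l p₀ * w p₀ * h2 p₀ * κ ^ 2 = l p₀ * h2 p₀ * κ ^ 2 * w p₀ := by ring
      _ ≤ h1 p₀ := hP
  · intro q hqQ hqp
    calc l q * w q * h2 q = l q * h2 q * w q := by ring
      _ ≤ h1 q := hq q hqQ hqp
  · intro q hqQ
    calc l q * w q * h2 q = l q * h2 q * w q := by ring
      _ ≤ κ * h1 q := hT q hqQ

variable {p : ℕ} [hp : Fact p.Prime] (S₀ Q : Finset Nat.Primes)
  (M : Rep.{0} (ZMod p) GQ)

/-- a weight on `S₀`, extended by `1` at the primes of `Q` -/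
def extOne (w : S₀ → ℕ) : ↥(S₀ ∪ Q) → ℕ :=
  fun q => if h : q.1 ∈ S₀ then w ⟨q.1, h⟩ else 1

lemma extOne_of_mem (w : S₀ → ℕ) (q : ↥(S₀ ∪ Q)) (h : q.1 ∈ S₀) :
    extOne S₀ Q w q = w ⟨q.1, h⟩ := dif_pos h

lemma extOne_of_not_mem (w : S₀ → ℕ) (q : ↥(S₀ ∪ Q)) (h : q.1 ∉ S₀) :
    extOne S₀ Q w q = 1 := dif_neg h

lemma prod_extOne (w : S₀ → ℕ) : ∏ q : ↥(S₀ ∪ Q), extOne S₀ Q w q = ∏ q : S₀, w q := by
  classical
  let f : Nat.Primes → ℕ := fun x => if h : x ∈ S₀ then w ⟨x, h⟩ else 1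
  have h1 : ∏ q : ↥(S₀ ∪ Q), extOne S₀ Q w q = ∏ x ∈ S₀ ∪ Q, f x :=
    Finset.prod_coe_sort (S₀ ∪ Q) f
  have h2 : ∏ x ∈ S₀ ∪ Q, f x = ∏ x ∈ S₀, f x := by
    symm
    apply Finset.prod_subset Finset.subset_union_left
    intro x _ hx
    simp [f, hx]
  have h3 : ∏ x ∈ S₀, f x = ∏ q : S₀, f q.1 := (Finset.prod_coe_sort S₀ f).symm
  rw [h1, h2, h3]
  apply Finset.prod_congr rfl
  intro q _
  simp [f, q.2]

variable [FiniteDimensional (ZMod p) M]

/-- **The weighted Selmer bound.**  As `Main.card_selmer_le`, but the local conditions may be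
smaller than the Euler characteristic bound by the factors `w q`; these factors are gained in the
global bound. -/
theorem card_selmer_weighted_le (hp2 : p ≠ 2) (hpS : (⟨p, hp.out⟩ : Nat.Primes) ∈ S₀)
    (hdisj : Disjoint S₀ Q)
    (hM : Sm.IsSmooth (MonoidHom.id GQ) (LevelClass.unr (S₀ ∪ Q)) M)
    (κ : ℕ) (L : ∀ q : S₀, Submodule (ZMod p) (H1loc M q.1)) (w : S₀ → ℕ)
    (hkill : ∀ x : H1S (S₀ ∪ Q) (M.dualTwist (cycloChar p)),
      (∀ q ∈ Q, loc1 (S₀ ∪ Q) (M.dualTwist (cycloChar p)) q x = 0) → x = 0)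
    (hG : Nat.card (H1S (S₀ ∪ Q) M) ≤ Nat.card (H2S (S₀ ∪ Q) M) * κ ^ 2)
    (hP : Nat.card (L ⟨_, hpS⟩) * Nat.card (H2loc M ⟨p, hp.out⟩) * κ ^ 2 * w ⟨_, hpS⟩
      ≤ Nat.card (H1loc M ⟨p, hp.out⟩))
    (hq : ∀ q : S₀, q.1 ≠ ⟨p, hp.out⟩ →
      Nat.card (L q) * Nat.card (H2loc M q.1) * w q ≤ Nat.card (H1loc M q.1))
    (hT : ∀ q ∈ Q, Nat.card (H2loc M q) ≤ κ) :
    Nat.card (selmer (S₀ ∪ Q) M (extTop S₀ Q M L)) * ∏ q : S₀, w q ≤ κ ^ Q.card := by
  classical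
  set S : Finset Nat.Primes := S₀ ∪ Q with hS
  have hpS' : (⟨p, hp.out⟩ : Nat.Primes) ∈ S := Finset.mem_union_left _ hpS
  -- finiteness
  haveI f1 : Finite (H1S S M) := Fin.finite_H1S S M hp2 hpS' hM
  haveI f2 : Finite (H2S S M) := Fin.finite_H2S S M hp2 hpS' hM
  haveI f3 : Finite (H1S S (M.dualTwist (cycloChar p))) :=
    Fin.finite_H1S S (M.dualTwist (cycloChar p)) hp2 hpS' (isSmooth_dualTwist S hpS' M hM)
  haveI f4 : ∀ q : S, Finite (H1loc M q.1) := fun q => Fin.finite_H1loc S M hM q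
  haveI f5 : ∀ q : S, Finite (H2loc M q.1) := fun q => Fin.finite_H2loc S M hp2 hpS' hM q
  haveI g1 : FiniteDimensional (ZMod p) (H1S S M) := Module.Finite.of_finite
  haveI g2 : FiniteDimensional (ZMod p) (H2S S M) := Module.Finite.of_finite
  haveI g3 : FiniteDimensional (ZMod p) (H1S S (M.dualTwist (cycloChar p))) :=
    Module.Finite.of_finite
  haveI g4 : ∀ q : S, FiniteDimensional (ZMod p) (H1loc M q.1) := fun q => Module.Finite.of_finite
  haveI g5 : ∀ q : S, FiniteDimensional (ZMod p) (H2loc M q.1) := fun q => Module.Finite.of_finite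
  obtain ⟨πc, -, hperp, hcount⟩ := exists_pairings_card hp2 S hpS' M hM
  have hid := hcount (extTop S₀ Q M L)
  -- the dual Selmer group vanishes
  have hsel' : Nat.card (selmer S (M.dualTwist (cycloChar p))
      (fun q => GW.perp (πc q) (extTop S₀ Q M L q))) = 1 := by
    have hbot : selmer S (M.dualTwist (cycloChar p))
        (fun q => GW.perp (πc q) (extTop S₀ Q M L q)) = ⊥ := by
      rw [eq_bot_iff]
      intro x hx
      rw [Submodule.mem_bot]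
      refine hkill x fun q hqQ => ?_
      have hqS : q ∈ S := Finset.mem_union_right _ hqQ
      have hq0 : q ∉ S₀ := fun h => (Finset.disjoint_left.1 hdisj h) hqQ
      have h1 := (mem_selmer S (M.dualTwist (cycloChar p))).1 hx ⟨q, hqS⟩
      rw [extTop_of_not_mem S₀ Q M L ⟨q, hqS⟩ hq0, hperp ⟨q, hqS⟩, Submodule.mem_bot] at h1
      exact h1
    rw [hbot]
    exact Nat.card_unique
  rw [hsel', one_mul] at hid
  -- the set `Q` inside `S`
  set Q' : Finset ↥S := Q.subtype (· ∈ S) with hQ'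
  have hQcard : Q'.card = Q.card := by
    rw [hQ', Finset.card_subtype]
    congr 1
    exact Finset.filter_true_of_mem fun q hq => Finset.mem_union_right _ hq
  have hmemQ' : ∀ q : ↥S, q ∈ Q' ↔ q.1 ∈ Q := fun q => Finset.mem_subtype
  haveI : Finite M := Module.finite_of_finite (ZMod p)
  haveI : Finite (PT9.D0 M) := Finite.of_injective _ Subtype.val_injective
  rw [← hQcard, ← prod_extOne S₀ Q w]
  refine le_pow_of_count_weighted (fun q : ↥S => Nat.card (H1loc M q.1))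
    (fun q => Nat.card (H2loc M q.1))
    (fun q => Nat.card (extTop S₀ Q M L q)) (extOne S₀ Q w) _ (Nat.card (H1S S M))
    (Nat.card (H2S S M))
    (Nat.card (PT9.D0 M)) κ ⟨_, hpS'⟩ Q' ?_ hid hG ?_ ?_ ?_ Nat.card_pos Nat.card_pos
    (fun q => Nat.card_pos)
  · rw [hmemQ']
    exact fun h => (Finset.disjoint_left.1 hdisj hpS) h
  · show Nat.card (extTop S₀ Q M L ⟨_, hpS'⟩) * _ * _ * _ ≤ _
    rw [extTop_of_mem S₀ Q M L ⟨_, hpS'⟩ hpS, extOne_of_mem S₀ Q w ⟨_, hpS'⟩ hpS]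
    exact hP
  · intro q hqQ hqp
    have hq0 : q.1 ∈ S₀ := by
      rcases Finset.mem_union.1 q.2 with h | h
      · exact h
      · exact absurd ((hmemQ' q).2 h) hqQ
    show Nat.card (extTop S₀ Q M L q) * _ * _ ≤ _
    rw [extTop_of_mem S₀ Q M L q hq0, extOne_of_mem S₀ Q w q hq0]
    exact hq ⟨q.1, hq0⟩ fun h => hqp (Subtype.ext h)
  · intro q hqQ
    have hqQ0 : q.1 ∈ Q := (hmemQ' q).1 hqQ
    have hq0 : q.1 ∉ S₀ := fun h => (Finset.disjoint_left.1 hdisj h) hqQ0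
    show Nat.card (extTop S₀ Q M L q) * _ * _ ≤ _
    rw [extTop_of_not_mem S₀ Q M L q hq0, extOne_of_not_mem S₀ Q w q hq0, mul_one]
    have h1 : Nat.card (⊤ : Submodule (ZMod p) (H1loc M q.1)) = Nat.card (H1loc M q.1) :=
      Nat.card_congr (Submodule.topEquiv (R := ZMod p) (M := H1loc M q.1)).toEquiv
    rw [h1, mul_comm]
    exact Nat.mul_le_mul_right _ (hT q.1 hqQ0)

end Fermat.Agent.S43lib.B3
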