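/-
S43lib / B3 / RelSelmer (helper4).  **The relative Selmer set.**

The analogue of `S56lib/Main/Bound.exists_selmer_set` for the framed problem of Project H:
besides the places of `S₀` carrying a local package (`p`: flat / strict ordinary, `q ∈ S₀ ∖ {p}`, `q ∉ T`:
minimally ramified) there is a set `T ⊆ S₀` of places where `ρ̄|G_v` is SCALAR (so `G_v` acts trivially
on `ad⁰ρ̄` and `|H⁰(G_v, ad⁰ρ̄)| = κ³`) and where the deformations are unrestricted.  The tangent space of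
the `T`-framed deformation ring RELATIVE to the local framed rings is computed by the classes which are
locally trivial at all `v ∈ T`; there are at most `κ ^ (|Q| - 3|T|)` of them:

  `|W| * κ ^ (3 * |T|) ≤ κ ^ |Q|`.
-/
import Mathlib
import Fermat.Agent.S56lib.Main.Bound
import Fermat.Agent.S43lib.B3.RelCount

set_option autoImplicit false
set_option linter.unusedSectionVars false
set_option linter.style.haveILetI false

noncomputable section

namespace Fermat.Agent.S43lib.B3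

open IsLocalRing Fermat.Agent.TeamA Fermat.Agent.TeamA.Rep Fermat.Agent.S55lib
  Fermat.Agent.S56lib.Dict Fermat.Agent.S56lib.PT9a Fermat.Agent.S56lib.Main Fermat.Agent.S56lib
  ExtCitation

attribute [local instance] dualNumberAlgebra

section

variable {𝒪 : Type} [CommRing 𝒪] [IsDomain 𝒪] [IsDiscreteValuationRing 𝒪]
  [IsAdicComplete (maximalIdeal 𝒪) 𝒪] [Finite (ResidueField 𝒪)]
variable {p : ℕ} [hp : Fact p.Prime] [CharP (ResidueField 𝒪) p]
  {rb : GQ →* Matrix (Fin 2) (Fin 2) (ResidueField 𝒪)}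

/-- if `ρ̄|G_v` is scalar, `G_v` acts trivially on `ad⁰ρ̄` -/
lemma H0loc_eq_top_of_scalar (v : Nat.Primes)
    (hscal : ∀ g : Gloc v, ∃ a : ResidueField 𝒪,
      rb (rloc v g) = a • (1 : Matrix (Fin 2) (Fin 2) (ResidueField 𝒪))) :
    H0loc (adRep p rb) v = ⊤ := by
  rw [eq_top_iff]
  intro m _
  rw [mem_H0loc]
  intro g
  obtain ⟨a, ha⟩ := hscal g
  apply adVal_injective p
  have h1 : rb (rloc v g) * rb (rloc v g)⁻¹ = 1 := by
    rw [← map_mul, mul_inv_cancel, map_one]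
  rw [ha, Matrix.smul_mul, one_mul] at h1
  rw [adVal_ρ, ha]
  calc (a • (1 : Matrix (Fin 2) (Fin 2) (ResidueField 𝒪))) * adVal p m * rb (rloc v g)⁻¹
      = a • (adVal p m * rb (rloc v g)⁻¹) := by
        rw [Matrix.smul_mul, one_mul, Matrix.smul_mul]
    _ = adVal p m * (a • rb (rloc v g)⁻¹) := by rw [Matrix.mul_smul]
    _ = adVal p m := by rw [h1, mul_one]

/-- if `ρ̄|G_v` is scalar, `|H⁰(G_v, ad⁰ρ̄)| = κ³` -/
lemma card_H0loc_of_scalar (v : Nat.Primes)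
    (hscal : ∀ g : Gloc v, ∃ a : ResidueField 𝒪,
      rb (rloc v g) = a • (1 : Matrix (Fin 2) (Fin 2) (ResidueField 𝒪))) :
    Nat.card (H0loc (adRep p rb) v) = Nat.card (ResidueField 𝒪) ^ 3 := by
  rw [H0loc_eq_top_of_scalar v hscal,
    Nat.card_congr (Submodule.topEquiv (R := ZMod p) (M := adRep p rb)).toEquiv]
  exact card_adRep

/-- `∏_{q ∈ S₀} (if q ∈ T then c else 1) = c ^ |T|` for `T ⊆ S₀` -/
lemma prod_ite_mem_subtype (S₀ T : Finset Nat.Primes) (hTS : T ⊆ S₀) (c : ℕ) :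
    ∏ q : S₀, (if q.1 ∈ T then c else 1) = c ^ T.card := by
  classical
  have h1 : ∏ q : S₀, (if q.1 ∈ T then c else 1) = ∏ x ∈ S₀, (if x ∈ T then c else 1) :=
    Finset.prod_coe_sort S₀ (fun x => if x ∈ T then c else 1)
  rw [h1, Finset.prod_ite_mem, Finset.prod_const, Finset.inter_eq_right.2 hTS]

/-- **The relative Selmer bound in the form needed by the framed dictionary.** -/
theorem exists_selmer_set_rel (hp2 : p ≠ 2) (S₀ Q T : Finset Nat.Primes)
    (hpS : (⟨p, hp.out⟩ : Nat.Primes) ∈ S₀) (hdisj : Disjoint S₀ Q)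
    (hTS : T ⊆ S₀) (hpT : (⟨p, hp.out⟩ : Nat.Primes) ∉ T)
    (hM : Sm.IsSmooth (MonoidHom.id GQ) (LevelClass.unr (S₀ ∪ Q)) (adRep p rb))
    (𝒟 : ∀ ⦃A : Type⦄ [CommRing A] [IsLocalRing A] [Algebra 𝒪 A], GaloisRepAdic A → Prop)
    (hunr : ∀ c, IsSelmerCocycle 𝒟 rb c → IsUnrCocycle (S₀ ∪ Q) rb c)
    -- the local packages (N7) away from `T`
    (hlocp : HasLocalCond p rb 𝒟 ⟨p, hp.out⟩
      (Nat.card (H0loc (adRep p rb) ⟨p, hp.out⟩) * Nat.card (ResidueField 𝒪)))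
    (hlocq : ∀ q ∈ S₀, q ≠ (⟨p, hp.out⟩ : Nat.Primes) → q ∉ T →
      HasLocalCond p rb 𝒟 q (Nat.card (H0loc (adRep p rb) q)))
    -- `ρ̄|G_v` is scalar at the places of `T`
    (hscal : ∀ v ∈ T, ∀ g : Gloc v, ∃ a : ResidueField 𝒪,
      rb (rloc v g) = a • (1 : Matrix (Fin 2) (Fin 2) (ResidueField 𝒪)))
    -- the dual Selmer group vanishes (Taylor–Wiles primes)
    (hkill : ∀ x : H1S (S₀ ∪ Q) ((adRep p rb).dualTwist (cycloChar p)),
      (∀ q ∈ Q, loc1 (S₀ ∪ Q) ((adRep p rb).dualTwist (cycloChar p)) q x = 0) → x = 0)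
    -- (N3), (N8), (N9): global Euler characteristic
    (c₀ : GQ)
    (hN3 : Nat.card (H1S (S₀ ∪ Q) (adRep p rb)) *
        Nat.card {m : adRep p rb // (adRep p rb).ρ c₀ m = m} ≤
      Nat.card (H2S (S₀ ∪ Q) (adRep p rb)) * Nat.card (adRep p rb) *
        Nat.card (adRep p rb).ρ.invariants)
    (hN8 : Nat.card (ResidueField 𝒪) ≤ Nat.card {m : adRep p rb // (adRep p rb).ρ c₀ m = m})
    (hN9 : Nat.card (adRep p rb).ρ.invariants = 1)
    -- (N4), (N5): local Euler characteristic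
    (hN4 : Nat.card (H0loc (adRep p rb) ⟨p, hp.out⟩) * Nat.card (H2loc (adRep p rb) ⟨p, hp.out⟩) *
        Nat.card (adRep p rb) ≤ Nat.card (H1loc (adRep p rb) ⟨p, hp.out⟩))
    (hN5 : ∀ q ∈ S₀, q ≠ (⟨p, hp.out⟩ : Nat.Primes) →
      Nat.card (H0loc (adRep p rb) q) * Nat.card (H2loc (adRep p rb) q) ≤
        Nat.card (H1loc (adRep p rb) q))
    -- (N6): Taylor–Wiles primes
    (hN6 : ∀ q ∈ Q, Nat.card (H2loc (adRep p rb) q) ≤ Nat.card (ResidueField 𝒪)) :
    ∃ W : Set (H1S (S₀ ∪ Q) (adRep p rb)), Finite W ∧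
      (∀ c (hc : IsSelmerCocycle 𝒟 rb c),
        (∀ v ∈ T, loc1 (S₀ ∪ Q) (adRep p rb) v (adClass p (hunr c hc)) = 0) →
        adClass p (hunr c hc) ∈ W) ∧
      Nat.card W * Nat.card (ResidueField 𝒪) ^ (3 * T.card) ≤
        Nat.card (ResidueField 𝒪) ^ Q.card := by
  classical
  set M := adRep p rb with hMdef
  set κ := Nat.card (ResidueField 𝒪) with hκ
  have hκpos : 0 < κ := Nat.card_pos
  have hpS' : (⟨p, hp.out⟩ : Nat.Primes) ∈ S₀ ∪ Q := Finset.mem_union_left _ hpS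
  -- choose the local conditions
  obtain ⟨Lp, hLp, hmemp⟩ := hlocp
  have hex : ∀ q : S₀, ∃ L : Submodule (ZMod p) (H1loc M q.1),
      (q.1 = ⟨p, hp.out⟩ → Nat.card L ≤ Nat.card (H0loc M ⟨p, hp.out⟩) * κ) ∧
      (q.1 ≠ ⟨p, hp.out⟩ → q.1 ∉ T → Nat.card L ≤ Nat.card (H0loc M q.1)) ∧
      (q.1 ∈ T → L = ⊥) ∧
      (q.1 ∉ T → ∀ (S : Finset Nat.Primes) (c : GQ → Matrix (Fin 2) (Fin 2) (ResidueField 𝒪))
        (hu : IsUnrCocycle S rb c) (hc : IsCocycle rb c) (hs : IsSmoothCochain rb c),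
        𝒟 (liftRep rb c hc hs) → loc1 S M q.1 (adClass p hu) ∈ L) := by
    intro q
    by_cases hqT : q.1 ∈ T
    · refine ⟨⊥, fun h => absurd (h ▸ hqT) hpT, fun _ h => absurd hqT h, fun _ => rfl,
        fun h => absurd hqT h⟩
    by_cases hqp : q.1 = ⟨p, hp.out⟩
    · rw [hqp]
      exact ⟨Lp, fun _ => hLp, fun h => absurd rfl h, fun h => absurd (hqp ▸ h) hpT,
        fun _ => hmemp⟩
    · obtain ⟨L, hL, hmem⟩ := hlocq q.1 q.2 hqp hqT
      exact ⟨L, fun h => absurd h hqp, fun _ _ => hL, fun h => absurd h hqT, fun _ => hmem⟩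
  choose L hLcardp hLcardq hLT hLmem using hex
  haveI f1 : Finite (H1S (S₀ ∪ Q) M) := Fin.finite_H1S (S₀ ∪ Q) M hp2 hpS' hM
  set w : S₀ → ℕ := fun q => if q.1 ∈ T then κ ^ 3 else 1 with hw
  refine ⟨(selmer (S₀ ∪ Q) M (extTop S₀ Q M L) : Set (H1S (S₀ ∪ Q) M)),
    Finite.of_injective _ Subtype.val_injective, ?_, ?_⟩
  · -- membership
    intro c hc hloc
    rw [SetLike.mem_coe, mem_selmer]
    intro q
    by_cases hq0 : q.1 ∈ S₀
    · rw [extTop_of_mem S₀ Q M L q hq0]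
      by_cases hqT : q.1 ∈ T
      · rw [hLT ⟨q.1, hq0⟩ hqT, Submodule.mem_bot]
        exact hloc q.1 hqT
      · obtain ⟨hcc, hcs, h0 | hd⟩ := hc
        · subst h0
          rw [adClass_zero, map_zero]
          exact Submodule.zero_mem _
        · exact hLmem ⟨q.1, hq0⟩ hqT (S₀ ∪ Q) c _ hcc hcs hd
    · rw [extTop_of_not_mem S₀ Q M L q hq0]
      exact Submodule.mem_top
  · -- the count
    have hMcard : Nat.card M = κ ^ 3 := card_adRep
    have hprod : ∏ q : S₀, w q = κ ^ (3 * T.card) := by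
      show ∏ q : S₀, (if q.1 ∈ T then κ ^ 3 else 1) = _
      rw [prod_ite_mem_subtype S₀ T hTS (κ ^ 3), ← pow_mul]
    rw [← hprod]
    refine card_selmer_weighted_le S₀ Q M hp2 hpS hdisj hM κ L w hkill ?_ ?_ ?_ hN6
    · -- global
      rw [hN9, mul_one, hMcard] at hN3
      have h1 : Nat.card (H1S (S₀ ∪ Q) M) * κ ≤ Nat.card (H2S (S₀ ∪ Q) M) * κ ^ 2 * κ :=
        calc Nat.card (H1S (S₀ ∪ Q) M) * κ
            ≤ Nat.card (H1S (S₀ ∪ Q) M) * Nat.card {m : M // M.ρ c₀ m = m} :=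
              Nat.mul_le_mul_left _ hN8
          _ ≤ Nat.card (H2S (S₀ ∪ Q) M) * κ ^ 3 := hN3
          _ = Nat.card (H2S (S₀ ∪ Q) M) * κ ^ 2 * κ := by ring
      exact Nat.le_of_mul_le_mul_right h1 hκpos
    · -- at `p`
      rw [hMcard] at hN4
      have hwp : w ⟨_, hpS⟩ = 1 := if_neg hpT
      rw [hwp, mul_one]
      calc Nat.card (L ⟨_, hpS⟩) * Nat.card (H2loc M ⟨p, hp.out⟩) * κ ^ 2
          ≤ (Nat.card (H0loc M ⟨p, hp.out⟩) * κ) * Nat.card (H2loc M ⟨p, hp.out⟩) * κ ^ 2 :=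
            Nat.mul_le_mul_right _ (Nat.mul_le_mul_right _ (hLcardp ⟨_, hpS⟩ rfl))
        _ = Nat.card (H0loc M ⟨p, hp.out⟩) * Nat.card (H2loc M ⟨p, hp.out⟩) * κ ^ 3 := by ring
        _ ≤ _ := hN4
    · -- at `q ≠ p`
      intro q hqp
      by_cases hqT : q.1 ∈ T
      · have hwq : w q = κ ^ 3 := if_pos hqT
        have hLq : Nat.card (L q) = 1 := by
          rw [hLT q hqT]
          exact Nat.card_unique
        rw [hwq, hLq, one_mul, mul_comm, ← card_H0loc_of_scalar (p := p) q.1 (hscal q.1 hqT)]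
        exact hN5 q.1 q.2 hqp
      · have hwq : w q = 1 := if_neg hqT
        rw [hwq, mul_one]
        exact (Nat.mul_le_mul_right _ (hLcardq q hqp hqT)).trans (hN5 q.1 q.2 hqp)

end

end Fermat.Agent.S43lib.B3
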