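/-
S43lib / B3 / RelTan (helper4).  **The relative tangent space of a `T`-relaxed deformation ring.**

Let `DQ` be a universal deformation ring (any condition `𝒟` stable under surjective base change to
`k[ε]` and under equivalence), `B` a based universal deformation.  The tangent vectors
`φ : DQ.R → k[ε]` whose cocycle VANISHES on the local Galois groups `G_v`, `v ∈ T`, form the tangent
space of the `T`-framed deformation ring relative to the local framed rings (up to the frame variables,
which are free because `ρ̄|G_v` is scalar).  They inject into any set `W` of classes which contains the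
classes of the Selmer cocycles that are locally trivial on `T` (`B3/RelSelmer.exists_selmer_set_rel`).
-/
import Mathlib
import Fermat.Agent.S56lib.Dict.SelmerClass
import Fermat.Agent.S43lib.B3.RelSelmer

set_option autoImplicit false
set_option linter.unusedSectionVars false
set_option linter.style.haveILetI false

noncomputable section

namespace Fermat.Agent.S43lib.B3

open IsLocalRing TrivSqZeroExt Fermat.Agent.TeamA Fermat.Agent.TeamA.Rep Fermat.Agent.S55lib
  Fermat.Agent.S56lib.Dict Fermat.Agent.S56lib.Main Fermat.Agent.S56lib ExtCitation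

attribute [local instance] dualNumberAlgebra

section Loc

variable {K : Type} [Field K] (p : ℕ) [Fact p.Prime] [CharP K p]
  {S : Finset Nat.Primes} {rb : GQ →* Matrix (Fin 2) (Fin 2) K}

/-- a cocycle vanishing on `G_q` has trivial localisation at `q` -/
theorem loc1_adClass_eq_zero {c : GQ → Matrix (Fin 2) (Fin 2) K} (hc : IsUnrCocycle S rb c)
    (q : Nat.Primes) (h0 : ∀ g : Gloc q, c (rloc q g) = 0) :
    loc1 S (adRep p rb) q (adClass p hc) = 0 := by
  rw [loc1_adClass]
  have h1 : Sm.resZ1 (rloc q) (r := MonoidHom.id GQ) (r' := rloc q) (fun _ => rfl)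
      (𝓛 := LevelClass.unr S) (𝓛' := LevelClass.all) (fun _ h => h.1) (adRep p rb)
      ⟨_, toAd_mem_Z1 p hc⟩ = 0 := by
    apply Subtype.ext
    funext g
    apply adVal_injective p
    rw [resZ1_toAd_apply p hc q g]
    exact h0 g
  rw [h1, map_zero]

end Loc

section

variable {𝒪 : Type} [CommRing 𝒪] [IsDomain 𝒪] [IsDiscreteValuationRing 𝒪]
  [IsAdicComplete (maximalIdeal 𝒪) 𝒪] [Finite (ResidueField 𝒪)]
variable {ρbar : ResidualGaloisRep (ResidueField 𝒪)}
variable {𝒟 : ∀ ⦃A : Type⦄ [CommRing A] [IsLocalRing A] [Algebra 𝒪 A], GaloisRepAdic A → Prop}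
variable {DQ : GaloisRep.DeformationRingData 𝒪 ρbar 𝒟}

/-- the tangent vectors whose cocycle vanishes on `G_v` for all `v ∈ T` -/
def relTan (B : Based DQ) (T : Finset Nat.Primes) :
    Set (DQ.R →ₐ[𝒪] DualNumber (ResidueField 𝒪)) :=
  {φ | ∀ v ∈ T, ∀ g : Gloc v, B.tanCocycle φ (rloc v g) = 0}

/-- the tangent cocycle is a Selmer cocycle -/
theorem isSelmerCocycle_tanCocycle (B : Based DQ)
    (hbc : ∀ φ : DQ.R →ₐ[𝒪] DualNumber (ResidueField 𝒪), Function.Surjective φ →
      𝒟 (tanRep DQ φ))
    (hiso : ∀ ρ ρ' : GaloisRepAdic (DualNumber (ResidueField 𝒪)), ρ.IsEquiv ρ' → 𝒟 ρ → 𝒟 ρ')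
    (φ : DQ.R →ₐ[𝒪] DualNumber (ResidueField 𝒪)) :
    IsSelmerCocycle 𝒟 B.rb (B.tanCocycle φ) := by
  refine ⟨B.isCocycle_tanCocycle φ, B.isSmoothCochain_tanCocycle φ, ?_⟩
  rcases surjective_or_eq_trivTangent φ with hs' | ht
  · right
    exact hiso _ _ (B.tanRep_isEquiv_tanLift φ) (hbc φ hs')
  · left
    rw [ht]
    exact B.tanCocycle_trivTangent

variable (p : ℕ) [Fact p.Prime] [CharP (ResidueField 𝒪) p]

/-- **The relative tangent space injects into the relative Selmer set.** -/
theorem card_relTan_le (B : Based DQ)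
    (hbc : ∀ φ : DQ.R →ₐ[𝒪] DualNumber (ResidueField 𝒪), Function.Surjective φ →
      𝒟 (tanRep DQ φ))
    (hiso : ∀ ρ ρ' : GaloisRepAdic (DualNumber (ResidueField 𝒪)), ρ.IsEquiv ρ' → 𝒟 ρ → 𝒟 ρ')
    (S T : Finset Nat.Primes)
    (hunr : ∀ c, IsSelmerCocycle 𝒟 B.rb c → IsUnrCocycle S B.rb c)
    (W : Set (H1S S (adRep p B.rb))) [Finite W]
    (hW : ∀ c (hc : IsSelmerCocycle 𝒟 B.rb c),
      (∀ v ∈ T, loc1 S (adRep p B.rb) v (adClass p (hunr c hc)) = 0) →
      adClass p (hunr c hc) ∈ W) :
    Finite (relTan B T) ∧ Nat.card (relTan B T) ≤ Nat.card W := by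
  have hsel := isSelmerCocycle_tanCocycle B hbc hiso
  let F : relTan B T → W := fun φ =>
    ⟨adClass p (hunr _ (hsel φ.1)), hW _ (hsel φ.1) fun v hv =>
      loc1_adClass_eq_zero p (hunr _ (hsel φ.1)) v (φ.2 v hv)⟩
  have hF : Function.Injective F := by
    intro φ φ' h
    apply Subtype.ext
    apply B.eq_of_isCobound hbc
    exact isCobound_of_adClass_eq p (hunr _ (hsel φ.1)) (hunr _ (hsel φ'.1))
      (congrArg Subtype.val h)
  exact ⟨Finite.of_injective F hF, Nat.card_le_card_of_injective F hF⟩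

end

end Fermat.Agent.S43lib.B3
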