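/-
S43lib / B3 / Outer (helper4).  **Taylor–Wiles primes for the `T`-relaxed problem and the relative tangent
count**, for a family of deformation conditions `𝒟 S'` (the analogue of `S56lib/Main/Outer.half_of`).

`T` is a finite set of primes, disjoint from `Smin` (the primes where `ρ̄` ramifies, and `p`), at which `ρ̄|G_v`
is scalar; deformations of type `𝒟 (Smin ∪ T ∪ Q)` may ramify at `T`.  For every `n` there is a set `Q_n` of
`r` Taylor–Wiles primes `≡ 1 mod p^(n+1)` (`r` independent of `n`) such that, for every universal deformation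
ring `DQ` of type `𝒟 (Smin ∪ T ∪ Q_n)` and every based universal deformation `B`,

  `|{φ : DQ.R → k[ε] | the cocycle of φ vanishes on G_v, v ∈ T}| * κ ^ (3|T|) ≤ κ ^ r`.

With the `4|T| - 1` frame variables this is the bound `g = r + |T| - 1` for the number of generators of the
`T`-framed ring over the local framed rings.
-/
import Mathlib
import Fermat.Agent.S56lib.Main.Outer
import Fermat.Agent.S43lib.B3.RelTan

set_option autoImplicit false
set_option linter.unusedSectionVars false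
set_option linter.style.haveILetI false

noncomputable section

namespace Fermat.Agent.S43lib.B3

open IsLocalRing Polynomial Fermat.Agent.TeamA Fermat.Agent.TeamA.Rep Fermat.Agent.S55lib
  Fermat.Agent.S56lib.Dict Fermat.Agent.S56lib.PT9a Fermat.Agent.S56lib.TWSel
  Fermat.Agent.S56lib.Main Fermat.Agent.S56lib ExtCitation

attribute [local instance] dualNumberAlgebra

section Half

variable {𝒪 : Type} [CommRing 𝒪] [IsDomain 𝒪] [IsDiscreteValuationRing 𝒪]
  [IsAdicComplete (maximalIdeal 𝒪) 𝒪] [Finite (ResidueField 𝒪)]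

/-- `card_relTan_le` for a based deformation with prescribed residual basis -/
theorem card_relTan_le' {ρbar : ResidualGaloisRep (ResidueField 𝒪)}
    {𝒟 : ∀ ⦃A : Type⦄ [CommRing A] [IsLocalRing A] [Algebra 𝒪 A], GaloisRepAdic A → Prop}
    {DQ : GaloisRep.DeformationRingData 𝒪 ρbar 𝒟}
    (p : ℕ) [Fact p.Prime] [CharP (ResidueField 𝒪) p] (B : Based DQ)
    (bbar : Module.Basis (Fin 2) (ResidueField 𝒪) ρbar.V) (hB : B.bbar = bbar)
    (hbc : ∀ φ : DQ.R →ₐ[𝒪] DualNumber (ResidueField 𝒪), Function.Surjective φ →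
      𝒟 (tanRep DQ φ))
    (hiso : ∀ ρ ρ' : GaloisRepAdic (DualNumber (ResidueField 𝒪)), ρ.IsEquiv ρ' → 𝒟 ρ → 𝒟 ρ')
    (S T : Finset Nat.Primes)
    (hunr : ∀ c, IsSelmerCocycle 𝒟 (resHom ρbar bbar) c → IsUnrCocycle S (resHom ρbar bbar) c)
    (W : Set (H1S S (adRep p (resHom ρbar bbar)))) [Finite W]
    (hW : ∀ c (hc : IsSelmerCocycle 𝒟 (resHom ρbar bbar) c),
      (∀ v ∈ T, loc1 S (adRep p (resHom ρbar bbar)) v (adClass p (hunr c hc)) = 0) →
      adClass p (hunr c hc) ∈ W) :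
    Finite (relTan B T) ∧ Nat.card (relTan B T) ≤ Nat.card W := by
  subst hB
  exact card_relTan_le p B hbc hiso S T hunr W hW

theorem half_of_rel (p : ℕ) [hp : Fact p.Prime] (hp2 : p ≠ 2) [CharP (ResidueField 𝒪) p]
    (ρbar : ResidualGaloisRep (ResidueField 𝒪))
    (bbar : Module.Basis (Fin 2) (ResidueField 𝒪) ρbar.V)
    (hsplit : ∀ σ : GQ, ∃ α β : ResidueField 𝒪,
      LinearMap.charpoly (ρbar.ρ σ) = (X - C α) * (X - C β))
    (S Smin T : Finset ℕ) (hpSmin : p ∈ Smin) (hSmin : Smin ⊆ S) (hTS : T ⊆ S)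
    (hTdisj : Disjoint Smin T)
    (hmin : ∀ q : ℕ, q.Prime → q ≠ p → (q ∈ Smin ↔ ¬ ρbar.IsUnramifiedAt q))
    -- `ρ̄|G_v` is scalar at the places of `T`
    (hscal : ∀ v : Nat.Primes, (v : ℕ) ∈ T → ∀ g : Gloc v, ∃ a : ResidueField 𝒪,
      resHom ρbar bbar (rloc v g) = a • (1 : Matrix (Fin 2) (Fin 2) (ResidueField 𝒪)))
    (𝒟 : Finset ℕ → ∀ ⦃A : Type⦄ [CommRing A] [IsLocalRing A] [Algebra 𝒪 A], GaloisRepAdic A → Prop)
    -- the conditions are stable under surjective base change to `k[ε]` and under equivalence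
    (hbc : ∀ (S' : Finset ℕ) (DQ : GaloisRep.DeformationRingData 𝒪 ρbar (𝒟 S'))
      (φ : DQ.R →ₐ[𝒪] DualNumber (ResidueField 𝒪)), Function.Surjective φ → 𝒟 S' (tanRep DQ φ))
    (hiso : ∀ (S' : Finset ℕ) (ρ ρ' : GaloisRepAdic (DualNumber (ResidueField 𝒪))),
      ρ.IsEquiv ρ' → 𝒟 S' ρ → 𝒟 S' ρ')
    -- Selmer cocycles are unramified outside `S'`
    (hunr𝒟 : ∀ (S' : Finset ℕ) (SP : Finset Nat.Primes),
      (∀ q : Nat.Primes, q ∉ SP → (q : ℕ) ∉ S') →
      ∀ c, IsSelmerCocycle (𝒟 S') (resHom ρbar bbar) c → IsUnrCocycle SP (resHom ρbar bbar) c)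
    -- the local packages (N7)
    (hlocp : ∀ S' : Finset ℕ, HasLocalCond p (resHom ρbar bbar) (𝒟 S') ⟨p, hp.out⟩
      (Nat.card (H0loc (adRep p (resHom ρbar bbar)) ⟨p, hp.out⟩) * Nat.card (ResidueField 𝒪)))
    (hlocq : ∀ (S' : Finset ℕ) (q : Nat.Primes), (q : ℕ) ∈ Smin → q ≠ (⟨p, hp.out⟩ : Nat.Primes) →
      HasLocalCond p (resHom ρbar bbar) (𝒟 S') q
        (Nat.card (H0loc (adRep p (resHom ρbar bbar)) q)))
    -- the group theory (a1)+(a2)
    (hgood : ∀ n : ℕ, GoodSigma p ρbar ((adRep p (resHom ρbar bbar)).dualTwist (cycloChar p))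
      (primesIn (Smin ∪ T)) n)
    -- complex conjugation and the global Euler characteristic (N3), (N8), (N9)
    (c₀ : GQ)
    (hN3 : ∀ SP : Finset Nat.Primes, (⟨p, hp.out⟩ : Nat.Primes) ∈ SP →
      Sm.IsSmooth (MonoidHom.id GQ) (LevelClass.unr SP) (adRep p (resHom ρbar bbar)) →
      Nat.card (H1S SP (adRep p (resHom ρbar bbar))) *
          Nat.card {m : adRep p (resHom ρbar bbar) // (adRep p (resHom ρbar bbar)).ρ c₀ m = m} ≤
        Nat.card (H2S SP (adRep p (resHom ρbar bbar))) * Nat.card (adRep p (resHom ρbar bbar)) *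
          Nat.card (adRep p (resHom ρbar bbar)).ρ.invariants)
    (hN8 : Nat.card (ResidueField 𝒪) ≤
      Nat.card {m : adRep p (resHom ρbar bbar) // (adRep p (resHom ρbar bbar)).ρ c₀ m = m})
    (hN9 : Nat.card (adRep p (resHom ρbar bbar)).ρ.invariants = 1)
    -- the local Euler characteristics (N4), (N5)
    (hN4 : Nat.card (H0loc (adRep p (resHom ρbar bbar)) ⟨p, hp.out⟩) *
        Nat.card (H2loc (adRep p (resHom ρbar bbar)) ⟨p, hp.out⟩) *
        Nat.card (adRep p (resHom ρbar bbar)) ≤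
      Nat.card (H1loc (adRep p (resHom ρbar bbar)) ⟨p, hp.out⟩))
    (hN5 : ∀ q : Nat.Primes, q ≠ (⟨p, hp.out⟩ : Nat.Primes) →
      Nat.card (H0loc (adRep p (resHom ρbar bbar)) q) *
        Nat.card (H2loc (adRep p (resHom ρbar bbar)) q) ≤
      Nat.card (H1loc (adRep p (resHom ρbar bbar)) q)) :
    ∃ r : ℕ, ∀ n : ℕ, ∃ qv : Fin r → ℕ, Function.Injective qv ∧
      (∀ i, (qv i).Prime ∧ qv i ∉ S ∧ p ^ (n + 1) ∣ qv i - 1) ∧
      (∀ i, ∀ P : ValuationSubring (AlgebraicClosure ℚ), P.LiesOverPrime (qv i) →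
        ∀ φ : AlgebraicClosure ℚ ≃ₐ[ℚ] AlgebraicClosure ℚ, P.IsFrobeniusAt φ (qv i) →
          ∃ α β : ResidueField 𝒪, α ≠ β ∧
            LinearMap.charpoly (ρbar.ρ φ) = (X - C α) * (X - C β)) ∧
      ∀ (DQ : GaloisRep.DeformationRingData 𝒪 ρbar (𝒟 (Smin ∪ T ∪ Finset.univ.image qv)))
        (B : Based DQ), B.bbar = bbar →
        Finite (relTan B (primesIn T)) ∧
        Nat.card (relTan B (primesIn T)) * Nat.card (ResidueField 𝒪) ^ (3 * (primesIn T).card) ≤
          Nat.card (ResidueField 𝒪) ^ r := by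
  classical
  set rb := resHom ρbar bbar with hrb
  set M := adRep p rb with hMdef
  set M' := M.dualTwist (cycloChar p) with hM'def
  set S₀ : Finset Nat.Primes := primesIn (Smin ∪ T) with hS₀
  set T' : Finset Nat.Primes := primesIn T with hT'
  have hpS₀ : (⟨p, hp.out⟩ : Nat.Primes) ∈ S₀ := mem_primesIn.2 (Finset.mem_union_left _ hpSmin)
  have hpT' : (⟨p, hp.out⟩ : Nat.Primes) ∉ T' := fun h =>
    (Finset.disjoint_left.1 hTdisj hpSmin) (mem_primesIn.1 h)
  have hT'S₀ : T' ⊆ S₀ := fun q hq => mem_primesIn.2 (Finset.mem_union_right _ (mem_primesIn.1 hq))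
  -- `ρ̄` is unramified outside any set of primes containing `S₀`
  have hur : ∀ SP : Finset Nat.Primes, S₀ ⊆ SP → ∀ q : Nat.Primes, q ∉ SP →
      ρbar.IsUnramifiedAt (q : ℕ) := by
    intro SP hSP q hq
    have hq0 : (q : ℕ) ∉ Smin := fun h => hq (hSP (mem_primesIn.2 (Finset.mem_union_left _ h)))
    have hqp : (q : ℕ) ≠ p := fun h => hq0 (h ▸ hpSmin)
    by_contra hcon
    exact hq0 ((hmin q q.2 hqp).2 hcon)
  have hM₀ : Sm.IsSmooth (MonoidHom.id GQ) (LevelClass.unr S₀) M :=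
    adRep_isSmooth_of_unramified bbar p S₀ (hur S₀ (Finset.Subset.refl _))
  haveI : Finite (H1S S₀ M') :=
    Fin.finite_H1S S₀ M' hp2 hpS₀ (isSmooth_dualTwist S₀ hpS₀ M hM₀)
  have hS₀S : ∀ q : Nat.Primes, q ∈ S₀ → (q : ℕ) ∈ S := by
    intro q hq
    rcases Finset.mem_union.1 (mem_primesIn.1 hq) with h | h
    · exact hSmin h
    · exact hTS h
  refine ⟨Nat.card {x : H1S S₀ M' // x ≠ 0}, fun n => ?_⟩
  obtain ⟨qv, hinj, hqv, hqvS, hfrob, hkill⟩ :=
    exists_TW_kill p ρbar M' S₀ hsplit hpS₀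
      (exists_level_rhobar S₀ (hur S₀ (Finset.Subset.refl _)))
      (exists_level_dualTwist bbar p S₀ hpS₀ (hur S₀ (Finset.Subset.refl _)))
      S hS₀S n (hgood n)
  refine ⟨qv, hinj, fun i => ⟨hqv i, (hqvS i).1, (hqvS i).2⟩, hfrob, ?_⟩
  set Q : Finset Nat.Primes := primesOf qv hqv with hQ
  set S' : Finset ℕ := Smin ∪ T ∪ Finset.univ.image qv with hS'
  set SP : Finset Nat.Primes := S₀ ∪ Q with hSPdef
  have hmemQ : ∀ q : Nat.Primes, q ∈ Q ↔ ∃ i, (⟨qv i, hqv i⟩ : Nat.Primes) = q :=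
    fun q => mem_primesOf qv hqv q
  have hdisj : Disjoint S₀ Q := by
    rw [Finset.disjoint_left]
    intro q hq0 hqQ
    obtain ⟨i, rfl⟩ := (hmemQ q).1 hqQ
    exact (hqvS i).1 (hS₀S _ hq0)
  have hSP : ∀ q : Nat.Primes, q ∉ SP → (q : ℕ) ∉ S' := by
    intro q hq hqS'
    rcases Finset.mem_union.1 hqS' with h | h
    · exact hq (Finset.mem_union_left _ (mem_primesIn.2 h))
    · obtain ⟨i, -, hi⟩ := Finset.mem_image.1 h
      exact hq (Finset.mem_union_right _ ((hmemQ q).2 ⟨i, Subtype.ext hi⟩))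
  have hQcard : Q.card = Nat.card {x : H1S S₀ M' // x ≠ 0} := card_primesOf qv hqv hinj
  have hpSP : (⟨p, hp.out⟩ : Nat.Primes) ∈ SP := Finset.mem_union_left _ hpS₀
  have hM : Sm.IsSmooth (MonoidHom.id GQ) (LevelClass.unr SP) M :=
    adRep_isSmooth_of_unramified bbar p SP (hur SP Finset.subset_union_left)
  -- (N6) at the Taylor–Wiles primes
  have hN6 : ∀ q ∈ Q, Nat.card (H2loc M q) ≤ Nat.card (ResidueField 𝒪) := by
    intro q hqQ
    obtain ⟨i, rfl⟩ := (hmemQ q).1 hqQ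
    have hdvd : p ∣ qv i - 1 := (dvd_pow_self p (Nat.succ_ne_zero n)).trans (hqvS i).2
    have hqp : qv i ≠ p := by
      intro h
      rw [h] at hdvd
      exact absurd (Nat.le_of_dvd (Nat.sub_pos_of_lt hp.out.one_lt) hdvd)
        (by have := hp.out.one_lt; omega)
    obtain ⟨φ, hφ⟩ := exists_frobenius_primeLocalPlace ⟨qv i, hqv i⟩
    obtain ⟨α, β, hαβ, hchar⟩ := hfrob i _ (primeLocalPlace_liesOverPrime ⟨qv i, hqv i⟩) φ hφ
    have hns : ∀ c : ResidueField 𝒪, rb φ ≠ c • (1 : Matrix (Fin 2) (Fin 2) (ResidueField 𝒪)) := by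
      intro c hc
      apply not_scalar_of_charpoly ρbar.finrank_eq (ρbar.ρ φ) hαβ hchar c
      apply (LinearMap.toMatrix bbar bbar).injective
      rw [map_smul, LinearMap.toMatrix_one]
      exact hc
    exact card_H2loc_adRep_le hp2 SP hpSP rb hM ⟨⟨qv i, hqv i⟩, Finset.mem_union_right _ hqQ⟩
      hqp hdvd φ hφ hns
  obtain ⟨W, hWfin, hWmem, hWcard⟩ := exists_selmer_set_rel (𝒪 := 𝒪) (rb := rb) hp2 S₀ Q T' hpS₀
    hdisj hT'S₀ hpT' hM (𝒟 S') (hunr𝒟 S' SP hSP) (hlocp S')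
    (fun q hq hqp hqT => by
      have hqS : (q : ℕ) ∈ Smin := by
        rcases Finset.mem_union.1 (mem_primesIn.1 hq) with h | h
        · exact h
        · exact absurd (mem_primesIn.2 h) hqT
      exact hlocq S' q hqS hqp)
    (fun v hv g => hscal v (mem_primesIn.1 hv) g)
    hkill c₀ (hN3 SP hpSP hM) hN8 hN9 hN4 (fun q _ hqp => hN5 q hqp) hN6
  intro DQ B hB
  haveI := hWfin
  obtain ⟨hfin, hcard⟩ := card_relTan_le' p B bbar hB (hbc S' DQ) (hiso S') SP T'
    (hunr𝒟 S' SP hSP) W hWmem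
  refine ⟨hfin, ?_⟩
  calc Nat.card (relTan B T') * Nat.card (ResidueField 𝒪) ^ (3 * T'.card)
      ≤ Nat.card W * Nat.card (ResidueField 𝒪) ^ (3 * T'.card) := Nat.mul_le_mul_right _ hcard
    _ ≤ Nat.card (ResidueField 𝒪) ^ Q.card := hWcard
    _ = _ := by rw [hQcard]

end Half

end Fermat.Agent.S43lib.B3
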