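/-
S43lib / B3 / FlatFam (helper4).  **(B3) for the flat family with an extra FAMILY of conditions `E S'`.**
(`Flat.lean` with `E` allowed to depend on the ramification set `S'`.)

`half_of_rel` with all its inputs discharged from the hypotheses of the frozen statement S56 (exactly as
`Fermat/Agent/S56.lean` does for `s56_of_inputs`), for the family

  `𝒟flF S' ρ := (flat at p, unramified outside S', det cyclotomic, unipotent on inertia at Smin ∖ {p}) ∧ E S' ρ`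

where `E S'` is ANY extra family of conditions which is stable under surjective base change to `k[ε]` and under
equivalence over `k[ε]`.
-/
import Mathlib
import Fermat.Agent.S56lib.Main.Glue
import Fermat.Agent.S56lib.Main.N9
import Fermat.Agent.S56lib.TW.Final
import Fermat.Agent.S56lib.Main.GlueEuler
import Fermat.Agent.S56lib.Dict.FlatGood
import Fermat.Agent.S56lib.Flat.Good
import Fermat.Agent.S43lib.B3.Outer

set_option autoImplicit false
set_option linter.unusedSectionVars false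
set_option linter.style.haveILetI false

noncomputable section

namespace Fermat.Agent.S43lib.B3

open IsLocalRing Polynomial Fermat.Agent.TeamA Fermat.Agent.TeamA.Rep Fermat.Agent.S55lib
  Fermat.Agent.S56lib.Dict Fermat.Agent.S56lib.PT9a Fermat.Agent.S56lib.TWSel
  Fermat.Agent.S56lib.Main Fermat.Agent.S56lib ExtCitation

attribute [local instance] dualNumberAlgebra

section

variable {𝒪 : Type} [CommRing 𝒪] [IsDomain 𝒪] [IsDiscreteValuationRing 𝒪]
  [IsAdicComplete (maximalIdeal 𝒪) 𝒪] [Finite (ResidueField 𝒪)]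

/-- the flat family of S56 with an extra family of conditions `E S'` -/
def 𝒟flF (𝒪 : Type) [CommRing 𝒪] (p : ℕ) (Smin : Finset ℕ)
    (E : Finset ℕ → ∀ ⦃A : Type⦄ [CommRing A] [IsLocalRing A] [Algebra 𝒪 A], GaloisRepAdic A → Prop)
    (S' : Finset ℕ) :
    ∀ ⦃A : Type⦄ [CommRing A] [IsLocalRing A] [Algebra 𝒪 A], GaloisRepAdic A → Prop :=
  fun _A _ _ _ ρ => 𝒟fl 𝒪 p Smin S' ρ ∧ E S' ρ

/-- **(B3), flat family with an extra family of conditions.** -/
theorem tw_relTan_flatFam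
    (p : ℕ) [hp : Fact p.Prime] (hp2 : p ≠ 2) (hp𝒪 : (p : 𝒪) ∈ maximalIdeal 𝒪)
    (ρbar : ResidualGaloisRep (ResidueField 𝒪))
    (habs : ρbar.IsAbsolutelyIrreducible)
    (hdet : (GaloisRepAdic.ofResidualGaloisRep ρbar).DetIsCyclotomic p)
    (hsplit : ∀ σ : AlgebraicClosure ℚ ≃ₐ[ℚ] AlgebraicClosure ℚ,
      ∃ α β : ResidueField 𝒪, LinearMap.charpoly (ρbar.ρ σ) = (X - C α) * (X - C β))
    (hTW : ∀ (K : Type) [Field K] [Algebra (ResidueField 𝒪) K]
      (G : Subgroup (AlgebraicClosure ℚ ≃ₐ[ℚ] AlgebraicClosure ℚ)), G.index = 2 →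
      ∀ V : Submodule K (ρbar.baseChange K).V,
        (∀ σ ∈ G, ∀ x ∈ V, (ρbar.baseChange K).ρ σ x ∈ V) → V = ⊥ ∨ V = ⊤)
    (S Smin T : Finset ℕ) (hpSmin : p ∈ Smin) (hSmin : Smin ⊆ S) (hTS : T ⊆ S)
    (hTdisj : Disjoint Smin T)
    (hmin : ∀ q : ℕ, q.Prime → q ≠ p → (q ∈ Smin ↔ ¬ ρbar.IsUnramifiedAt q))
    (bbar : Module.Basis (Fin 2) (ResidueField 𝒪) ρbar.V)
    (hscal : ∀ v : Nat.Primes, (v : ℕ) ∈ T → ∀ g : Gloc v, ∃ a : ResidueField 𝒪,
      resHom ρbar bbar (rloc v g) = a • (1 : Matrix (Fin 2) (Fin 2) (ResidueField 𝒪)))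
    (E : Finset ℕ → ∀ ⦃A : Type⦄ [CommRing A] [IsLocalRing A] [Algebra 𝒪 A], GaloisRepAdic A → Prop)
    (hEbc : ∀ (S' : Finset ℕ) (DQ : GaloisRep.DeformationRingData 𝒪 ρbar (𝒟flF 𝒪 p Smin E S'))
      (φ : DQ.R →ₐ[𝒪] DualNumber (ResidueField 𝒪)), Function.Surjective φ → E S' (tanRep DQ φ))
    (hEiso : ∀ (S' : Finset ℕ) (ρ ρ' : GaloisRepAdic (DualNumber (ResidueField 𝒪))),
      ρ.IsEquiv ρ' → E S' ρ → E S' ρ') :
    ∃ r : ℕ, ∀ n : ℕ, ∃ qv : Fin r → ℕ, Function.Injective qv ∧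
      (∀ i, (qv i).Prime ∧ qv i ∉ S ∧ p ^ (n + 1) ∣ qv i - 1) ∧
      (∀ i, ∀ P : ValuationSubring (AlgebraicClosure ℚ), P.LiesOverPrime (qv i) →
        ∀ φ : AlgebraicClosure ℚ ≃ₐ[ℚ] AlgebraicClosure ℚ, P.IsFrobeniusAt φ (qv i) →
          ∃ α β : ResidueField 𝒪, α ≠ β ∧
            LinearMap.charpoly (ρbar.ρ φ) = (X - C α) * (X - C β)) ∧
      ∀ (DQ : GaloisRep.DeformationRingData 𝒪 ρbar
          (𝒟flF 𝒪 p Smin E (Smin ∪ T ∪ Finset.univ.image qv)))
        (B : Based DQ), B.bbar = bbar →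
        Finite (relTan B (primesIn T)) ∧
        Nat.card (relTan B (primesIn T)) * Nat.card (ResidueField 𝒪) ^ (3 * (primesIn T).card) ≤
          Nat.card (ResidueField 𝒪) ^ r := by
  classical
  haveI hCharP : CharP (ResidueField 𝒪) p := charP_residueField p hp𝒪
  refine half_of_rel p hp2 ρbar bbar hsplit S Smin T hpSmin hSmin hTS hTdisj hmin hscal
    (𝒟flF 𝒪 p Smin E) ?hbc ?hiso ?hunr ?hlocp ?hlocq ?hgood complexConjugation ?hN3 ?hN8 ?hN9
    ?hN4 ?hN5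
  case hbc =>
    intro S' DQ φ hs
    obtain ⟨⟨⟨h1, h2, h3⟩, h4⟩, -⟩ := DQ.isOfType
    exact ⟨⟨⟨detIsCyclotomic_baseChangeAlong _ _ _ h1,
      isFlatAt_baseChangeAlong_of_surjective _ _ hs _ h2,
      fun q hq hqS => isUnramifiedAt_baseChangeAlong _ _ _ (h3 q hq hqS)⟩,
      fun q hq hqp hne => isUnipotentOnInertiaAt_baseChangeAlong _ _ _ (h4 q hq hqp hne)⟩,
      hEbc S' DQ φ hs⟩
  case hiso =>
    intro S' ρ ρ' hE h
    obtain ⟨e⟩ := hE
    obtain ⟨⟨⟨h1, h2, h3⟩, h4⟩, h5⟩ := h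
    exact ⟨⟨⟨detIsCyclotomic_of_equiv e h1, isFlatAt_of_equiv e h2,
      fun q hq hqS => isUnramifiedAt_of_equiv e (h3 q hq hqS)⟩,
      fun q hq hqp hne => isUnipotentOnInertiaAt_of_equiv e (h4 q hq hqp hne)⟩,
      hEiso S' ρ ρ' ⟨e⟩ h5⟩
  case hunr =>
    intro S' SP hSP c hc
    refine isUnrCocycle_of_isSelmerCocycle_flat p Smin S' SP hSP ?_
    obtain ⟨hcc, hcs, h0 | hd⟩ := hc
    · exact ⟨hcc, hcs, Or.inl h0⟩
    · exact ⟨hcc, hcs, Or.inr hd.1⟩
  case hlocp =>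
    intro S'
    exact (hasLocalCond_fl_p p ρbar bbar hdet hsplit
      (fun hs hd L₀ _ _ h1 h2 h3 =>
        Fermat.Agent.S56lib.Flat.exists_good hp2 (resHom ρbar bbar) hs hd L₀ h1 h2 h3) Smin S').mono
      le_rfl (fun ρ h => h.1)
  case hlocq =>
    intro S' q hqS hqp
    exact (hasLocalCond_fl_q p bbar hp2 Smin hpSmin hmin S' q hqS hqp).mono le_rfl (fun ρ h => h.1)
  case hgood =>
    exact fun n => Fermat.Agent.S56lib.TW.hgood_s56 p ρbar bbar hp2 habs hdet hsplit hTW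
      (primesIn (Smin ∪ T)) n
  case hN3 => exact fun SP hpSP hM => hN3_adRep p bbar hp2 SP hpSP hM
  case hN8 => exact card_le_card_fixed_complexConjugation p ρbar bbar hdet
  case hN9 => exact card_invariants_adRep p bbar hp2 habs
  case hN4 => exact hN4_adRep p bbar hp2 Smin hpSmin hmin
  case hN5 => exact fun q hq => hN5_adRep p bbar hp2 Smin hpSmin hmin q hq

end

end Fermat.Agent.S43lib.B3
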