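/-
S43lib / B3 / SurjAlg (helper4): **relative generation of a complete local algebra from a relative tangent count.**

`R` a complete Noetherian local `𝒪`-algebra with the residue field `k` of `𝒪` (finite).
* `exists_surjective_of_separating` : a finite family `z : σ → 𝔪_R` on which no non-zero `𝒪`-derivation `R → k`
  vanishes generates `R` topologically: `𝒪⟦X_s⟧ → R`, `X_s ↦ z s`, is surjective.
* `exists_surjective_rel` : if the tangent vectors `φ : R → k[ε]` killing a finite family `x₀ : σ₀ → 𝔪_R` lie in a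
  finite set with at most `|k| ^ r'` elements, then `R` is topologically generated by the `x₀ s` and `r'` further
  elements:  a surjection `𝒪⟦σ₀ ⊕ Fin r'⟧ → R` with `X (inl s) ↦ x₀ s`.
(The absolute case `σ₀ = ∅` is `S56lib.Dict.exists_mvPowerSeries_surjective_of_card_le`.)
-/
import Mathlib
import Fermat.Agent.S56lib.Dict.TangentCount

set_option autoImplicit false
set_option linter.unusedSectionVars false
set_option linter.style.haveILetI false

namespace Fermat.Agent.S43lib.B3

open IsLocalRing MvPowerSeries Fermat.Agent.TeamA TrivSqZeroExt Fermat.Agent.S56lib.Dict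

section Main

variable {𝒪 : Type*} [CommRing 𝒪] [IsLocalRing 𝒪]
variable {R : Type*} [CommRing R] [IsLocalRing R] [Algebra 𝒪 R] [IsLocalHom (algebraMap 𝒪 R)]
variable [IsNoetherianRing 𝒪] [IsAdicComplete (maximalIdeal 𝒪) 𝒪]
variable [IsNoetherianRing R] [IsAdicComplete (maximalIdeal R) R]

/-- a finite family of elements of `𝔪_R` separating the derivations generates `R` topologically -/
theorem exists_surjective_of_separating
    (hsurj : Function.Surjective (residue R ∘ algebraMap 𝒪 R)) {σ : Type*} [Finite σ]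
    (z : σ → R) (hz : ∀ s, z s ∈ maximalIdeal R)
    (hsep : ∀ D : tanDer (𝒪 := 𝒪) (R := R) hsurj, (∀ s, D.1 (z s) = 0) → D = 0) :
    ∃ γ : MvPowerSeries σ 𝒪 →ₐ[𝒪] R, (∀ s, γ (X s) = z s) ∧ Function.Surjective γ := by
  set B : Subalgebra 𝒪 R := Algebra.adjoin 𝒪 (Set.range z) with hB
  have htop : cotangentImage hsurj B = ⊤ := by
    by_contra hne
    obtain ⟨D, hDmul, hDB, a₀, ha₀⟩ := exists_derivation_of_cotangentImage_ne_top hsurj B hne
    let D' : tanDer (𝒪 := 𝒪) (R := R) hsurj :=
      ⟨fun a => (kap hsurj).symm (D a), fun a b => by simp, fun a b => by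
        change (kap hsurj).symm (D (a * b)) = (kap hsurj).symm (residue R a) *
          (kap hsurj).symm (D b) + (kap hsurj).symm (residue R b) * (kap hsurj).symm (D a)
        rw [hDmul, map_add, map_mul, map_mul], fun o => by
        change (kap hsurj).symm (D (algebraMap 𝒪 R o)) = 0
        rw [hDB _ (B.algebraMap_mem o), map_zero]⟩
    have hD'0 : D' = 0 := by
      apply hsep D'
      intro s
      change (kap hsurj).symm (D (z s)) = 0
      rw [hDB _ (Algebra.subset_adjoin ⟨s, rfl⟩), map_zero]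
    have : (kap hsurj).symm (D a₀) = 0 := by
      have := congrArg (fun E : tanDer (𝒪 := 𝒪) (R := R) hsurj => E.1 a₀) hD'0
      exact this
    rw [map_eq_zero_iff _ (kap hsurj).symm.injective] at this
    exact ha₀ this
  have happrox := cotangentImage_eq_top_imp hsurj B htop
  refine exists_surjective_of_span (σ := σ) hsurj z hz ?_
  intro y hy
  obtain ⟨b, hbB, hbm, hyb⟩ := happrox y hy
  obtain ⟨o, ho⟩ := exists_sub_algebraMap_mem_span (𝒪 := 𝒪) z b hbB
  have hspan_le : Ideal.span (Set.range z) ≤ maximalIdeal R := by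
    rw [Ideal.span_le]
    rintro _ ⟨i, rfl⟩
    exact hz i
  have hom : algebraMap 𝒪 R o ∈ maximalIdeal R := by
    have := (maximalIdeal R).sub_mem hbm (hspan_le ho)
    simpa using this
  have ho𝔪 : o ∈ maximalIdeal 𝒪 := by
    rw [mem_maximalIdeal, mem_nonunits_iff] at hom ⊢
    exact fun h => hom (h.map _)
  have e : y = (b - algebraMap 𝒪 R o) + algebraMap 𝒪 R o + (y - b) := by ring
  rw [e]
  exact Ideal.add_mem _ (Ideal.mem_sup_left (Ideal.mem_sup_left ho)
    |> fun h => Ideal.add_mem _ h (Ideal.mem_sup_left (Ideal.mem_sup_right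
      (Ideal.mem_map_of_mem _ ho𝔪)))) (Ideal.mem_sup_right hyb)

/-- **relative generation**: if the tangent vectors killing the family `x₀` lie in a finite set `W` with at most
`|k| ^ r'` elements, then `x₀` together with `r'` further elements generates `R` topologically. -/
theorem exists_surjective_rel [Finite (ResidueField 𝒪)]
    (hsurj : Function.Surjective (residue R ∘ algebraMap 𝒪 R)) {σ₀ : Type*} [Finite σ₀]
    (x₀ : σ₀ → R) (hx₀ : ∀ s, x₀ s ∈ maximalIdeal R) (r' : ℕ)
    (W : letI := dualNumberAlgebra 𝒪; Set (R →ₐ[𝒪] DualNumber (ResidueField 𝒪)))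
    (hWfin : W.Finite)
    (hW : letI := dualNumberAlgebra 𝒪; ∀ φ : R →ₐ[𝒪] DualNumber (ResidueField 𝒪),
      (∀ s, φ (x₀ s) = 0) → φ ∈ W)
    (hcard : Nat.card W ≤ Nat.card (ResidueField 𝒪) ^ r') :
    ∃ γ : MvPowerSeries (σ₀ ⊕ Fin r') 𝒪 →ₐ[𝒪] R, Function.Surjective γ ∧
      ∀ s, γ (X (Sum.inl s)) = x₀ s := by
  letI := dualNumberAlgebra 𝒪
  haveI : Finite W := hWfin
  -- the derivations killing `x₀`
  obtain ⟨U, hUmem⟩ : ∃ U : Submodule (ResidueField 𝒪) (tanDer (𝒪 := 𝒪) (R := R) hsurj),
      ∀ D : tanDer (𝒪 := 𝒪) (R := R) hsurj, D ∈ U ↔ ∀ s, D.1 (x₀ s) = 0 :=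
    ⟨{ carrier := {D | ∀ s, D.1 (x₀ s) = 0}
       zero_mem' := fun s => rfl
       add_mem' := by
        intro D D' hD hD' s
        change D.1 (x₀ s) + D'.1 (x₀ s) = 0
        rw [hD s, hD' s, add_zero]
       smul_mem' := by
        intro c D hD s
        change c * D.1 (x₀ s) = 0
        rw [hD s, mul_zero] }, fun _ => Iff.rfl⟩
  -- `U` injects into `W`
  let F : U → W := fun D => ⟨algHomOfDer hsurj D.1, hW _ fun s => by
    rw [algHomOfDer_apply, (resO_eq_zero_iff hsurj _).2 (hx₀ s), (hUmem D.1).1 D.2 s]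
    simp⟩
  have hF : Function.Injective F := by
    intro D D' h
    apply Subtype.ext
    exact algHomOfDer_injective hsurj (congrArg Subtype.val h)
  haveI : Finite U := Finite.of_injective F hF
  haveI : Module.Finite (ResidueField 𝒪) U := Module.Finite.of_finite
  have hrank : Module.finrank (ResidueField 𝒪) U ≤ r' := by
    have h1 : Nat.card U ≤ Nat.card (ResidueField 𝒪) ^ r' :=
      (Nat.card_le_card_of_injective F hF).trans hcard
    rw [Module.natCard_eq_pow_finrank (K := ResidueField 𝒪)] at h1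
    exact (Nat.pow_le_pow_iff_right Finite.one_lt_card).mp h1
  -- choose `r'` elements of the maximal ideal separating `U`
  obtain ⟨ev, hev⟩ : ∃ ev : maximalIdeal R → U →ₗ[ResidueField 𝒪] ResidueField 𝒪,
      ∀ (x : maximalIdeal R) (D : U), ev x D = D.1.1 x :=
    ⟨fun x => ((LinearMap.proj (x : R)).comp (tanDer (𝒪 := 𝒪) (R := R) hsurj).subtype).comp
      U.subtype, fun _ _ => rfl⟩
  have hfr : Module.finrank (ResidueField 𝒪) (⊤ : Submodule (ResidueField 𝒪) U) ≤ r' := by
    rw [finrank_top]; exact hrank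
  have hsepU : ∀ D : U, D ≠ 0 → ∃ x : maximalIdeal R, ev x D ≠ 0 := by
    intro D hD
    have hD1 : D.1 ≠ 0 := fun h => hD (Subtype.ext h)
    obtain ⟨x, hx⟩ := tanDer_sep hsurj D.1 hD1
    exact ⟨x, by rw [hev]; exact hx⟩
  have x0 : maximalIdeal R := ⟨0, Ideal.zero_mem _⟩
  have hkey := exists_fin_separating (K := ResidueField 𝒪) (V := U) (X := maximalIdeal R) ev x0 hsepU
  have h2 := hkey r' ⊤ hfr
  obtain ⟨y, hy⟩ := h2
  -- the combined family
  obtain ⟨γ, hγ, hγs⟩ := exists_surjective_of_separating hsurj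
    (Sum.elim x₀ fun i => ((y i : maximalIdeal R) : R))
    (fun s => by
      rcases s with s | i
      · exact hx₀ s
      · exact (y i).2)
    (fun D hD => by
      have hDU : D ∈ U := (hUmem D).2 fun s => hD (Sum.inl s)
      have h0 : (⟨D, hDU⟩ : U) = 0 :=
        hy ⟨D, hDU⟩ Submodule.mem_top fun i => by
          rw [hev]
          exact hD (Sum.inr i)
      exact congrArg Subtype.val h0)
  exact ⟨γ, hγs, fun s => hγ (Sum.inl s)⟩

end Main

end Fermat.Agent.S43lib.B3
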