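/-
S43lib / B3 / TameCocycle (helper4): **a smooth cocycle for the adjoint action which vanishes on the two tame
generators at `v` vanishes on all of `G_v`** (`v ≠ p`, `ρ̄` unramified at `v`).

The lift `g ↦ (1 + ε c g) ρ̄(g)` is a homomorphism `G_ℚ → GL₂(k[ε])` of finite level whose inertia image at `v`
is killed by `p`; by `tame_at_prime` the image of `G_v` is generated by the images of `globFrobAt v`,
`globGenAt v p`, which lie in the subgroup `GL₂(k) ⊂ GL₂(k[ε])` when `c` vanishes on them.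
-/
import Mathlib
import Fermat.Agent.S43lib.B3.TameGlobal
import Fermat.Agent.S56lib.Dict.LiftRep

set_option autoImplicit false
set_option linter.unusedSectionVars false
set_option linter.style.haveILetI false

noncomputable section

namespace Fermat.Agent.S43lib.B3

open Fermat.Agent.S56lib.Dict ExtCitation TrivSqZeroExt

local notation "Qb" => AlgebraicClosure ℚ
local notation "GQ" => (AlgebraicClosure ℚ ≃ₐ[ℚ] AlgebraicClosure ℚ)

section Const

variable {k : Type*} [CommRing k]

/-- powers of `1 + ε m` -/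
theorem mkM_one_pow (m : Matrix (Fin 2) (Fin 2) k) (n : ℕ) :
    mkM (1 : Matrix (Fin 2) (Fin 2) k) m ^ n = mkM 1 (n • m) := by
  induction n with
  | zero => rw [pow_zero, zero_smul, mkM_one_zero]
  | succ n ih => rw [pow_succ, ih, mkM_mul, one_mul, one_mul, mul_one, succ_nsmul']

/-- the units of `M₂(k[ε])` with entries in `k` -/
def constUnits (k : Type*) [CommRing k] : Subgroup (Matrix (Fin 2) (Fin 2) (DualNumber k))ˣ where
  carrier := {u | sndM (u : Matrix (Fin 2) (Fin 2) (DualNumber k)) = 0}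
  one_mem' := by
    change sndM ((1 : (Matrix (Fin 2) (Fin 2) (DualNumber k))ˣ) : Matrix (Fin 2) (Fin 2) (DualNumber k)) = 0
    rw [Units.val_one, sndM_one]
  mul_mem' := by
    intro u w hu hw
    change sndM ((u * w : (Matrix (Fin 2) (Fin 2) (DualNumber k))ˣ) :
      Matrix (Fin 2) (Fin 2) (DualNumber k)) = 0
    have hu' : sndM (u : Matrix (Fin 2) (Fin 2) (DualNumber k)) = 0 := hu
    have hw' : sndM (w : Matrix (Fin 2) (Fin 2) (DualNumber k)) = 0 := hw
    rw [Units.val_mul, sndM_mul, hu', hw', mul_zero, zero_mul, add_zero]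
  inv_mem' := by
    intro u hu
    change sndM ((u⁻¹ : (Matrix (Fin 2) (Fin 2) (DualNumber k))ˣ) :
      Matrix (Fin 2) (Fin 2) (DualNumber k)) = 0
    have hu' : sndM (u : Matrix (Fin 2) (Fin 2) (DualNumber k)) = 0 := hu
    have h1 : sndM ((u : Matrix (Fin 2) (Fin 2) (DualNumber k)) *
        ((u⁻¹ : (Matrix (Fin 2) (Fin 2) (DualNumber k))ˣ) : Matrix (Fin 2) (Fin 2) (DualNumber k))) = 0 := by
      rw [Units.mul_inv, sndM_one]
    rw [sndM_mul, hu', zero_mul, add_zero] at h1
    have h2 : fstM ((u⁻¹ : (Matrix (Fin 2) (Fin 2) (DualNumber k))ˣ) :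
          Matrix (Fin 2) (Fin 2) (DualNumber k)) *
        fstM (u : Matrix (Fin 2) (Fin 2) (DualNumber k)) = 1 := by
      rw [← fstM_mul, Units.inv_mul, fstM_one]
    calc sndM ((u⁻¹ : (Matrix (Fin 2) (Fin 2) (DualNumber k))ˣ) :
          Matrix (Fin 2) (Fin 2) (DualNumber k))
        = (fstM ((u⁻¹ : (Matrix (Fin 2) (Fin 2) (DualNumber k))ˣ) :
            Matrix (Fin 2) (Fin 2) (DualNumber k)) *
          fstM (u : Matrix (Fin 2) (Fin 2) (DualNumber k))) *
          sndM ((u⁻¹ : (Matrix (Fin 2) (Fin 2) (DualNumber k))ˣ) :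
            Matrix (Fin 2) (Fin 2) (DualNumber k)) := by rw [h2, one_mul]
      _ = 0 := by rw [Matrix.mul_assoc, h1, mul_zero]

theorem mem_constUnits {u : (Matrix (Fin 2) (Fin 2) (DualNumber k))ˣ} :
    u ∈ constUnits k ↔ sndM (u : Matrix (Fin 2) (Fin 2) (DualNumber k)) = 0 := Iff.rfl

end Const

/-- **a smooth cocycle vanishing on the tame generators at `v` vanishes on `G_v`** -/
theorem cocycle_vanishes_of_tame {k : Type} [Field k] (p : ℕ) [hp : Fact p.Prime] [CharP k p]
    (rb : GQ →* Matrix (Fin 2) (Fin 2) k) (c : GQ → Matrix (Fin 2) (Fin 2) k)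
    (hc : IsCocycle rb c) (hs : IsSmoothCochain rb c)
    (v : Nat.Primes) (hpv : p ≠ (v : ℕ))
    (hur : ∀ s ∈ (primeLocalPlace v).inertiaSubgroupIn ℚ, rb s = 1)
    (hΦ : c (globFrobAt v) = 0) (hSig : c (globGenAt v p) = 0) :
    ∀ g : primeLocalGaloisGroup v, c (primeLocalToGlobal v g) = 0 := by
  set f : GQ →* (Matrix (Fin 2) (Fin 2) (DualNumber k))ˣ := (liftHom rb c hc).toHomUnits with hf
  have hfval : ∀ g : GQ, ((f g : (Matrix (Fin 2) (Fin 2) (DualNumber k))ˣ) :
      Matrix (Fin 2) (Fin 2) (DualNumber k)) = liftFun rb c g := fun g => rfl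
  obtain ⟨L, hL, hLs⟩ := hs
  have := hL
  have hF : ∀ s ∈ L.fixingSubgroup, f s = 1 := by
    intro s hs'
    obtain ⟨h1, h2⟩ := hLs s ((IntermediateField.mem_fixingSubgroup_iff L s).1 hs')
    apply Units.ext
    rw [hfval, Units.val_one, liftFun, h1, h2, zero_mul, mkM_one_zero]
  have hpf : ∀ s ∈ (primeLocalPlace v).inertiaSubgroupIn ℚ, ∃ n : ℕ, f s ^ p ^ n = 1 := by
    intro s hs'
    refine ⟨1, ?_⟩
    apply Units.ext
    rw [pow_one, Units.val_pow_eq_pow_val, hfval, Units.val_one, liftFun, hur s hs', mul_one,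
      mkM_one_pow]
    have hp0 : p • c s = 0 := by
      rw [← Nat.cast_smul_eq_nsmul k, CharP.cast_eq_zero, zero_smul]
    rw [hp0, mkM_one_zero]
  obtain ⟨-, h2, -, -⟩ := tame_at_prime v hp.out hpv f L hF hpf
  have hle : Subgroup.closure {f (globFrobAt v), f (globGenAt v p)} ≤ constUnits k := by
    rw [Subgroup.closure_le]
    intro u hu
    rcases hu with rfl | hu
    · change sndM _ = 0
      rw [hfval, sndM_liftFun, hΦ, zero_mul]
    · rw [Set.mem_singleton_iff] at hu
      subst hu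
      change sndM _ = 0
      rw [hfval, sndM_liftFun, hSig, zero_mul]
  intro g
  have h3 : sndM ((f (primeLocalToGlobal v g) : (Matrix (Fin 2) (Fin 2) (DualNumber k))ˣ) :
      Matrix (Fin 2) (Fin 2) (DualNumber k)) = 0 := hle (h2 g)
  rw [hfval, sndM_liftFun] at h3
  calc c (primeLocalToGlobal v g)
      = c (primeLocalToGlobal v g) * (rb (primeLocalToGlobal v g) * rb (primeLocalToGlobal v g)⁻¹) := by
        rw [rb_mul_inv, mul_one]
    _ = 0 := by rw [← Matrix.mul_assoc, h3, zero_mul]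

end Fermat.Agent.S43lib.B3
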