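/-
S43lib / B3 / Surj (helper4).  **(B3-SURJ): the `T`-relaxed flat deformation rings at Taylor–Wiles level are
generated over the tame coordinates at `T` by `r − 3|T|` further elements.**

Same hypotheses as `tw_relTan_flatFam`; `φ₀ v ∈ 𝒪` lifts the scalar by which `ρ̄ (globFrobAt v)` acts (`v ∈ T`).
Conclusion: there is `r` such that for every `n` there is a Taylor–Wiles set `qv : Fin r → ℕ` of level `n` such that
for every universal deformation ring `DQ` of the family at `Smin ∪ T ∪ qv` and every based universal deformation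
`B` : `3|T| ≤ r` and there is a surjection

  `𝒪⟦(T × Bool × Fin 2 × Fin 2) ⊕ Fin (r − 3|T|)⟧ ↠ DQ.R`

sending the first `8|T|` variables to the entries of `ρ(Φ_v) − φ₀ v` and of `ρ(Σ_v) − 1`
(`Φ_v = globFrobAt v`, `Σ_v = globGenAt v p` the tame generators at `v`).

Proof: a tangent vector `DQ.R → k[ε]` killing these `8|T|` entries has a cocycle vanishing at `Φ_v`, `Σ_v`,
hence on all of `G_v` (`cocycle_vanishes_of_tame`), i.e. it lies in `relTan B T`, which has at most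
`|k|^(r − 3|T|)` elements (`tw_relTan_flatFam`); conclude with `exists_surjective_rel`.
-/
import Mathlib
import Fermat.Agent.S43lib.B3.FlatFam
import Fermat.Agent.S43lib.B3.SurjAlg
import Fermat.Agent.S43lib.B3.TameCocycle
import Fermat.Agent.S56lib.Dict.Ramified

set_option autoImplicit false
set_option linter.unusedSectionVars false
set_option linter.style.haveILetI false

noncomputable section

namespace Fermat.Agent.S43lib.B3

open IsLocalRing Polynomial Fermat.Agent.TeamA Fermat.Agent.TeamA.Rep Fermat.Agent.S55lib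
  Fermat.Agent.S56lib.Dict Fermat.Agent.S56lib.PT9a Fermat.Agent.S56lib.TWSel
  Fermat.Agent.S56lib.Main Fermat.Agent.S56lib ExtCitation

attribute [local instance] dualNumberAlgebra

section

variable {𝒪 : Type} [CommRing 𝒪] [IsDomain 𝒪] [IsDiscreteValuationRing 𝒪]
  [IsAdicComplete (maximalIdeal 𝒪) 𝒪]
variable {ρbar : ResidualGaloisRep (ResidueField 𝒪)}
variable {𝒟 : ∀ ⦃A : Type⦄ [CommRing A] [IsLocalRing A] [Algebra 𝒪 A], GaloisRepAdic A → Prop}
variable {DQ : GaloisRep.DeformationRingData 𝒪 ρbar 𝒟}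

/-- an entry of the universal matrix minus a lift of its residue lies in the maximal ideal -/
theorem Based_entry_sub_mem (B : Based DQ) (g : GQ) (i j : Fin 2) (o : 𝒪)
    (h : B.rb g i j = residue 𝒪 o) :
    matOf DQ.ρ B.bR g i j - algebraMap 𝒪 DQ.R o ∈ maximalIdeal DQ.R := by
  have h1 := B.hl g i j
  have h2 : residue 𝒪 (B.Rt g i j - o) = 0 := by
    rw [map_sub, sub_eq_zero, ← h, Dict.resHom_apply, ← B.hRt g, Matrix.map_apply]
  have h3 : B.Rt g i j - o ∈ maximalIdeal 𝒪 := (residue_eq_zero_iff _).1 h2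
  have h4 : algebraMap 𝒪 DQ.R (B.Rt g i j - o) ∈ maximalIdeal DQ.R :=
    map_nonunit (algebraMap 𝒪 DQ.R) _ h3
  have e : matOf DQ.ρ B.bR g i j - algebraMap 𝒪 DQ.R o =
      (matOf DQ.ρ B.bR g i j - algebraMap 𝒪 DQ.R (B.Rt g i j)) +
        algebraMap 𝒪 DQ.R (B.Rt g i j - o) := by
    rw [map_sub]; ring
  rw [e]
  exact Ideal.add_mem _ h1 h4

/-- if `φ` sends the entries of the universal matrix at `g` to elements of `k ⊂ k[ε]`, then the tangent cocycle of
`φ` vanishes at `g` -/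
theorem Based_tanCocycle_eq_zero (B : Based DQ) (φ : DQ.R →ₐ[𝒪] DualNumber (ResidueField 𝒪)) (g : GQ)
    (h : ∀ i j, (φ (matOf DQ.ρ B.bR g i j)).snd = 0) : B.tanCocycle φ g = 0 := by
  have h1 : sndM (B.tanMat φ g) = 0 := by
    ext i j
    rw [sndM_apply]
    exact h i j
  change sndM (B.tanMat φ g) * B.rb g⁻¹ = 0
  rw [h1, zero_mul]

end

section

variable {𝒪 : Type} [CommRing 𝒪] [IsDomain 𝒪] [IsDiscreteValuationRing 𝒪]
  [IsAdicComplete (maximalIdeal 𝒪) 𝒪] [Finite (ResidueField 𝒪)]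

/-- the tame coordinates at `T`: the entries of `ρ(Φ_v) − φ₀ v` (`false`) and of `ρ(Σ_v) − 1` (`true`) -/
def tameCoord {ρbar : ResidualGaloisRep (ResidueField 𝒪)}
    {𝒟 : ∀ ⦃A : Type⦄ [CommRing A] [IsLocalRing A] [Algebra 𝒪 A], GaloisRepAdic A → Prop}
    {DQ : GaloisRep.DeformationRingData 𝒪 ρbar 𝒟} (B : Based DQ) (p : ℕ) {T : Finset Nat.Primes}
    (φ₀ : ↥T → 𝒪) : (↥T × Bool × Fin 2 × Fin 2) → DQ.R
  | (v, false, i, j) => matOf DQ.ρ B.bR (globFrobAt (v : Nat.Primes)) i j -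
      (if i = j then algebraMap 𝒪 DQ.R (φ₀ v) else 0)
  | (v, true, i, j) => matOf DQ.ρ B.bR (globGenAt (v : Nat.Primes) p) i j - (if i = j then 1 else 0)

/-- **(B3-SURJ), flat family with an extra family of conditions.** -/
theorem tw_surj_flatFam
    (p : ℕ) [hp : Fact p.Prime] (hp2 : p ≠ 2) (hp𝒪 : (p : 𝒪) ∈ maximalIdeal 𝒪)
    (ρbar : ResidualGaloisRep (ResidueField 𝒪))
    (habs : ρbar.IsAbsolutelyIrreducible)
    (hdet : (GaloisRepAdic.ofResidualGaloisRep ρbar).DetIsCyclotomic p)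
    (hsplit : ∀ σ : AlgebraicClosure ℚ ≃ₐ[ℚ] AlgebraicClosure ℚ,
      ∃ α β : ResidueField 𝒪, LinearMap.charpoly (ρbar.ρ σ) = (X - C α) * (X - C β))
    (hTW : ∀ (K : Type) [Field K] [Algebra (ResidueField 𝒪) K]
      (G : Subgroup (AlgebraicClosure ℚ ≃ₐ[ℚ] AlgebraicClosure ℚ)), G.index = 2 →
      ∀ V : Submodule K (ρbar.baseChange K).V,
        (∀ σ ∈ G, ∀ x ∈ V, (ρbar.baseChange K).ρ σ x ∈ V) → V = ⊥ ∨ V = ⊤)
    (S Smin T : Finset ℕ) (hpSmin : p ∈ Smin) (hSmin : Smin ⊆ S) (hTS : T ⊆ S)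
    (hTdisj : Disjoint Smin T)
    (hmin : ∀ q : ℕ, q.Prime → q ≠ p → (q ∈ Smin ↔ ¬ ρbar.IsUnramifiedAt q))
    (bbar : Module.Basis (Fin 2) (ResidueField 𝒪) ρbar.V)
    (hscal : ∀ v : Nat.Primes, (v : ℕ) ∈ T → ∀ g : Gloc v, ∃ a : ResidueField 𝒪,
      resHom ρbar bbar (rloc v g) = a • (1 : Matrix (Fin 2) (Fin 2) (ResidueField 𝒪)))
    (E : Finset ℕ → ∀ ⦃A : Type⦄ [CommRing A] [IsLocalRing A] [Algebra 𝒪 A], GaloisRepAdic A → Prop)
    (hEbc : ∀ (S' : Finset ℕ) (DQ : GaloisRep.DeformationRingData 𝒪 ρbar (𝒟flF 𝒪 p Smin E S'))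
      (φ : DQ.R →ₐ[𝒪] DualNumber (ResidueField 𝒪)), Function.Surjective φ → E S' (tanRep DQ φ))
    (hEiso : ∀ (S' : Finset ℕ) (ρ ρ' : GaloisRepAdic (DualNumber (ResidueField 𝒪))),
      ρ.IsEquiv ρ' → E S' ρ → E S' ρ')
    (φ₀ : ↥(primesIn T) → 𝒪)
    (hφ₀ : ∀ v : ↥(primesIn T), resHom ρbar bbar (globFrobAt (v : Nat.Primes)) =
      residue 𝒪 (φ₀ v) • (1 : Matrix (Fin 2) (Fin 2) (ResidueField 𝒪))) :
    ∃ r : ℕ, ∀ n : ℕ, ∃ qv : Fin r → ℕ, Function.Injective qv ∧
      (∀ i, (qv i).Prime ∧ qv i ∉ S ∧ p ^ (n + 1) ∣ qv i - 1) ∧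
      (∀ i, ∀ P : ValuationSubring (AlgebraicClosure ℚ), P.LiesOverPrime (qv i) →
        ∀ φ : AlgebraicClosure ℚ ≃ₐ[ℚ] AlgebraicClosure ℚ, P.IsFrobeniusAt φ (qv i) →
          ∃ α β : ResidueField 𝒪, α ≠ β ∧
            LinearMap.charpoly (ρbar.ρ φ) = (X - C α) * (X - C β)) ∧
      ∀ (DQ : GaloisRep.DeformationRingData 𝒪 ρbar
          (𝒟flF 𝒪 p Smin E (Smin ∪ T ∪ Finset.univ.image qv)))
        (B : Based DQ), B.bbar = bbar →
        3 * (primesIn T).card ≤ r ∧
        ∃ γ : MvPowerSeries ((↥(primesIn T) × Bool × Fin 2 × Fin 2) ⊕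
            Fin (r - 3 * (primesIn T).card)) 𝒪 →ₐ[𝒪] DQ.R,
          Function.Surjective γ ∧
          (∀ (v : ↥(primesIn T)) (i j : Fin 2),
            γ (MvPowerSeries.X (Sum.inl (v, false, i, j))) =
              matOf DQ.ρ B.bR (globFrobAt (v : Nat.Primes)) i j -
                (if i = j then algebraMap 𝒪 DQ.R (φ₀ v) else 0)) ∧
          (∀ (v : ↥(primesIn T)) (i j : Fin 2),
            γ (MvPowerSeries.X (Sum.inl (v, true, i, j))) =
              matOf DQ.ρ B.bR (globGenAt (v : Nat.Primes) p) i j - (if i = j then 1 else 0)) := by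
  classical
  haveI hCharP : CharP (ResidueField 𝒪) p := charP_residueField p hp𝒪
  obtain ⟨r, hr⟩ := tw_relTan_flatFam p hp2 hp𝒪 ρbar habs hdet hsplit hTW S Smin T hpSmin hSmin hTS
    hTdisj hmin bbar hscal E hEbc hEiso
  refine ⟨r, fun n => ?_⟩
  obtain ⟨qv, hinj, hqv, hfrob, hcount⟩ := hr n
  refine ⟨qv, hinj, hqv, hfrob, fun DQ B hB => ?_⟩
  obtain ⟨hfin, hcard⟩ := hcount DQ B hB
  -- facts about `v ∈ T`
  have hvT : ∀ v : ↥(primesIn T), ((v : Nat.Primes) : ℕ) ∈ T := fun v => mem_primesIn.1 v.2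
  have hvp : ∀ v : ↥(primesIn T), p ≠ ((v : Nat.Primes) : ℕ) := by
    intro v h
    exact (Finset.disjoint_left.1 hTdisj hpSmin) (h ▸ hvT v)
  have hur : ∀ v : ↥(primesIn T), ∀ s ∈ (primeLocalPlace (v : Nat.Primes)).inertiaSubgroupIn ℚ,
      B.rb s = 1 := by
    intro v s hs
    have hnot : ((v : Nat.Primes) : ℕ) ∉ Smin := fun h => Finset.disjoint_left.1 hTdisj h (hvT v)
    have hunr : ρbar.IsUnramifiedAt ((v : Nat.Primes) : ℕ) := by
      by_contra hc
      exact hnot ((hmin _ (v : Nat.Primes).2 (fun h => hvp v h.symm)).2 hc)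
    rw [Dict.resHom_apply, matOfRes_eq_one_iff]
    exact hunr _ (primeLocalPlace_liesOverPrime (v : Nat.Primes)) s hs
  -- the tame coordinates lie in the maximal ideal
  have hx₀ : ∀ s, tameCoord B p φ₀ s ∈ maximalIdeal DQ.R := by
    rintro ⟨v, b, i, j⟩
    cases b
    · change matOf DQ.ρ B.bR (globFrobAt (v : Nat.Primes)) i j -
        (if i = j then algebraMap 𝒪 DQ.R (φ₀ v) else 0) ∈ maximalIdeal DQ.R
      have hrb : B.rb (globFrobAt (v : Nat.Primes)) i j =
          residue 𝒪 (if i = j then φ₀ v else 0) := by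
        change resHom ρbar B.bbar _ i j = _
        rw [hB, hφ₀ v, Matrix.smul_apply, Matrix.one_apply, smul_eq_mul]
        split_ifs <;> simp
      have := Based_entry_sub_mem B (globFrobAt (v : Nat.Primes)) i j _ hrb
      rwa [apply_ite (algebraMap 𝒪 DQ.R), _root_.map_zero] at this
    · change matOf DQ.ρ B.bR (globGenAt (v : Nat.Primes) p) i j - (if i = j then 1 else 0) ∈
        maximalIdeal DQ.R
      have hrb : B.rb (globGenAt (v : Nat.Primes) p) i j =
          residue 𝒪 (if i = j then 1 else 0) := by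
        rw [hur v _ (globGenAt_mem_inertia (v : Nat.Primes) p), Matrix.one_apply]
        split_ifs <;> simp
      have := Based_entry_sub_mem B (globGenAt (v : Nat.Primes) p) i j _ hrb
      rwa [apply_ite (algebraMap 𝒪 DQ.R), _root_.map_zero, _root_.map_one] at this
  -- tangent vectors killing the tame coordinates lie in `relTan`
  have hW : ∀ φ : DQ.R →ₐ[𝒪] DualNumber (ResidueField 𝒪),
      (∀ s, φ (tameCoord B p φ₀ s) = 0) → φ ∈ relTan B (primesIn T) := by
    intro φ hφ v hv g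
    have hΦ : B.tanCocycle φ (globFrobAt v) = 0 := by
      apply Based_tanCocycle_eq_zero
      intro i j
      have h1 := hφ (⟨v, hv⟩, false, i, j)
      change φ (matOf DQ.ρ B.bR (globFrobAt v) i j -
        (if i = j then algebraMap 𝒪 DQ.R (φ₀ ⟨v, hv⟩) else 0)) = 0 at h1
      rw [map_sub, sub_eq_zero] at h1
      rw [h1]
      split_ifs
      · rw [AlgHom.commutes, dualNumberAlgebra_algebraMap_apply, TrivSqZeroExt.snd_inl]
      · rw [_root_.map_zero, TrivSqZeroExt.snd_zero]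
    have hSig : B.tanCocycle φ (globGenAt v p) = 0 := by
      apply Based_tanCocycle_eq_zero
      intro i j
      have h1 := hφ (⟨v, hv⟩, true, i, j)
      change φ (matOf DQ.ρ B.bR (globGenAt v p) i j - (if i = j then 1 else 0)) = 0 at h1
      rw [map_sub, sub_eq_zero] at h1
      rw [h1]
      split_ifs
      · rw [_root_.map_one, TrivSqZeroExt.snd_one]
      · rw [_root_.map_zero, TrivSqZeroExt.snd_zero]
    exact cocycle_vanishes_of_tame p B.rb (B.tanCocycle φ) (B.isCocycle_tanCocycle φ)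
      (B.isSmoothCochain_tanCocycle φ) v (hvp ⟨v, hv⟩) (hur ⟨v, hv⟩) hΦ hSig g
  -- the count
  haveI := hfin
  have hne : Nonempty (relTan B (primesIn T)) := by
    refine ⟨⟨trivTangent, fun v _ g => ?_⟩⟩
    rw [B.tanCocycle_trivTangent]
    rfl
  have hpos : 0 < Nat.card (relTan B (primesIn T)) := Nat.card_pos
  have hκ : 1 < Nat.card (ResidueField 𝒪) := Finite.one_lt_card
  have hle : 3 * (primesIn T).card ≤ r := by
    have h1 : Nat.card (ResidueField 𝒪) ^ (3 * (primesIn T).card) ≤ Nat.card (ResidueField 𝒪) ^ r :=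
      le_trans (Nat.le_mul_of_pos_left _ hpos) hcard
    exact (Nat.pow_le_pow_iff_right hκ).1 h1
  have hcard' : Nat.card (relTan B (primesIn T)) ≤
      Nat.card (ResidueField 𝒪) ^ (r - 3 * (primesIn T).card) := by
    have h2 : Nat.card (ResidueField 𝒪) ^ r = Nat.card (ResidueField 𝒪) ^ (r - 3 * (primesIn T).card) *
        Nat.card (ResidueField 𝒪) ^ (3 * (primesIn T).card) := by
      rw [← pow_add, Nat.sub_add_cancel hle]
    rw [h2] at hcard
    exact Nat.le_of_mul_le_mul_right hcard (pow_pos (by omega) _)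
  refine ⟨hle, ?_⟩
  obtain ⟨γ, hγs, hγ⟩ := exists_surjective_rel DQ.residue_surjective (tameCoord B p φ₀) hx₀
    (r - 3 * (primesIn T).card) (relTan B (primesIn T)) (Set.toFinite _) hW hcard'
  exact ⟨γ, hγs, fun v i j => hγ (v, false, i, j), fun v i j => hγ (v, true, i, j)⟩

end

end Fermat.Agent.S43lib.B3
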