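/-
S43lib / B3 / HeckeType (helper4): **the Hecke representation at a level prime to `p` is of flat type.**

For a Hecke datum `H` of level `N` (`p ∤ N`) with Hecke set `S ∋ p` containing the primes of `N`:
* `heckeDatum_detIsCyclotomic` : `det H.ρ` is the `p`-adic cyclotomic character (weak Chebotarev, `S35lib.Gal`);
* `heckeDatum_flatCondition`   : `GaloisRep.flatCondition 𝒪 p S H.ρ` (S31 + S32);
* `heckeDatum_𝒟fl`             : `𝒟fl 𝒪 p Smin S H.ρ` if every `q ∈ Smin`, `q ≠ p`, divides `N` exactly once or lies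
                                  outside `S` (S34).
-/
import Mathlib
import Fermat.Agent.S31
import Fermat.Agent.S32
import Fermat.Agent.S34
import Fermat.Agent.S35lib.Gal.DetCyclo
import Fermat.Agent.S56lib.Main.Final

set_option autoImplicit false
set_option linter.unusedSectionVars false
set_option linter.style.haveILetI false

noncomputable section

namespace Fermat.Agent.S43lib.B3

open IsLocalRing Polynomial Fermat.Agent.S29lib.S30 Fermat.Agent.S56lib.Main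

local notation "Qb" => AlgebraicClosure ℚ

section Chi

variable (p : ℕ) [hpf : Fact p.Prime] {O : Type*} [CommRing O] (I : Ideal O) [IsAdicComplete I O]
  (hpI : (p : O) ∈ I)

/-- if `σ` acts on the `p^n`-th roots of unity through the `a`-th power, then `χ(σ) ≡ a` modulo `p^n` -/
theorem chiAdic_sub_natCast_mem_span (σ : Qb ≃ₐ[ℚ] Qb) (n a : ℕ)
    (ha : ∀ μ : Qb, μ ^ p ^ n = 1 → σ μ = μ ^ a) :
    ((chiAdic p I hpI σ : Oˣ) : O) - (a : O) ∈ Ideal.span {((p ^ n : ℕ) : O)} := by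
  have hp : p.Prime := hpf.out
  haveI : NeZero (p ^ n) := ⟨pow_ne_zero _ hp.ne_zero⟩
  obtain ⟨ζ, hζ⟩ := HasEnoughRootsOfUnity.exists_primitiveRoot Qb (p ^ n)
  set c := PadicInt.toZModPow n ((chiZp p σ : ℤ_[p]ˣ) : ℤ_[p]) with hc
  have h1 : ζ ^ c.val = ζ ^ (a % p ^ n) := by
    rw [← chiZp_spec p σ hζ.pow_eq_one, ha ζ hζ.pow_eq_one]
    conv_lhs => rw [← Nat.mod_add_div a (p ^ n), pow_add, pow_mul, hζ.pow_eq_one, one_pow, mul_one]
  have h2 : c.val = a % p ^ n :=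
    hζ.pow_inj (ZMod.val_lt c) (Nat.mod_lt _ (pow_pos hp.pos n)) h1
  have h3 : c = (a : ZMod (p ^ n)) := by
    rw [← ZMod.natCast_zmod_val c, h2, ZMod.natCast_mod]
  have h4 : ((chiZp p σ : ℤ_[p]ˣ) : ℤ_[p]) - (a : ℤ_[p]) ∈ RingHom.ker (PadicInt.toZModPow (p := p) n) := by
    rw [RingHom.mem_ker, map_sub, map_natCast, ← hc, h3, sub_self]
  rw [PadicInt.ker_toZModPow, Ideal.mem_span_singleton] at h4
  obtain ⟨y, hy⟩ := h4
  rw [Ideal.mem_span_singleton]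
  refine ⟨padicToRing p I hpI y, ?_⟩
  rw [coe_chiAdic, ← map_natCast (padicToRing p I hpI) a, ← map_sub, hy, map_mul, map_pow, map_natCast,
    Nat.cast_pow]

end Chi

section Hecke

variable {p : ℕ} {N : ℕ} [NeZero N] {S : Finset ℕ}
  {𝒪 : Type} [CommRing 𝒪] [IsDomain 𝒪] [IsDiscreteValuationRing 𝒪]
  [IsAdicComplete (maximalIdeal 𝒪) 𝒪]
  {θ : CuspForm.heckeAlgebra N 2 (↑S : Set ℕ) →+* ResidueField 𝒪}
  {T : Type} [CommRing T] [IsLocalRing T] [IsNoetherianRing T]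
  [IsAdicComplete (maximalIdeal T) T] [Algebra 𝒪 T] [IsLocalHom (algebraMap 𝒪 T)]
  [Module.Finite 𝒪 T] [Module.Free 𝒪 T]

/-- `p` lies in the maximal ideal of `T` -/
theorem natCast_mem_maximalIdeal_of_algebra (hp𝒪 : (p : 𝒪) ∈ maximalIdeal 𝒪) :
    (p : T) ∈ maximalIdeal T := by
  have := map_nonunit (algebraMap 𝒪 T) _ hp𝒪
  rwa [map_natCast] at this

/-- **the determinant of the Hecke representation is the cyclotomic character** -/
theorem heckeDatum_detIsCyclotomic (hp : p.Prime) (hp𝒪 : (p : 𝒪) ∈ maximalIdeal 𝒪)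
    (hNS : ∀ q : ℕ, q.Prime → q ∣ N → q ∈ S)
    (H : CuspForm.HeckeGaloisRepDatum N (↑S : Set ℕ) 𝒪 θ T) : H.ρ.DetIsCyclotomic p := by
  haveI : Fact p.Prime := ⟨hp⟩
  have hpT : (p : T) ∈ maximalIdeal T := natCast_mem_maximalIdeal_of_algebra hp𝒪
  refine ⟨hpT, fun n σ a ha => ?_⟩
  have hchar : ∀ ℓ : ℕ, ℓ.Prime → ℓ ∉ S → ∀ A : ValuationSubring Qb, A.LiesOverPrime ℓ →
      ∀ φ : Qb ≃ₐ[ℚ] Qb, A.IsFrobeniusAt φ ℓ →
        ∃ t : T, LinearMap.charpoly (H.ρ.ρ φ) = X ^ 2 - C t * X + C (ℓ : T) := by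
    intro ℓ hℓ hℓS A hA φ hφ
    have hℓN : ¬ ℓ ∣ N := fun h => hℓS (hNS ℓ hℓ h)
    exact ⟨_, H.charpoly_frob ℓ hℓ hℓN (by simpa using hℓS) A hA φ hφ⟩
  rw [Fermat.Agent.S35lib.Gal.det_eq_chiAdic p hpT H.ρ S hchar σ]
  exact chiAdic_sub_natCast_mem_span p (maximalIdeal T) hpT σ n a ha

/-- **the Hecke representation at a level prime to `p` satisfies the flat condition** -/
theorem heckeDatum_flatCondition [Finite (ResidueField 𝒪)] [CharZero 𝒪]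
    (hp : p.Prime) (hp2 : p ≠ 2) (hp𝒪 : (p : 𝒪) ∈ maximalIdeal 𝒪) (hpN : ¬ p ∣ N)
    (hpS : p ∈ S) (hNS : ∀ q : ℕ, q.Prime → q ∣ N → q ∈ S)
    (H : CuspForm.HeckeGaloisRepDatum N (↑S : Set ℕ) 𝒪 θ T) :
    GaloisRep.flatCondition 𝒪 p S H.ρ :=
  ⟨heckeDatum_detIsCyclotomic hp hp𝒪 hNS H,
    Fermat.Agent.S32.result hp hp2 hp𝒪 hpN hpS hNS H,
    fun q hq hqS => Fermat.Agent.S31.result hp hp𝒪 hpS hNS H q hq hqS⟩

/-- an unramified representation is unipotent on inertia -/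
theorem isUnipotentOnInertiaAt_of_isUnramifiedAt {A : Type} [CommRing A] [IsLocalRing A]
    (ρ : GaloisRepAdic A) (q : ℕ) (h : ρ.IsUnramifiedAt q) : ρ.IsUnipotentOnInertiaAt q := by
  intro P hP σ hσ
  rw [h P hP σ hσ, LinearMap.charpoly_one, ρ.finrank_eq]

/-- **the Hecke representation at a level prime to `p` is of the flat type `𝒟fl`** -/
theorem heckeDatum_𝒟fl [Finite (ResidueField 𝒪)] [CharZero 𝒪]
    (hp : p.Prime) (hp2 : p ≠ 2) (hp𝒪 : (p : 𝒪) ∈ maximalIdeal 𝒪) (hpN : ¬ p ∣ N)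
    (hpS : p ∈ S) (hNS : ∀ q : ℕ, q.Prime → q ∣ N → q ∈ S)
    (H : CuspForm.HeckeGaloisRepDatum N (↑S : Set ℕ) 𝒪 θ T) (Smin : Finset ℕ)
    (hSmin : ∀ q ∈ Smin, q.Prime → q ≠ p → (q ∣ N ∧ ¬ q ^ 2 ∣ N) ∨ q ∉ S) :
    𝒟fl 𝒪 p Smin S H.ρ := by
  refine ⟨heckeDatum_flatCondition hp hp2 hp𝒪 hpN hpS hNS H, fun q hqS hq hqp => ?_⟩
  rcases hSmin q hqS hq hqp with ⟨h1, h2⟩ | h
  · exact Fermat.Agent.S34.result hp hp𝒪 hpS hNS H q hq hqp h1 h2
  · exact isUnipotentOnInertiaAt_of_isUnramifiedAt _ q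
      (Fermat.Agent.S31.result hp hp𝒪 hpS hNS H q hq h)

end Hecke

end Fermat.Agent.S43lib.B3
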