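/-
S43lib / B3 / HeckeTr (helper4): **the family of trace rings given by the localised Hecke algebras.**

For a Hecke–Galois datum `H : CuspForm.HeckeGaloisRepDatum N S 𝒪 θ T` (`T` the localised Hecke algebra, `ρ = H.ρ`):

* `heckeDatum_trace_frob` : `tr ρ(Frob_ℓ) = π(T_ℓ)` at the good primes;
* `heckeDatum_trace_gen` : `T` is generated by the traces of `ρ` (two `𝒪`-algebra maps out of `T` agreeing on all
  traces are equal);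
* `heckeDatum_residual_isEquiv` : if `θ(T_ℓ) = a_ℓ` off a finite set, with `a_ℓ` the Frobenius traces of an absolutely
  irreducible `ρ₀ : G_ℚ → GL₂(𝔽_p)`, then the residual representation of `ρ` is the base change of `ρ₀`
  (weak Chebotarev + Brauer–Nesbitt);
* `heckeTrOf` : the `Mod4.TrRing` of a Hecke datum;
* `heckeTr` : the family `S' ↦ heckeTrOf (H S')` for a level function `lvl` and a family of characters `θ S'`.
-/
import Mathlib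
import Fermat.Agent.S43lib.B2.Main
import Fermat.Agent.S43lib.B2.DatumPi
import Fermat.Agent.S43lib.Mod4.Gal
import Fermat.Agent.S43lib.B3.HeckeType
import Fermat.Agent.S43lib.Loc.BrauerNesbitt2
import Fermat.Agent.S43lib.BigImg.FreyResidual

set_option autoImplicit false
set_option linter.unusedSectionVars false
set_option linter.unusedVariables false
set_option linter.style.haveILetI false

noncomputable section

namespace Fermat.Agent.S43lib.B3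

open IsLocalRing Polynomial CuspForm Fermat.Agent.S56lib.Main Fermat.Agent.S58lib.Cmp

local notation "Qb" => AlgebraicClosure ℚ

/-! ### generalities on a Hecke datum -/

section Datum

variable {p : ℕ} {N : ℕ} [NeZero N] {S : Finset ℕ}
  {𝒪 : Type} [CommRing 𝒪] [IsDomain 𝒪] [IsDiscreteValuationRing 𝒪]
  [IsAdicComplete (maximalIdeal 𝒪) 𝒪]
  {θ : heckeAlgebra N 2 (↑S : Set ℕ) →+* ResidueField 𝒪}
  {T : Type} [CommRing T] [IsLocalRing T] [IsNoetherianRing T]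
  [IsAdicComplete (maximalIdeal T) T] [Algebra 𝒪 T] [IsLocalHom (algebraMap 𝒪 T)]
  [Module.Finite 𝒪 T] [Module.Free 𝒪 T]

/-- the trace from a quadratic characteristic polynomial -/
theorem trace_eq_of_charpoly {R : Type*} [CommRing R] [Nontrivial R] {V : Type*} [AddCommGroup V]
    [Module R V] [Module.Free R V] [Module.Finite R V] (hrank : Module.finrank R V = 2)
    (f : Module.End R V) {t d : R} (hf : LinearMap.charpoly f = X ^ 2 - C t * X + C d) :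
    LinearMap.trace R V f = t := by
  have h1 := Fermat.Agent.S34lib.charpoly_eq_of_finrank_two hrank f
  rw [hf] at h1
  have h2 := congrArg (fun q : R[X] => q.coeff 1) h1
  simp only [coeff_add, coeff_sub, coeff_X_pow, coeff_C_mul, coeff_X_one, coeff_C] at h2
  norm_num at h2
  exact h2.symm

/-- **`tr ρ(Frob_ℓ) = T_ℓ`** -/
theorem heckeDatum_trace_frob (H : HeckeGaloisRepDatum N (↑S : Set ℕ) 𝒪 θ T)
    (ℓ : ℕ) (hℓ : ℓ.Prime) (hℓN : ¬ ℓ ∣ N) (hℓS : ℓ ∉ (↑S : Set ℕ))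
    (A : ValuationSubring Qb) (hA : A.LiesOverPrime ℓ) (σ : Qb ≃ₐ[ℚ] Qb) (hσ : A.IsFrobeniusAt σ ℓ) :
    H.ρ.trace σ = H.π (heckeAlgebra.T hℓ hℓN hℓS) :=
  trace_eq_of_charpoly H.ρ.finrank_eq (H.ρ.ρ σ) (H.charpoly_frob ℓ hℓ hℓN hℓS A hA σ hσ)

/-- two ring homomorphisms out of `T` agreeing on the `π(T_ℓ)` agree on the image of `π` -/
theorem eq_on_range_π_of_eq_on_T (H : HeckeGaloisRepDatum N (↑S : Set ℕ) 𝒪 θ T)
    (hS : ∀ q : ℕ, q.Prime → q ∣ N → q ∈ S)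
    {A : Type*} [CommRing A] (φ φ' : T →+* A)
    (hT : ∀ (ℓ : ℕ) (hℓ : ℓ.Prime) (hℓN : ¬ ℓ ∣ N) (hℓS : ℓ ∉ (↑S : Set ℕ)),
      φ (H.π (heckeAlgebra.T hℓ hℓN hℓS)) = φ' (H.π (heckeAlgebra.T hℓ hℓN hℓS)))
    (t : heckeAlgebra N 2 (↑S : Set ℕ)) : φ (H.π t) = φ' (H.π t) := by
  obtain ⟨x, hx⟩ := t
  induction hx using Algebra.adjoin_induction with
  | mem x hx =>
    rcases hx with ⟨ℓ, hℓ, hℓN, hℓS, rfl⟩ | ⟨q, hqN, hq, hqS, rfl⟩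
    · exact hT ℓ hℓ hℓN hℓS
    · exact absurd (Finset.mem_coe.mpr (hS q hq hqN)) hqS
  | algebraMap r =>
    have : (⟨algebraMap ℤ _ r, Subalgebra.algebraMap_mem _ r⟩ : heckeAlgebra N 2 (↑S : Set ℕ))
        = ((r : ℤ) : heckeAlgebra N 2 (↑S : Set ℕ)) := by
      apply Subtype.ext
      simp
    rw [this, map_intCast, map_intCast, map_intCast]
  | add x y hx hy ihx ihy =>
    have : (⟨x + y, Subalgebra.add_mem _ hx hy⟩ : heckeAlgebra N 2 (↑S : Set ℕ))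
        = ⟨x, hx⟩ + ⟨y, hy⟩ := rfl
    rw [this, map_add, map_add, map_add, ihx, ihy]
  | mul x y hx hy ihx ihy =>
    have : (⟨x * y, Subalgebra.mul_mem _ hx hy⟩ : heckeAlgebra N 2 (↑S : Set ℕ))
        = ⟨x, hx⟩ * ⟨y, hy⟩ := rfl
    rw [this, map_mul, map_mul, map_mul, ihx, ihy]

/-- **`T` is generated by the traces.** -/
theorem heckeDatum_trace_gen (H : HeckeGaloisRepDatum N (↑S : Set ℕ) 𝒪 θ T)
    (hS : ∀ q : ℕ, q.Prime → q ∣ N → q ∈ S)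
    (A : Type) [CommRing A] [Algebra 𝒪 A] (φ φ' : T →ₐ[𝒪] A)
    (h : ∀ σ : Qb ≃ₐ[ℚ] Qb, φ (H.ρ.trace σ) = φ' (H.ρ.trace σ)) : φ = φ' := by
  apply AlgHom.ext_of_adjoin_eq_top H.adjoin_range_π
  rintro _ ⟨t, rfl⟩
  refine eq_on_range_π_of_eq_on_T H hS (φ : T →+* A) (φ' : T →+* A) ?_ t
  intro ℓ hℓ hℓN hℓS
  obtain ⟨P, σ, hP, hσ⟩ := Fermat.Agent.Helper5.exists_isFrobeniusAt ℓ hℓ
  have h1 := h σ
  rw [heckeDatum_trace_frob H ℓ hℓ hℓN hℓS P hP σ hσ] at h1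
  exact h1

end Datum

/-! ### the residual representation of a Hecke datum -/

section Residual

/-- characteristic polynomials under `ResidualGaloisRep.baseChange` -/
theorem charpoly_res_baseChange {k k' : Type} [Field k] [Field k'] [Algebra k k']
    (ρ : ResidualGaloisRep k) (σ : Qb ≃ₐ[ℚ] Qb) :
    LinearMap.charpoly ((ρ.baseChange k').ρ σ) = (LinearMap.charpoly (ρ.ρ σ)).map (algebraMap k k') :=
  LinearMap.charpoly_baseChange (A := k') (ρ.ρ σ)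

/-- characteristic polynomials under `ResidualGaloisRep.baseChangeAlong` -/
theorem charpoly_res_baseChangeAlong {k k' : Type} [Field k] [Field k'] (f : k →+* k')
    (ρ : ResidualGaloisRep k) (σ : Qb ≃ₐ[ℚ] Qb) :
    LinearMap.charpoly ((ρ.baseChangeAlong f).ρ σ) = (LinearMap.charpoly (ρ.ρ σ)).map f := by
  letI : Algebra k k' := f.toAlgebra
  exact charpoly_res_baseChange (k' := k') ρ σ

variable {p : ℕ} [hpf : Fact p.Prime] {N : ℕ} [NeZero N] {S : Finset ℕ}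
  {𝒪 : Type} [CommRing 𝒪] [IsDomain 𝒪] [IsDiscreteValuationRing 𝒪]
  [IsAdicComplete (maximalIdeal 𝒪) 𝒪] [Algebra (ZMod p) (ResidueField 𝒪)]
  {θ : heckeAlgebra N 2 (↑S : Set ℕ) →+* ResidueField 𝒪}
  {T : Type} [CommRing T] [IsLocalRing T] [IsNoetherianRing T]
  [IsAdicComplete (maximalIdeal T) T] [Algebra 𝒪 T] [IsLocalHom (algebraMap 𝒪 T)]
  [Module.Finite 𝒪 T] [Module.Free 𝒪 T]

/-- **the residual representation of a Hecke datum has the characteristic polynomials of `ρ₀`** -/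
theorem heckeDatum_residual_charpoly (H : HeckeGaloisRepDatum N (↑S : Set ℕ) 𝒪 θ T)
    (ρ₀ : ResidualGaloisRep (ZMod p)) (a : ℕ → ℤ) (S₀ : Finset ℕ)
    (h₀ : ∀ ℓ : ℕ, ℓ.Prime → ℓ ∉ S₀ → ∀ A : ValuationSubring Qb, A.LiesOverPrime ℓ →
      ∀ φ : Qb ≃ₐ[ℚ] Qb, A.IsFrobeniusAt φ ℓ →
        LinearMap.charpoly (ρ₀.ρ φ) =
          X ^ 2 - C ((a ℓ : ℤ) : ZMod p) * X + C ((ℓ : ℕ) : ZMod p))
    (hθ : ∀ (ℓ : ℕ) (hℓ : ℓ.Prime) (hℓN : ¬ ℓ ∣ N) (hℓS : ℓ ∉ (↑S : Set ℕ)), ℓ ∉ S₀ →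
      θ (heckeAlgebra.T hℓ hℓN hℓS) = ((a ℓ : ℤ) : ResidueField 𝒪))
    (σ : Qb ≃ₐ[ℚ] Qb) :
    LinearMap.charpoly (H.ρ.residual.ρ σ) =
      LinearMap.charpoly (((ρ₀.baseChange (ResidueField 𝒪)).baseChangeAlong
        (ResidueField.map (algebraMap 𝒪 T))).ρ σ) := by
  classical
  have hN0 : N ≠ 0 := NeZero.ne N
  let S₁ : Finset ℕ := S₀ ∪ S ∪ N.primeFactors
  have hS₀ : ∀ ℓ, ℓ ∉ S₁ → ℓ ∉ S₀ := fun ℓ h hm => h (by simp [S₁, hm])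
  have hS : ∀ ℓ, ℓ ∉ S₁ → ℓ ∉ (↑S : Set ℕ) := fun ℓ h hm =>
    h (by simp only [S₁, Finset.mem_union]; exact Or.inl (Or.inr (Finset.mem_coe.mp hm)))
  have hNd : ∀ ℓ, ℓ.Prime → ℓ ∉ S₁ → ¬ ℓ ∣ N := fun ℓ hℓ h hd =>
    h (by
      simp only [S₁, Finset.mem_union]
      exact Or.inr (Nat.mem_primeFactors.mpr ⟨hℓ, hd, hN0⟩))
  haveI := isHausdorff_maximalIdeal_field (ResidueField T)
  refine charpoly_eq_of_frobenius
    (GaloisRepAdic.ofResidualGaloisRep ((ρ₀.baseChange (ResidueField 𝒪)).baseChangeAlong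
        (ResidueField.map (algebraMap 𝒪 T))))
    (GaloisRepAdic.ofResidualGaloisRep H.ρ.residual) S₁ ?_ σ
  intro ℓ hℓ hℓS B hB φ hφ
  show LinearMap.charpoly (H.ρ.residual.ρ φ) =
    LinearMap.charpoly (((ρ₀.baseChange (ResidueField 𝒪)).baseChangeAlong
        (ResidueField.map (algebraMap 𝒪 T))).ρ φ)
  rw [charpoly_res_baseChangeAlong, charpoly_res_baseChange, h₀ ℓ hℓ (hS₀ ℓ hℓS) B hB φ hφ,
    map_quad_int, map_quad_int]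
  show LinearMap.charpoly ((H.ρ.ρ φ).baseChange (ResidueField T)) = _
  rw [LinearMap.charpoly_baseChange, H.charpoly_frob ℓ hℓ (hNd ℓ hℓ hℓS) (hS ℓ hℓS) B hB φ hφ]
  simp only [Polynomial.map_add, Polynomial.map_sub, Polynomial.map_mul, Polynomial.map_pow,
    Polynomial.map_X, Polynomial.map_C]
  rw [show algebraMap T (ResidueField T) = residue T from rfl, H.residue_π,
    hθ ℓ hℓ (hNd ℓ hℓ hℓS) (hS ℓ hℓS) (hS₀ ℓ hℓS), map_intCast, map_natCast]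

/-- **the residual representation of a Hecke datum is the base change of `ρ₀`** -/
theorem heckeDatum_residual_isEquiv (H : HeckeGaloisRepDatum N (↑S : Set ℕ) 𝒪 θ T)
    (ρ₀ : ResidualGaloisRep (ZMod p)) (a : ℕ → ℤ) (S₀ : Finset ℕ)
    (h₀ : ∀ ℓ : ℕ, ℓ.Prime → ℓ ∉ S₀ → ∀ A : ValuationSubring Qb, A.LiesOverPrime ℓ →
      ∀ φ : Qb ≃ₐ[ℚ] Qb, A.IsFrobeniusAt φ ℓ →
        LinearMap.charpoly (ρ₀.ρ φ) =
          X ^ 2 - C ((a ℓ : ℤ) : ZMod p) * X + C ((ℓ : ℕ) : ZMod p))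
    (hθ : ∀ (ℓ : ℕ) (hℓ : ℓ.Prime) (hℓN : ¬ ℓ ∣ N) (hℓS : ℓ ∉ (↑S : Set ℕ)), ℓ ∉ S₀ →
      θ (heckeAlgebra.T hℓ hℓN hℓS) = ((a ℓ : ℤ) : ResidueField 𝒪)) :
    H.ρ.residual.IsEquiv ((ρ₀.baseChange (ResidueField 𝒪)).baseChangeAlong
      (ResidueField.map (algebraMap 𝒪 T))) :=
  Fermat.Agent.S43lib.Loc.res_isEquiv_of_charpoly_eq _ _ H.residual_absIrr
    (heckeDatum_residual_charpoly H ρ₀ a S₀ h₀ hθ)

end Residual

/-! ### the trace ring of a Hecke datum -/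

section TrRing

variable {p : ℕ} [hpf : Fact p.Prime] {N : ℕ} [NeZero N] {S : Finset ℕ}
  {𝒪 : Type} [CommRing 𝒪] [IsDomain 𝒪] [IsDiscreteValuationRing 𝒪]
  [IsAdicComplete (maximalIdeal 𝒪) 𝒪] [Finite (ResidueField 𝒪)] [CharZero 𝒪]
  [Algebra (ZMod p) (ResidueField 𝒪)]
  {θ : heckeAlgebra N 2 (↑S : Set ℕ) →+* ResidueField 𝒪}
  {T : Type} [CommRing T] [IsLocalRing T] [IsNoetherianRing T]
  [IsAdicComplete (maximalIdeal T) T] [Algebra 𝒪 T] [IsLocalHom (algebraMap 𝒪 T)]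
  [Module.Finite 𝒪 T] [Module.Free 𝒪 T]

/-- **the trace ring of a Hecke datum** at a level prime to `p` -/
def heckeTrOf (hp2 : p ≠ 2) (hp𝒪 : (p : 𝒪) ∈ maximalIdeal 𝒪) (hpN : ¬ p ∣ N) (hpS : p ∈ S)
    (hNS : ∀ q : ℕ, q.Prime → q ∣ N → q ∈ S)
    (H : HeckeGaloisRepDatum N (↑S : Set ℕ) 𝒪 θ T) (Smin : Finset ℕ)
    (hSmin : ∀ q ∈ Smin, q.Prime → q ≠ p → (q ∣ N ∧ ¬ q ^ 2 ∣ N) ∨ q ∉ S)
    (ρ₀ : ResidualGaloisRep (ZMod p)) (a : ℕ → ℤ) (S₀ : Finset ℕ)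
    (h₀ : ∀ ℓ : ℕ, ℓ.Prime → ℓ ∉ S₀ → ∀ A : ValuationSubring Qb, A.LiesOverPrime ℓ →
      ∀ φ : Qb ≃ₐ[ℚ] Qb, A.IsFrobeniusAt φ ℓ →
        LinearMap.charpoly (ρ₀.ρ φ) =
          X ^ 2 - C ((a ℓ : ℤ) : ZMod p) * X + C ((ℓ : ℕ) : ZMod p))
    (hθ : ∀ (ℓ : ℕ) (hℓ : ℓ.Prime) (hℓN : ¬ ℓ ∣ N) (hℓS : ℓ ∉ (↑S : Set ℕ)), ℓ ∉ S₀ →
      θ (heckeAlgebra.T hℓ hℓN hℓS) = ((a ℓ : ℤ) : ResidueField 𝒪)) :
    Fermat.Agent.S43lib.Mod4.TrRing 𝒪 (ρ₀.baseChange (ResidueField 𝒪)) p Smin S where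
  R := T
  residue_surjective := H.residue_surjective
  ρ := H.ρ
  isFl := heckeDatum_𝒟fl hpf.out hp2 hp𝒪 hpN hpS hNS H Smin hSmin
  residual_isEquiv := heckeDatum_residual_isEquiv H ρ₀ a S₀ h₀ hθ
  trace_gen := heckeDatum_trace_gen H hNS

end TrRing

/-! ### the family -/

section Family

open Fermat.Agent.S43lib.BigImg

/-- **The data of a family of Hecke characters lifting the mod `p` representation of the Frey curve**: a level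
function `lvl`, a predicate `good` on the ramification sets, and for every good `S'` a character
`θ S' : 𝕋(lvl S')^{S'} → k` with `θ(T_ℓ) = a_ℓ` off `S₀`, where the `a_ℓ ∈ ℤ` are Frobenius traces of `ρ̄`. -/
structure HeckeFam (𝒪 : Type) [CommRing 𝒪] [IsDomain 𝒪] [IsDiscreteValuationRing 𝒪]
    [IsAdicComplete (maximalIdeal 𝒪) 𝒪] (P : FreyPackage) [Fact P.p.Prime]
    (lvl : Finset ℕ → ℕ) [∀ S', NeZero (lvl S')] (good : Finset ℕ → Prop) (Smin : Finset ℕ) :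
    Type where
  hp2 : P.p ≠ 2
  hp𝒪 : (P.p : 𝒪) ∈ maximalIdeal 𝒪
  p_mem : ∀ S', good S' → P.p ∈ S'
  p_not_dvd : ∀ S', good S' → ¬ P.p ∣ lvl S'
  primes_mem : ∀ S', good S' → ∀ q : ℕ, q.Prime → q ∣ lvl S' → q ∈ S'
  hSmin : ∀ S', good S' → ∀ q ∈ Smin, q.Prime → q ≠ P.p →
    (q ∣ lvl S' ∧ ¬ q ^ 2 ∣ lvl S') ∨ q ∉ S'
  hirr : (freyRes P).IsIrreducible
  a : ℕ → ℤ
  S₀ : Finset ℕ
  h₀ : ∀ ℓ : ℕ, ℓ.Prime → ℓ ∉ S₀ → ∀ A : ValuationSubring Qb, A.LiesOverPrime ℓ →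
    ∀ φ : Qb ≃ₐ[ℚ] Qb, A.IsFrobeniusAt φ ℓ →
      LinearMap.charpoly ((freyRes P).ρ φ) =
        X ^ 2 - C ((a ℓ : ℤ) : ZMod P.p) * X + C ((ℓ : ℕ) : ZMod P.p)
  θ : ∀ S' : Finset ℕ, good S' → heckeAlgebra (lvl S') 2 (↑S' : Set ℕ) →+* ResidueField 𝒪
  hθ : ∀ (S' : Finset ℕ) (hS' : good S') (ℓ : ℕ) (hℓ : ℓ.Prime) (hℓN : ¬ ℓ ∣ lvl S')
    (hℓS : ℓ ∉ (↑S' : Set ℕ)), ℓ ∉ S₀ →
      θ S' hS' (heckeAlgebra.T hℓ hℓN hℓS) = ((a ℓ : ℤ) : ResidueField 𝒪)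

variable {𝒪 : Type} [CommRing 𝒪] [IsDomain 𝒪] [IsDiscreteValuationRing 𝒪]
  [IsAdicComplete (maximalIdeal 𝒪) 𝒪] [Finite (ResidueField 𝒪)] [CharZero 𝒪]
variable {P : FreyPackage} [hpf : Fact P.p.Prime] [Algebra (ZMod P.p) (ResidueField 𝒪)]
variable {lvl : Finset ℕ → ℕ} [∀ S', NeZero (lvl S')] {good : Finset ℕ → Prop} {Smin : Finset ℕ}

/-- the chosen Hecke–Galois datum at `S'` -/
def HeckeFam.H (D : HeckeFam 𝒪 P lvl good Smin) (S' : Finset ℕ) (hS' : good S') :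
    HeckeGaloisRepDatum (lvl S') (↑S' : Set ℕ) 𝒪 (D.θ S' hS')
      (heckeLocal (lvl S') (↑S' : Set ℕ) 𝒪 (D.θ S' hS')) :=
  Classical.choose (Fermat.Agent.S43lib.B2.exists_heckeGaloisRepDatum_π D.hp2 D.hp𝒪 (D.p_mem S' hS')
    (D.primes_mem S' hS') (D.θ S' hS') (freyRes P) D.hirr D.a D.S₀ D.h₀ (D.hθ S' hS'))

/-- the structure map of the chosen datum is the canonical map to the localised Hecke algebra -/
theorem HeckeFam.H_π (D : HeckeFam 𝒪 P lvl good Smin) (S' : Finset ℕ) (hS' : good S') :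
    (D.H S' hS').π = heckeLocal.π (lvl S') (↑S' : Set ℕ) 𝒪 (D.θ S' hS') :=
  Classical.choose_spec (Fermat.Agent.S43lib.B2.exists_heckeGaloisRepDatum_π D.hp2 D.hp𝒪
    (D.p_mem S' hS') (D.primes_mem S' hS') (D.θ S' hS') (freyRes P) D.hirr D.a D.S₀ D.h₀
    (D.hθ S' hS'))

/-- **HeckeTr: the family of trace rings** `S' ↦ (𝕋(lvl S')_{𝔪}, ρ_{S'})`. -/
def heckeTr (D : HeckeFam 𝒪 P lvl good Smin) (S' : Finset ℕ) (hS' : good S') :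
    Fermat.Agent.S43lib.Mod4.TrRing 𝒪 (freyResidual P (ResidueField 𝒪)) P.p Smin S' :=
  heckeTrOf D.hp2 D.hp𝒪 (D.p_not_dvd S' hS') (D.p_mem S' hS') (D.primes_mem S' hS') (D.H S' hS')
    Smin (D.hSmin S' hS') (freyRes P) D.a D.S₀ D.h₀ (D.hθ S' hS')

theorem heckeTr_R (D : HeckeFam 𝒪 P lvl good Smin) (S' : Finset ℕ) (hS' : good S') :
    (heckeTr D S' hS').R = heckeLocal (lvl S') (↑S' : Set ℕ) 𝒪 (D.θ S' hS') := rfl

theorem heckeTr_ρ (D : HeckeFam 𝒪 P lvl good Smin) (S' : Finset ℕ) (hS' : good S') :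
    (heckeTr D S' hS').ρ = (D.H S' hS').ρ := rfl

/-- the Frobenius traces of `ρ_{S'}` are the images of the `T_ℓ` under the CANONICAL map -/
theorem heckeTr_trace_frob (D : HeckeFam 𝒪 P lvl good Smin) (S' : Finset ℕ) (hS' : good S')
    (ℓ : ℕ) (hℓ : ℓ.Prime) (hℓN : ¬ ℓ ∣ lvl S') (hℓS : ℓ ∉ (↑S' : Set ℕ))
    (A : ValuationSubring Qb) (hA : A.LiesOverPrime ℓ) (σ : Qb ≃ₐ[ℚ] Qb)
    (hσ : A.IsFrobeniusAt σ ℓ) :
    (heckeTr D S' hS').ρ.trace σ =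
      heckeLocal.π (lvl S') (↑S' : Set ℕ) 𝒪 (D.θ S' hS') (heckeAlgebra.T hℓ hℓN hℓS) := by
  have h1 := heckeDatum_trace_frob (D.H S' hS') ℓ hℓ hℓN hℓS A hA σ hσ
  rw [D.H_π S' hS'] at h1
  exact h1

end Family

/-! ### the twisted levels -/

section Twisted

open Fermat.Agent.S43lib.BigImg

/-- the product of the primes of `S' ∖ {p, 2}` -/
def tp (p : ℕ) (S' : Finset ℕ) : ℕ := ∏ ℓ ∈ (S' \ {p, 2}).filter Nat.Prime, ℓ

/-- the twisted level at the ramification set `S'`: `2 · tp · tp`, `tp = ∏_{ℓ ∈ S' ∖ {p, 2}, ℓ prime} ℓ` (LITERALLY of the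
shape `N₁ * T * T`) -/
def lvlTw (p : ℕ) (S' : Finset ℕ) : ℕ := 2 * tp p S' * tp p S'

theorem lvlTw_def (p : ℕ) (S' : Finset ℕ) : lvlTw p S' = 2 * tp p S' * tp p S' := rfl

theorem tp_ne_zero (p : ℕ) (S' : Finset ℕ) : tp p S' ≠ 0 :=
  Finset.prod_ne_zero_iff.2 fun ℓ hℓ => (Finset.mem_filter.1 hℓ).2.ne_zero

instance tp_neZero (p : ℕ) (S' : Finset ℕ) : NeZero (tp p S') := ⟨tp_ne_zero p S'⟩

instance lvlTw_neZero (p : ℕ) (S' : Finset ℕ) : NeZero (lvlTw p S') :=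
  ⟨mul_ne_zero (mul_ne_zero two_ne_zero (tp_ne_zero p S')) (tp_ne_zero p S')⟩

theorem tp_eq (p : ℕ) (S' : Finset ℕ) (h : ∀ ℓ ∈ S', ℓ.Prime) : tp p S' = ∏ ℓ ∈ S' \ {p, 2}, ℓ := by
  unfold tp
  rw [Finset.filter_true_of_mem fun ℓ hℓ => h ℓ (Finset.mem_sdiff.1 hℓ).1]

theorem lvlTw_eq (p : ℕ) (S' : Finset ℕ) (h : ∀ ℓ ∈ S', ℓ.Prime) :
    lvlTw p S' = 2 * ∏ ℓ ∈ S' \ {p, 2}, ℓ ^ 2 := by
  rw [lvlTw_def, tp_eq p S' h, mul_assoc, ← Finset.prod_mul_distrib]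
  congr 1
  exact Finset.prod_congr rfl fun ℓ _ => (pow_two ℓ).symm

/-- the prime divisors of `tp` -/
theorem prime_dvd_tp {p q : ℕ} {S' : Finset ℕ} (hq : q.Prime) (h : q ∣ tp p S') :
    q ∈ S' ∧ q ∉ ({p, 2} : Finset ℕ) := by
  unfold tp at h
  obtain ⟨ℓ, hℓ, hdvd⟩ := (Prime.dvd_finsetProd_iff hq.prime _).1 h
  rw [Finset.mem_filter, Finset.mem_sdiff] at hℓ
  have h3 : q = ℓ := (Nat.prime_dvd_prime_iff_eq hq hℓ.2).1 hdvd
  subst h3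
  exact hℓ.1

theorem dvd_tp {p ℓ : ℕ} {S' : Finset ℕ} (hℓ : ℓ.Prime) (hS : ℓ ∈ S')
    (hne : ℓ ∉ ({p, 2} : Finset ℕ)) : ℓ ∣ tp p S' :=
  Finset.dvd_prod_of_mem (fun ℓ => ℓ)
    (Finset.mem_filter.2 ⟨Finset.mem_sdiff.2 ⟨hS, hne⟩, hℓ⟩)

/-- the prime divisors of the twisted level -/
theorem prime_dvd_lvlTw {p q : ℕ} {S' : Finset ℕ} (hq : q.Prime) (h : q ∣ lvlTw p S') :
    q = 2 ∨ (q ∈ S' ∧ q ∉ ({p, 2} : Finset ℕ)) := by
  rw [lvlTw_def] at h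
  rcases (Nat.Prime.dvd_mul hq).1 h with h2 | h2
  · rcases (Nat.Prime.dvd_mul hq).1 h2 with h3 | h3
    · exact Or.inl ((Nat.prime_dvd_prime_iff_eq hq Nat.prime_two).1 h3)
    · exact Or.inr (prime_dvd_tp hq h3)
  · exact Or.inr (prime_dvd_tp hq h2)

theorem two_dvd_lvlTw (p : ℕ) (S' : Finset ℕ) : 2 ∣ lvlTw p S' :=
  Dvd.intro _ (mul_assoc 2 (tp p S') (tp p S')).symm

theorem not_two_dvd_tp (p : ℕ) (S' : Finset ℕ) : ¬ 2 ∣ tp p S' := fun h =>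
  (prime_dvd_tp Nat.prime_two h).2 (by simp)

theorem not_four_dvd_lvlTw (p : ℕ) (S' : Finset ℕ) : ¬ 2 ^ 2 ∣ lvlTw p S' := by
  intro h
  rw [lvlTw_def, mul_assoc, pow_two, Nat.mul_dvd_mul_iff_left two_pos] at h
  rcases (Nat.Prime.dvd_mul Nat.prime_two).1 h with h2 | h2 <;> exact not_two_dvd_tp p S' h2

/-- the good ramification sets: finite sets of primes containing `{p, 2} ∪ T` -/
def goodTw (p : ℕ) (T : Finset ℕ) (S' : Finset ℕ) : Prop :=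
  {p, 2} ∪ T ⊆ S' ∧ ∀ ℓ ∈ S', ℓ.Prime

theorem goodTw_p_mem {p : ℕ} {T S' : Finset ℕ} (hS' : goodTw p T S') : p ∈ S' :=
  hS'.1 (by simp)

theorem goodTw_p_not_dvd {p : ℕ} (hp : p.Prime) (hp2 : p ≠ 2) (S' : Finset ℕ) :
    ¬ p ∣ lvlTw p S' := by
  intro h
  rcases prime_dvd_lvlTw hp h with h1 | h1
  · exact hp2 h1
  · exact h1.2 (by simp)

theorem goodTw_primes_mem {p : ℕ} {T S' : Finset ℕ} (hS' : goodTw p T S') (q : ℕ) (hq : q.Prime)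
    (h : q ∣ lvlTw p S') : q ∈ S' := by
  rcases prime_dvd_lvlTw hq h with h1 | h1
  · rw [h1]
    exact hS'.1 (by simp)
  · exact h1.1

theorem goodTw_hSmin (p : ℕ) (S' : Finset ℕ) (q : ℕ) (hq : q ∈ ({p, 2} : Finset ℕ)) (hne : q ≠ p) :
    (q ∣ lvlTw p S' ∧ ¬ q ^ 2 ∣ lvlTw p S') ∨ q ∉ S' := by
  rw [Finset.mem_insert, Finset.mem_singleton] at hq
  rcases hq with h1 | h1
  · exact absurd h1 hne
  · rw [h1]
    exact Or.inl ⟨two_dvd_lvlTw _ _, not_four_dvd_lvlTw _ _⟩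

/-- irreducibility of `E[p]` in the vocabulary of `ResidualGaloisRep` -/
theorem freyRes_isIrreducible (P : FreyPackage) [Fact P.p.Prime]
    (hirr : WeierstrassCurve.Affine.Point.GaloisRepIsIrreducible (K := Qb) ℚ P.freyCurve P.p) :
    (freyRes P).IsIrreducible :=
  fun W hW => hirr.2 W (fun σ x hx => hW σ x hx)

/-- **the family at the twisted levels** `lvlTw p S'`, `S' ⊇ {p, 2} ∪ T` a finite set of primes, `Smin = {p, 2}`. -/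
def HeckeFam.ofTw {𝒪 : Type} [CommRing 𝒪] [IsDomain 𝒪] [IsDiscreteValuationRing 𝒪]
    [IsAdicComplete (maximalIdeal 𝒪) 𝒪] (P : FreyPackage) [Fact P.p.Prime] (T : Finset ℕ)
    (hp2 : P.p ≠ 2) (hp𝒪 : (P.p : 𝒪) ∈ maximalIdeal 𝒪) (hirr : (freyRes P).IsIrreducible)
    (a : ℕ → ℤ) (S₀ : Finset ℕ)
    (h₀ : ∀ ℓ : ℕ, ℓ.Prime → ℓ ∉ S₀ → ∀ A : ValuationSubring Qb, A.LiesOverPrime ℓ →
      ∀ φ : Qb ≃ₐ[ℚ] Qb, A.IsFrobeniusAt φ ℓ →
        LinearMap.charpoly ((freyRes P).ρ φ) =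
          X ^ 2 - C ((a ℓ : ℤ) : ZMod P.p) * X + C ((ℓ : ℕ) : ZMod P.p))
    (θ : ∀ S' : Finset ℕ, goodTw P.p T S' →
      heckeAlgebra (lvlTw P.p S') 2 (↑S' : Set ℕ) →+* ResidueField 𝒪)
    (hθ : ∀ (S' : Finset ℕ) (hS' : goodTw P.p T S') (ℓ : ℕ) (hℓ : ℓ.Prime)
      (hℓN : ¬ ℓ ∣ lvlTw P.p S') (hℓS : ℓ ∉ (↑S' : Set ℕ)), ℓ ∉ S₀ →
        θ S' hS' (heckeAlgebra.T hℓ hℓN hℓS) = ((a ℓ : ℤ) : ResidueField 𝒪)) :
    HeckeFam 𝒪 P (lvlTw P.p) (goodTw P.p T) {P.p, 2} where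
  hp2 := hp2
  hp𝒪 := hp𝒪
  p_mem S' hS' := goodTw_p_mem hS'
  p_not_dvd S' _ := goodTw_p_not_dvd (Fact.out : P.p.Prime) hp2 S'
  primes_mem S' hS' := goodTw_primes_mem hS'
  hSmin S' _ q hq _ hne := goodTw_hSmin P.p S' q hq hne
  hirr := hirr
  a := a
  S₀ := S₀
  h₀ := h₀
  θ := θ
  hθ := hθ

end Twisted

end Fermat.Agent.S43lib.B3
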