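/-
S43lib / B3 / HeckeFamFrey (helper4): **the family of Hecke characters of the Frey curve exists.**

* `freyRes_charpoly_frob` : for an integral model `W` of the Frey curve and a prime `ℓ ≠ p` of good reduction, the
  Frobenius elements at `ℓ` act on `E[p]` with characteristic polynomial `X² - a_ℓ(W) X + ℓ`;
* `nonempty_heckeFam` : if `ρ̄ = E[p]` is irreducible and modular of a level `N` dividing all the levels `lvl S'`
  (`S'` good), then there is a `HeckeFam 𝒪 P lvl good Smin` (helper8's THETA gives the characters `θ S'`);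
* `nonempty_heckeFam_tw` : the same at the twisted levels `lvlTw p S'`.
-/
import Mathlib
import Fermat.Agent.S43lib.B3.HeckeTr
import Fermat.Agent.S43lib.Theta.Main
import Fermat.Agent.S44lib.Q1.ESide

set_option autoImplicit false
set_option linter.unusedSectionVars false
set_option linter.unusedVariables false
set_option linter.style.haveILetI false

noncomputable section

namespace Fermat.Agent.S43lib.B3

attribute [-instance] Fermat.Agent.S55lib.CFDual.instFiniteTrivialSelf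
  Fermat.Agent.S55lib.CFDual.instFreeTrivialSelf

/-- the characteristic polynomial in coordinates -/
theorem charpoly_eq_of_coord {F : Type*} [Field F] {V : Type*} [AddCommGroup V] [Module F V]
    [Module.Finite F V] (e : V ≃ₗ[F] (Fin 2 → F)) (f : Module.End F V)
    (M : Matrix (Fin 2) (Fin 2) F) (h : ∀ x, e (f x) = M.mulVec (e x)) :
    LinearMap.charpoly f = M.charpoly := by
  have hconj : e.conj f = Matrix.toLin' M := by
    apply LinearMap.ext
    intro v
    obtain ⟨x, rfl⟩ := e.surjective v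
    rw [LinearEquiv.conj_apply, LinearMap.comp_apply, LinearMap.comp_apply, LinearEquiv.coe_coe,
      LinearEquiv.coe_coe, LinearEquiv.symm_apply_apply, Matrix.toLin'_apply]
    exact h x
  rw [← LinearEquiv.charpoly_conj e f, hconj, Matrix.charpoly_toLin']

open IsLocalRing Polynomial CuspForm Fermat.Agent.S43lib.BigImg
open WeierstrassCurve WeierstrassCurve.Affine WeierstrassCurve.Affine.Point

local notation "Qb" => AlgebraicClosure ℚ

/-- **Frobenius on `E[p]` of the Frey curve**: characteristic polynomial `X² - a_ℓ(W) X + ℓ` at the primes `ℓ ≠ p` of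
good reduction of an integral model `W`. -/
theorem freyRes_charpoly_frob (P : FreyPackage) [hpf : Fact P.p.Prime] (W : WeierstrassCurve ℤ)
    (hW : W.IsIntegralModelOf P.freyCurve) (ℓ : ℕ) (hℓ : ℓ.Prime)
    (hℓS : ℓ ∉ ({P.p} ∪ W.Δ.natAbs.primeFactors : Finset ℕ))
    (A : ValuationSubring Qb) (hA : A.LiesOverPrime ℓ) (φ : Qb ≃ₐ[ℚ] Qb)
    (hφ : A.IsFrobeniusAt φ ℓ) :
    LinearMap.charpoly ((freyRes P).ρ φ) =
      X ^ 2 - C ((W.apOfModel ℓ : ℤ) : ZMod P.p) * X + C ((ℓ : ℕ) : ZMod P.p) := by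
  obtain ⟨hΔ, d, hd⟩ := exists_freyCoord' P W hW
  simp only [Finset.mem_union, Finset.mem_singleton, not_or] at hℓS
  have hgood : ¬ (ℓ : ℤ) ∣ W.Δ := by
    intro hdv
    apply hℓS.2
    rw [Nat.mem_primeFactors]
    exact ⟨hℓ, Int.natCast_dvd.mp hdv, Int.natAbs_ne_zero.mpr hΔ⟩
  obtain ⟨ht, hdt⟩ := Fermat.Agent.S44lib.Q1.trace_det_rhoE_frob W hΔ P.p hℓ hℓS.1 hgood hA hφ
  -- the coordinates as a linear equivalence
  set e : (Submodule.torsionBy ℤ ((P.freyCurve : Affine ℚ)⁄Qb).Point P.p) ≃ₗ[ZMod P.p]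
      (Fin 2 → ZMod P.p) :=
    LinearEquiv.ofBijective (d.toAddMonoidHom.toZModLinearMap P.p) d.bijective with he
  haveI : Module.Finite (ZMod P.p)
      (Submodule.torsionBy ℤ ((P.freyCurve : Affine ℚ)⁄Qb).Point P.p) :=
    Module.finite_of_finrank_eq_succ (frey_finrank P)
  have h1 := charpoly_eq_of_coord e (galoisRepModuleEnd (S := ℚ) (K := Qb) P.freyCurve P.p φ)
    (Fermat.Agent.S44lib.Q1.rhoE W hΔ P.p φ) (fun x => hd φ x)
  show LinearMap.charpoly (galoisRepModuleEnd (S := ℚ) (K := Qb) P.freyCurve P.p φ) = _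
  rw [h1, Matrix.charpoly_fin_two, ht, hdt]

section Exists

variable {𝒪 : Type} [CommRing 𝒪] [IsDomain 𝒪] [IsDiscreteValuationRing 𝒪]
  [IsAdicComplete (maximalIdeal 𝒪) 𝒪]
variable (P : FreyPackage) [hpf : Fact P.p.Prime] [Algebra (ZMod P.p) (ResidueField 𝒪)]

/-- **The family of Hecke characters exists**: `E[p]` irreducible and modular of a level `N` dividing all the
`lvl S'`, `S'` good. -/
theorem nonempty_heckeFam (lvl : Finset ℕ → ℕ) [∀ S', NeZero (lvl S')] (good : Finset ℕ → Prop)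
    (Smin : Finset ℕ) (hp2 : P.p ≠ 2) (hp𝒪 : (P.p : 𝒪) ∈ maximalIdeal 𝒪)
    (p_mem : ∀ S', good S' → P.p ∈ S')
    (p_not_dvd : ∀ S', good S' → ¬ P.p ∣ lvl S')
    (primes_mem : ∀ S', good S' → ∀ q : ℕ, q.Prime → q ∣ lvl S' → q ∈ S')
    (hSmin : ∀ S', good S' → ∀ q ∈ Smin, q.Prime → q ≠ P.p →
      (q ∣ lvl S' ∧ ¬ q ^ 2 ∣ lvl S') ∨ q ∉ S')
    (hirr : GaloisRepIsIrreducible (K := Qb) ℚ P.freyCurve P.p)
    {N : ℕ} (hmod : P.ModularRepOfLevel N) (hN : ∀ S', good S' → N ∣ lvl S') :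
    Nonempty (HeckeFam 𝒪 P lvl good Smin) := by
  obtain ⟨f, W, 𝔪, hf, hW, h𝔪, hp𝔪, hcong⟩ := hmod
  have hΔ : W.Δ ≠ 0 := Fermat.Agent.S43lib.Theta.Δ_ne_zero_of_isIntegralModelOf P hW
  have hex : ∀ (S' : Finset ℕ) (hS' : good S'),
      ∃ θ : heckeAlgebra (lvl S') 2 (↑S' : Set ℕ) →+* ResidueField 𝒪,
        ∀ (ℓ : ℕ) (hℓ : ℓ.Prime) (hℓM : ¬ ℓ ∣ lvl S') (hℓS : ℓ ∉ (↑S' : Set ℕ)),
          W.IsGoodPrimeFor ℓ →
            θ (heckeAlgebra.T hℓ hℓM hℓS) = ((W.apOfModel ℓ : ℤ) : ResidueField 𝒪) := by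
    intro S' hS'
    haveI : NeZero N := ⟨fun h0 => NeZero.ne (lvl S') (zero_dvd_iff.1 (h0 ▸ hN S' hS'))⟩
    exact Fermat.Agent.S43lib.Theta.exists_theta P (hN S' hS') S' (p_mem S' hS')
      (primes_mem S' hS') f W 𝔪 hf hΔ h𝔪 hp𝔪 hcong (ResidueField 𝒪)
  refine ⟨{ hp2 := hp2
            hp𝒪 := hp𝒪
            p_mem := p_mem
            p_not_dvd := p_not_dvd
            primes_mem := primes_mem
            hSmin := hSmin
            hirr := freyRes_isIrreducible P hirr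
            a := fun ℓ => W.apOfModel ℓ
            S₀ := {P.p} ∪ W.Δ.natAbs.primeFactors
            h₀ := fun ℓ hℓ hℓS A hA φ hφ => freyRes_charpoly_frob P W hW ℓ hℓ hℓS A hA φ hφ
            θ := fun S' hS' => Classical.choose (hex S' hS')
            hθ := ?_ }⟩
  intro S' hS' ℓ hℓ hℓN hℓS hℓS₀
  refine Classical.choose_spec (hex S' hS') ℓ hℓ hℓN hℓS ?_
  intro hdv
  apply hℓS₀
  rw [Finset.mem_union, Nat.mem_primeFactors]
  exact Or.inr ⟨hℓ, Int.natCast_dvd.mp hdv, Int.natAbs_ne_zero.mpr hΔ⟩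

/-- **The family of Hecke characters at the twisted levels exists.** -/
theorem nonempty_heckeFam_tw (T : Finset ℕ) (hp2 : P.p ≠ 2) (hp𝒪 : (P.p : 𝒪) ∈ maximalIdeal 𝒪)
    (hirr : GaloisRepIsIrreducible (K := Qb) ℚ P.freyCurve P.p)
    {N : ℕ} (hmod : P.ModularRepOfLevel N)
    (hN : ∀ S', goodTw P.p T S' → N ∣ lvlTw P.p S') :
    Nonempty (HeckeFam 𝒪 P (lvlTw P.p) (goodTw P.p T) {P.p, 2}) :=
  nonempty_heckeFam P (lvlTw P.p) (goodTw P.p T) {P.p, 2} hp2 hp𝒪
    (fun _ hS' => goodTw_p_mem hS')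
    (fun S' _ => goodTw_p_not_dvd hpf.out hp2 S')
    (fun _ hS' => goodTw_primes_mem hS')
    (fun S' _ q hq _ hne => goodTw_hSmin P.p S' q hq hne) hirr hmod hN

end Exists

end Fermat.Agent.S43lib.B3
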