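/-
S43lib / B3 / TrivCompFrey (helper4): the non-Eisenstein primes needed by `TrivComp` ((D₀)), for the mod `p`
representation `freyRes P` of the Frey curve.
-/
import Mathlib
import Fermat.Agent.S43lib.B3.TrivComp
import Fermat.Agent.S43lib.B3.HeckeTr
import Fermat.Agent.S43lib.B3.HeckeFamFrey
import Fermat.Agent.S43lib.BigImg.StrongNonEis

set_option autoImplicit false
set_option linter.unusedSectionVars false
set_option linter.style.haveILetI false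

noncomputable section

namespace Fermat.Agent.S43lib.B3

attribute [-instance] Fermat.Agent.S55lib.CFDual.instFiniteTrivialSelf
  Fermat.Agent.S55lib.CFDual.instFreeTrivialSelf

open IsLocalRing Polynomial CuspForm WeierstrassCurve WeierstrassCurve.Affine
  WeierstrassCurve.Affine.Point

local notation "Qb" => AlgebraicClosure ℚ

/-! ### The non-Eisenstein primes of the Frey curve -/

section frey

variable (P : FreyPackage) [hpf : Fact P.p.Prime]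

open Fermat.Agent.S43lib.BigImg

/-- for the mod `p` representation of the Frey curve: for all `m > 0` and all finite `S₁` there are a prime
`ℓ ∉ S₁`, `ℓ ≡ 1 (mod m)` and a Frobenius `φ` over `ℓ` with `charpoly(ρ̄ φ)(1) ≠ 0` -/
theorem freyRes_exists_nonEis
    (hirr : GaloisRepIsIrreducible (K := Qb) ℚ P.freyCurve P.p) {m : ℕ} (hm : 0 < m)
    (S₁ : Finset ℕ) :
    ∃ (ℓ : ℕ) (A : ValuationSubring Qb) (φ : Qb ≃ₐ[ℚ] Qb), ℓ.Prime ∧ ℓ ∉ S₁ ∧ m ∣ ℓ - 1 ∧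
      A.LiesOverPrime ℓ ∧ A.IsFrobeniusAt φ ℓ ∧
      (LinearMap.charpoly ((freyRes P).ρ φ)).eval 1 ≠ 0 := by
  obtain ⟨ℓ, A, φ, hℓ, hℓS, hdvd, hA, hφ, hev⟩ :=
    freyResidual_exists_frobenius_one_mod P (ZMod P.p) hirr hm S₁
  refine ⟨ℓ, A, φ, hℓ, hℓS, hdvd, hA, hφ, ?_⟩
  have h1 : LinearMap.charpoly ((freyResidual P (ZMod P.p)).ρ φ) =
      (LinearMap.charpoly ((freyRes P).ρ φ)).map (algebraMap (ZMod P.p) (ZMod P.p)) :=
    charpoly_res_baseChange (k' := ZMod P.p) (freyRes P) φ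
  rw [h1, Algebra.algebraMap_self, Polynomial.map_id] at hev
  exact hev

/-- the same in terms of the `a_ℓ` of an integral model: there are primes `ℓ₀ ∉ S₁` of good reduction,
`ℓ₀ ≡ 1 (mod m)`, `ℓ₀ ≠ p`, with `a_{ℓ₀} ≢ 1 + ℓ₀ (mod p)` -/
theorem frey_exists_nonEis_ap (W : WeierstrassCurve ℤ) (hW : W.IsIntegralModelOf P.freyCurve)
    (hirr : GaloisRepIsIrreducible (K := Qb) ℚ P.freyCurve P.p) {m : ℕ} (hm : 0 < m)
    (S₁ : Finset ℕ) :
    ∃ ℓ₀ : ℕ, ℓ₀.Prime ∧ ℓ₀ ∉ S₁ ∧ ℓ₀ ∉ ({P.p} ∪ W.Δ.natAbs.primeFactors : Finset ℕ) ∧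
      m ∣ ℓ₀ - 1 ∧ ((W.apOfModel ℓ₀ : ℤ) : ZMod P.p) ≠ 1 + ((ℓ₀ : ℕ) : ZMod P.p) := by
  obtain ⟨ℓ, A, φ, hℓ, hℓS, hdvd, hA, hφ, hev⟩ :=
    freyRes_exists_nonEis P hirr hm (S₁ ∪ ({P.p} ∪ W.Δ.natAbs.primeFactors))
  rw [Finset.mem_union, not_or] at hℓS
  refine ⟨ℓ, hℓ, hℓS.1, hℓS.2, hdvd, fun heq => hev ?_⟩
  rw [freyRes_charpoly_frob P W hW ℓ hℓ hℓS.2 A hA φ hφ]
  simp only [eval_add, eval_sub, eval_mul, eval_pow, eval_X, eval_C, one_pow, mul_one]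
  rw [heq]
  ring

end frey

end Fermat.Agent.S43lib.B3
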