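/-
S43lib / B3 / EndHecke (helper4): **END-GLUE, Hecke half at a point with trivial nebentypus.**

A nonzero `T_ℓ`-eigenclass in `H¹(Γ₀(M), W)` (helper3's `B1.H1 (levelPi χ) K W`, `W` a `K`-vector space with
TRIVIAL action of the diamonds) with eigenvalues `t ℓ ∈ 𝒪 ⊆ K`, non-Eisenstein at one prime `ℓ₀ ≡ 1 (mod M)`,
defines a character `χ' : 𝕋(M)^S → 𝒪` of the Hecke algebra of the weight two cusp forms of level `M` with
`χ'(T_ℓ) = t ℓ` (helper5's untwisted bridge `bridge_H1_triv`).  This is the `χ` of helper6's `ENDStmt`.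
-/
import Mathlib
import Fermat.Agent.S43lib.B2.Bridge.ToB1Triv
import Fermat.Agent.S43lib.B3.TrivComp

set_option autoImplicit false
set_option linter.unusedSectionVars false
set_option linter.style.haveILetI false

noncomputable section

namespace Fermat.Agent.S43lib.B3

open IsLocalRing Polynomial CuspForm
open Fermat.Agent.S43lib.B2.Bridge

local notation "Qb" => AlgebraicClosure ℚ

section triv

variable {M : ℕ} [NeZero M] {S : Set ℕ} {G : Type*} [Group G] (χ : (ZMod M)ˣ →* G)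
  (K : Type*) [Field K] (W : Type*) [AddCommGroup W] [Module K W] [DistribMulAction G W]
  [SMulCommClass G K W]

theorem heckeHOp₀_smul (ℓ : GoodPrime M S) (k : K) (x : B1.H1 (B1.levelPi χ) K W) :
    heckeHOp₀ χ K W ℓ (k • x) = k • heckeHOp₀ χ K W ℓ x := by
  haveI : Fact ℓ.1.Prime := ⟨ℓ.2.1⟩
  show B1.heckeH K W (nData_equi₀ (χ := χ) ℓ.2.2.1) (k • x) =
    k • B1.heckeH K W (nData_equi₀ (χ := χ) ℓ.2.2.1) x
  rw [map_smul]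

/-- on a simultaneous eigenvector the evaluation of a polynomial in the `T_ℓ` is the scalar given by the
eigenvalues -/
theorem evalH₀_eigen (c : GoodPrime M S → K) (x : B1.H1 (B1.levelPi χ) K W)
    (hx : ∀ ℓ : GoodPrime M S, heckeHOp₀ χ K W ℓ x = c ℓ • x)
    (P : FreeAlgebra ℤ (GoodPrime M S)) (k : K) :
    evalH₀ χ K W P (k • x) = (FreeAlgebra.lift ℤ c P * k) • x := by
  induction P using FreeAlgebra.induction generalizing k with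
  | grade0 r =>
    rw [AlgHom.commutes, AlgHom.commutes, Module.algebraMap_end_apply, mul_smul]
    rw [eq_intCast, Int.cast_smul_eq_zsmul]
  | grade1 ℓ =>
    unfold evalH₀
    rw [FreeAlgebra.lift_ι_apply, FreeAlgebra.lift_ι_apply, heckeHOp₀_smul, hx, smul_smul,
      mul_comm k (c ℓ)]
  | mul p q hp hq =>
    rw [map_mul, map_mul, Module.End.mul_apply, hq, hp,
      mul_assoc (FreeAlgebra.lift ℤ c p) (FreeAlgebra.lift ℤ c q) k]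
  | add p q hp hq =>
    rw [map_add, map_add, LinearMap.add_apply, hp, hq, add_mul, add_smul]

end triv

section rel

variable {𝒪 : Type} [CommRing 𝒪] {K : Type*} [Field K] [CharZero K] [Algebra 𝒪 K]
variable {M : ℕ} [NeZero M] {S : Set ℕ}
variable {G : Type*} [Group G] (χ : (ZMod M)ˣ →* G)
  (W : Type*) [AddCommGroup W] [Module K W] [DistribMulAction G W] [SMulCommClass G K W]
  [IsAddTorsionFree W]

/-- **the eigenvalues of an eigenclass with trivial nebentypus satisfy the relations of the Hecke algebra of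
level `M`** -/
theorem relations_of_eigenclass_triv (hK : Function.Injective (algebraMap 𝒪 K))
    (htriv : ∀ (g : G) (w : W), g • w = w)
    (x : B1.H1 (B1.levelPi χ) K W) (hx : x ≠ 0) (t : ℕ → 𝒪)
    (hxt : ∀ ℓ : GoodPrime M S,
      (haveI : Fact ℓ.1.Prime := ⟨ℓ.2.1⟩; B1.heckeH K W (nData_equi₀ (χ := χ) ℓ.2.2.1) x) =
        algebraMap 𝒪 K (t ℓ.1) • x)
    (ℓ₀ : GoodPrime M S) (h1 : (M : ℤ) ∣ (ℓ₀.1 : ℤ) - 1) (hne : t ℓ₀.1 ≠ 1 + (ℓ₀.1 : 𝒪))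
    (P : FreeAlgebra ℤ (GoodPrime M S))
    (hP : (evalForms P : ↥(heckeAlgebra M 2 S)) = 0) :
    FreeAlgebra.lift ℤ (fun ℓ : GoodPrime M S => t ℓ.1) P = 0 := by
  haveI : Fact ℓ₀.1.Prime := ⟨ℓ₀.2.1⟩
  set c : GoodPrime M S → K := fun ℓ => algebraMap 𝒪 K (t ℓ.1) with hc
  have hxc : ∀ ℓ : GoodPrime M S, heckeHOp₀ χ K W ℓ x = c ℓ • x := fun ℓ => hxt ℓ
  have hlift : FreeAlgebra.lift ℤ c P =
      algebraMap 𝒪 K (FreeAlgebra.lift ℤ (fun ℓ : GoodPrime M S => t ℓ.1) P) := by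
    have h2 : FreeAlgebra.lift ℤ c =
        ((algebraMap 𝒪 K).toIntAlgHom).comp
          (FreeAlgebra.lift ℤ (fun ℓ : GoodPrime M S => t ℓ.1)) := by
      refine FreeAlgebra.hom_ext (funext fun ℓ => ?_)
      show FreeAlgebra.lift ℤ c (FreeAlgebra.ι ℤ ℓ) =
        algebraMap 𝒪 K (FreeAlgebra.lift ℤ (fun ℓ : GoodPrime M S => t ℓ.1) (FreeAlgebra.ι ℤ ℓ))
      rw [FreeAlgebra.lift_ι_apply, FreeAlgebra.lift_ι_apply]
    rw [h2]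
    rfl
  have hb := bridge_H1_triv (χ := χ) (R := K) (W := W) htriv P hP ℓ₀.2.2.1 h1 x
  rw [hxt ℓ₀] at hb
  set k : K := algebraMap 𝒪 K (t ℓ₀.1) - ((1 + ℓ₀.1 : ℕ) : K) with hk
  have hk0 : k ≠ 0 := by
    intro h0
    apply hne
    apply hK
    rw [hk, sub_eq_zero] at h0
    rw [h0, map_add, map_one, map_natCast]
    push_cast
    rfl
  have harg : algebraMap 𝒪 K (t ℓ₀.1) • x - (1 + ℓ₀.1) • x = k • x := by
    rw [hk, sub_smul, Nat.cast_smul_eq_nsmul]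
  rw [harg, evalH₀_eigen χ K W c x hxc P k] at hb
  rcases smul_eq_zero.mp hb with h | h
  · rcases mul_eq_zero.mp h with h | h
    · rw [hlift] at h
      exact hK (by rw [h, map_zero])
    · exact absurd h hk0
  · exact absurd h hx

/-- **END-GLUE, Hecke half**: the character of the Hecke algebra of level `M` attached to an eigenclass
with trivial nebentypus. -/
theorem exists_character_of_eigenclass_triv (hK : Function.Injective (algebraMap 𝒪 K))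
    (hS : ∀ q : ℕ, q.Prime → q ∣ M → q ∈ S)
    (htriv : ∀ (g : G) (w : W), g • w = w)
    (x : B1.H1 (B1.levelPi χ) K W) (hx : x ≠ 0) (t : ℕ → 𝒪)
    (hxt : ∀ (ℓ : ℕ) [Fact ℓ.Prime] (hℓ : ¬ ℓ ∣ M), ℓ ∉ S →
      B1.heckeH K W (B1.isEquivariant_levelPi χ (B1.nData_equivariant hℓ)) x =
        algebraMap 𝒪 K (t ℓ) • x)
    {ℓ₀ : ℕ} (hℓ₀ : ℓ₀.Prime) (hℓ₀S : ℓ₀ ∉ S) (h1 : M ∣ ℓ₀ - 1) (hne : t ℓ₀ ≠ 1 + (ℓ₀ : 𝒪)) :
    ∃ χ' : ↥(heckeAlgebra M 2 S) →+* 𝒪, ∀ (ℓ : ℕ) (hℓ : ℓ.Prime) (hℓM : ¬ ℓ ∣ M) (hℓS : ℓ ∉ S),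
      χ' (heckeAlgebra.T hℓ hℓM hℓS) = t ℓ := by
  have hℓ₀M : ¬ ℓ₀ ∣ M := fun h => hℓ₀S (hS ℓ₀ hℓ₀ h)
  let L₀ : GoodPrime M S := ⟨ℓ₀, hℓ₀, hℓ₀M, hℓ₀S⟩
  have h1' : ((M : ℕ) : ℤ) ∣ ((L₀.1 : ℕ) : ℤ) - 1 := by
    have h2 : ((ℓ₀ - 1 : ℕ) : ℤ) = (ℓ₀ : ℤ) - 1 := by
      have := hℓ₀.one_le
      omega
    rw [show (L₀.1 : ℕ) = ℓ₀ from rfl, ← h2]
    exact Int.natCast_dvd_natCast.mpr h1
  have hR := relations_of_eigenclass_triv (S := S) χ W hK htriv x hx t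
    (fun ℓ => by
      haveI : Fact ℓ.1.Prime := ⟨ℓ.2.1⟩
      exact hxt ℓ.1 ℓ.2.2.1 ℓ.2.2.2) L₀ h1' hne
  obtain ⟨χ', hχ'⟩ := exists_character_of_relations hS (fun ℓ : GoodPrime M S => t ℓ.1) hR
  exact ⟨χ', fun ℓ hℓ hℓM hℓS => hχ' ⟨ℓ, hℓ, hℓM, hℓS⟩⟩

end rel

section ne

variable {p : ℕ} [Fact p.Prime] {𝒪 : Type} [CommRing 𝒪] [IsLocalRing 𝒪]

/-- an element congruent to an integer `a ≢ 1 + ℓ₀ (mod p)` is different from `1 + ℓ₀` -/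
theorem ne_one_add_of_congr (hp𝒪 : (p : 𝒪) ∈ maximalIdeal 𝒪) (t : 𝒪) (a : ℤ) (ℓ₀ : ℕ)
    (ht : t - (a : 𝒪) ∈ maximalIdeal 𝒪) (ha : (a : ZMod p) ≠ 1 + ((ℓ₀ : ℕ) : ZMod p)) :
    t ≠ 1 + (ℓ₀ : 𝒪) := by
  intro heq
  apply ha
  haveI : CharP (ResidueField 𝒪) p := by
    have h0 : ((p : ℕ) : ResidueField 𝒪) = 0 := by
      have h1 : residue 𝒪 (p : 𝒪) = 0 := (residue_eq_zero_iff _).2 hp𝒪
      rwa [map_natCast] at h1
    exact (CharP.charP_iff_prime_eq_zero (Fact.out : p.Prime)).2 h0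
  have h2 : residue 𝒪 (t - (a : 𝒪)) = 0 := (residue_eq_zero_iff _).2 ht
  rw [heq, map_sub, map_add, map_one, map_natCast, map_intCast] at h2
  have h3 : (((1 + (ℓ₀ : ℤ) - a : ℤ)) : ResidueField 𝒪) = 0 := by
    push_cast
    exact h2
  have h4 : (p : ℤ) ∣ 1 + (ℓ₀ : ℤ) - a := (CharP.intCast_eq_zero_iff (ResidueField 𝒪) p _).mp h3
  have h5 : (((1 + (ℓ₀ : ℤ) - a : ℤ)) : ZMod p) = 0 :=
    (ZMod.intCast_zmod_eq_zero_iff_dvd _ p).mpr h4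
  push_cast at h5
  linear_combination -h5

end ne

section pack

variable {p : ℕ} [Fact p.Prime] {𝒪 : Type} [CommRing 𝒪] [IsLocalRing 𝒪]
variable {K : Type*} [Field K] [CharZero K] [Algebra 𝒪 K]
variable {M : ℕ} [NeZero M] {S : Finset ℕ}
variable {G : Type*} [Group G] (χ : (ZMod M)ˣ →* G)
  (W : Type*) [AddCommGroup W] [Module K W] [DistribMulAction G W] [SMulCommClass G K W]
  [IsAddTorsionFree W]

/-- **END-GLUE, Hecke half, in the shape of the hypotheses of `ENDStmt`**: from a nonzero eigenclass with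
trivial nebentypus whose eigenvalues `t ℓ` are congruent to integers `ap ℓ` (at the `good` primes) and are
the Frobenius traces of `ρ`, one gets the character `χ'` of `𝕋(M)^S` with the congruence and the
characteristic polynomials. -/
theorem exists_end_character (hp𝒪 : (p : 𝒪) ∈ maximalIdeal 𝒪)
    (hK : Function.Injective (algebraMap 𝒪 K))
    (hS : ∀ q : ℕ, q.Prime → q ∣ M → q ∈ S)
    (htriv : ∀ (g : G) (w : W), g • w = w)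
    (x : B1.H1 (B1.levelPi χ) K W) (hx : x ≠ 0) (t : ℕ → 𝒪)
    (hxt : ∀ (ℓ : ℕ) [Fact ℓ.Prime] (hℓ : ¬ ℓ ∣ M), ℓ ∉ S →
      B1.heckeH K W (B1.isEquivariant_levelPi χ (B1.nData_equivariant hℓ)) x =
        algebraMap 𝒪 K (t ℓ) • x)
    (ap : ℕ → ℤ) (good : ℕ → Prop)
    (ht : ∀ ℓ : ℕ, ℓ.Prime → ℓ ∉ S → good ℓ → t ℓ - ((ap ℓ : ℤ) : 𝒪) ∈ maximalIdeal 𝒪)
    (hnE : ∃ ℓ₀ : ℕ, ℓ₀.Prime ∧ ℓ₀ ∉ S ∧ good ℓ₀ ∧ M ∣ ℓ₀ - 1 ∧
      ((ap ℓ₀ : ℤ) : ZMod p) ≠ 1 + ((ℓ₀ : ℕ) : ZMod p))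
    (ρ : GaloisRepAdic 𝒪)
    (hρ : ∀ ℓ : ℕ, ℓ.Prime → ℓ ∉ S → ∀ A : ValuationSubring Qb, A.LiesOverPrime ℓ →
      ∀ σ : Qb ≃ₐ[ℚ] Qb, A.IsFrobeniusAt σ ℓ →
        LinearMap.charpoly (ρ.ρ σ) = X ^ 2 - C (t ℓ) * X + C ((ℓ : 𝒪))) :
    ∃ χ' : ↥(heckeAlgebra M 2 (↑S : Set ℕ)) →+* 𝒪,
      (∀ (ℓ : ℕ) (hℓ : ℓ.Prime) (hℓM : ¬ ℓ ∣ M) (hℓS : ℓ ∉ (↑S : Set ℕ)), good ℓ →
        χ' (heckeAlgebra.T hℓ hℓM hℓS) - ((ap ℓ : ℤ) : 𝒪) ∈ maximalIdeal 𝒪) ∧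
      (∀ (ℓ : ℕ) (hℓ : ℓ.Prime) (hℓM : ¬ ℓ ∣ M) (hℓS : ℓ ∉ (↑S : Set ℕ)),
        ∀ A : ValuationSubring Qb, A.LiesOverPrime ℓ → ∀ σ : Qb ≃ₐ[ℚ] Qb, A.IsFrobeniusAt σ ℓ →
          LinearMap.charpoly (ρ.ρ σ) =
            X ^ 2 - C (χ' (heckeAlgebra.T hℓ hℓM hℓS)) * X + C ((ℓ : 𝒪))) := by
  obtain ⟨ℓ₀, hℓ₀, hℓ₀S, hgood, h1, hne⟩ := hnE
  obtain ⟨χ', hχ'⟩ := exists_character_of_eigenclass_triv (S := (↑S : Set ℕ)) χ W hK
    (fun q hq hd => hS q hq hd) htriv x hx t (fun ℓ _ hℓ hℓS => hxt ℓ hℓ hℓS) hℓ₀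
    (fun h => hℓ₀S h) h1
    (ne_one_add_of_congr hp𝒪 (t ℓ₀) (ap ℓ₀) ℓ₀ (ht ℓ₀ hℓ₀ hℓ₀S hgood) hne)
  refine ⟨χ', fun ℓ hℓ hℓM hℓS hg => ?_, fun ℓ hℓ hℓM hℓS A hA σ hσ => ?_⟩
  · rw [hχ']
    exact ht ℓ hℓ (fun h => hℓS h) hg
  · rw [hχ']
    exact hρ ℓ hℓ (fun h => hℓS h) A hA σ hσ

end pack

end Fermat.Agent.S43lib.B3
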