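/-
S43lib / B3 / FreyInst (helper4): **the hypotheses of `tw_surj_flatFam` for the mod `p` representation of the Frey
curve**, realised as `freyResidual P (ResidueField 𝒪)`.

* `rloc_mem_decompositionSubgroup` : the image of the local Galois group lies in the decomposition group;
* `freyResidual_rho_eq_smul`, `freyResidual_hscal` : if the decomposition groups over `v` act on `E[p]` through
  scalars (`DecompScalarAt P v` of the top-level interface), then `ρ̄ | G_v` is scalar;
* `freyResidual_hmin` : `Smin = {p, 2}`;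
* `exists_phi0` : lifts `φ₀ v ∈ 𝒪` of the scalars `ρ̄(Φ_v)`, `v ∈ T`;
* `frey_tw_surj` : `tw_surj_flatFam` for the Frey curve.
-/
import Mathlib
import Fermat.Agent.S05
import Fermat.Agent.S43lib.B3.Surj
import Fermat.Agent.S43lib.BigImg.FreyResidual
import Fermat.Agent.S43lib.BigImg.Stmt

set_option autoImplicit false
set_option linter.unusedSectionVars false
set_option linter.style.haveILetI false

open scoped TensorProduct

noncomputable section

namespace Fermat.Agent.S43lib.B3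

open IsLocalRing Polynomial Fermat.Agent.TeamA Fermat.Agent.TeamA.Rep Fermat.Agent.S55lib
  Fermat.Agent.S56lib.Dict Fermat.Agent.S56lib.PT9a Fermat.Agent.S56lib.TWSel
  Fermat.Agent.S56lib.Main Fermat.Agent.S56lib ExtCitation Fermat.Agent.S43lib.BigImg
  WeierstrassCurve WeierstrassCurve.Affine WeierstrassCurve.Affine.Point

local notation "Qb" => AlgebraicClosure ℚ

attribute [local instance] dualNumberAlgebra

/-- the image of the local Galois group at `v` lies in the decomposition group of the standard place -/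
theorem rloc_mem_decompositionSubgroup (v : Nat.Primes) (g : Gloc v) :
    rloc v g ∈ (primeLocalPlace v).decompositionSubgroup ℚ := by
  letI : Fact (v : ℕ).Prime := ⟨v.2⟩
  exact localGaloisToGlobal_mem_decompositionSubgroup (v : ℕ) g

section Frey

/-- the base change of an endomorphism acting through the integer scalar `c` -/
theorem baseChange_eq_intCast_smul {F : Type*} [Field F] {V : Type*} [AddCommGroup V] [Module F V]
    (K : Type*) [Field K] [Algebra F K] (T : Module.End F V) (c : ℤ) (h : ∀ x, T x = c • x) :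
    T.baseChange K = (c : K) • (1 : Module.End K (K ⊗[F] V)) := by
  apply LinearMap.ext
  intro y
  induction y using TensorProduct.induction_on with
  | zero => simp
  | tmul a x =>
    rw [LinearMap.baseChange_tmul, h x, TensorProduct.tmul_smul, LinearMap.smul_apply,
      Module.End.one_apply, Int.cast_smul_eq_zsmul]
  | add y y' hy hy' => rw [map_add, hy, hy', map_add]

variable (P : FreyPackage) [hpf : Fact P.p.Prime] (k : Type) [Field k] [Algebra (ZMod P.p) k]

/-- an element acting on `E[p]` through the integer scalar `c` acts on `k ⊗ E[p]` through `c` -/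
theorem freyResidual_rho_eq_smul (σ : Qb ≃ₐ[ℚ] Qb) (c : ℤ)
    (h : ∀ x : Submodule.torsionBy ℤ ((P.freyCurve : Affine ℚ)⁄Qb).Point P.p, σ • x = c • x) :
    (freyResidual P k).ρ σ = (c : k) • (1 : Module.End k (freyResidual P k).V) :=
  baseChange_eq_intCast_smul k (galoisRepModuleEnd (S := ℚ) (K := Qb) P.freyCurve P.p σ) c h

end Frey

section Inst

variable {𝒪 : Type} [CommRing 𝒪] [IsDomain 𝒪] [IsDiscreteValuationRing 𝒪]
  [IsAdicComplete (maximalIdeal 𝒪) 𝒪] [Finite (ResidueField 𝒪)]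
variable (P : FreyPackage) [hpf : Fact P.p.Prime] [Algebra (ZMod P.p) (ResidueField 𝒪)]

/-- **`hscal` for the Frey curve**: if the decomposition groups over `v` act on `E[p]` through scalars, then
`ρ̄ | G_v` is scalar -/
theorem freyResidual_hscal
    (bbar : Module.Basis (Fin 2) (ResidueField 𝒪) (freyResidual P (ResidueField 𝒪)).V) (v : Nat.Primes)
    (h : ∀ A : ValuationSubring Qb, A.LiesOverPrime (v : ℕ) → ∀ σ ∈ A.decompositionSubgroup ℚ, ∃ c : ℤ,
      ∀ x : Submodule.torsionBy ℤ ((P.freyCurve : Affine ℚ)⁄Qb).Point P.p, σ • x = c • x)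
    (g : Gloc v) :
    ∃ a : ResidueField 𝒪, resHom (freyResidual P (ResidueField 𝒪)) bbar (rloc v g) =
      a • (1 : Matrix (Fin 2) (Fin 2) (ResidueField 𝒪)) := by
  obtain ⟨c, hc⟩ := h _ (primeLocalPlace_liesOverPrime v) _ (rloc_mem_decompositionSubgroup v g)
  refine ⟨(c : ResidueField 𝒪), ?_⟩
  rw [Dict.resHom_apply, matOfRes, freyResidual_rho_eq_smul P (ResidueField 𝒪) _ c hc, map_smul,
    LinearMap.toMatrix_one]

/-- **`hmin` for the Frey curve**: `Smin = {p, 2}` -/
theorem freyResidual_hmin (k : Type) [Field k] [Algebra (ZMod P.p) k] (q : ℕ) (hq : q.Prime)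
    (hqp : q ≠ P.p) :
    q ∈ ({P.p, 2} : Finset ℕ) ↔ ¬ (freyResidual P k).IsUnramifiedAt q := by
  rw [freyResidual_isUnramifiedAt_iff]
  constructor
  · intro hmem hunr
    rw [Finset.mem_insert, Finset.mem_singleton] at hmem
    rcases hmem with h | h
    · exact hqp h
    · subst h
      exact frey_not_unramifiedAt_two P hunr
  · intro hram
    by_contra hmem
    rw [Finset.mem_insert, Finset.mem_singleton, not_or] at hmem
    exact hram (Fermat.Agent.S05.result P hq hmem.2 hqp)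

end Inst

section Phi

variable {𝒪 : Type} [CommRing 𝒪] [IsDomain 𝒪] [IsDiscreteValuationRing 𝒪]
  [IsAdicComplete (maximalIdeal 𝒪) 𝒪]

/-- lifts of the scalars `ρ̄(Φ_v)`, `v ∈ T` -/
theorem exists_phi0 (ρbar : ResidualGaloisRep (ResidueField 𝒪))
    (bbar : Module.Basis (Fin 2) (ResidueField 𝒪) ρbar.V) (T : Finset ℕ)
    (hscal : ∀ v : Nat.Primes, (v : ℕ) ∈ T → ∀ g : Gloc v, ∃ a : ResidueField 𝒪,
      resHom ρbar bbar (rloc v g) = a • (1 : Matrix (Fin 2) (Fin 2) (ResidueField 𝒪))) :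
    ∃ φ₀ : ↥(primesIn T) → 𝒪, ∀ v : ↥(primesIn T),
      resHom ρbar bbar (globFrobAt (v : Nat.Primes)) =
        residue 𝒪 (φ₀ v) • (1 : Matrix (Fin 2) (Fin 2) (ResidueField 𝒪)) := by
  have h : ∀ v : ↥(primesIn T), ∃ o : 𝒪, resHom ρbar bbar (globFrobAt (v : Nat.Primes)) =
      residue 𝒪 o • (1 : Matrix (Fin 2) (Fin 2) (ResidueField 𝒪)) := by
    intro v
    obtain ⟨a, ha⟩ := hscal (v : Nat.Primes) (mem_primesIn.1 v.2) (tameFrobAt (v : Nat.Primes))
    obtain ⟨o, rfl⟩ := residue_surjective a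
    exact ⟨o, ha⟩
  choose φ₀ hφ₀ using h
  exact ⟨φ₀, hφ₀⟩

end Phi

section Main

variable {𝒪 : Type} [CommRing 𝒪] [IsDomain 𝒪] [IsDiscreteValuationRing 𝒪]
  [IsAdicComplete (maximalIdeal 𝒪) 𝒪] [Finite (ResidueField 𝒪)]
variable (P : FreyPackage) [hpf : Fact P.p.Prime] [Algebra (ZMod P.p) (ResidueField 𝒪)]

/-- **(B3-SURJ) for the Frey curve.**  `T` a set of odd primes `≠ p` over which the decomposition groups act on
`E[p]` through scalars; `Smin = {p, 2}`. -/
theorem frey_tw_surj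
    (hirr : GaloisRepIsIrreducible (K := Qb) ℚ P.freyCurve P.p)
    (hp𝒪 : (P.p : 𝒪) ∈ maximalIdeal 𝒪)
    (hk : ∀ a : ZMod P.p, ∃ x : ResidueField 𝒪, x ^ 2 = algebraMap (ZMod P.p) (ResidueField 𝒪) a)
    (S T : Finset ℕ) (hSmin : ({P.p, 2} : Finset ℕ) ⊆ S) (hTS : T ⊆ S)
    (hTdisj : Disjoint ({P.p, 2} : Finset ℕ) T)
    (bbar : Module.Basis (Fin 2) (ResidueField 𝒪) (freyResidual P (ResidueField 𝒪)).V)
    (hT : ∀ v : Nat.Primes, (v : ℕ) ∈ T → ∀ A : ValuationSubring Qb, A.LiesOverPrime (v : ℕ) →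
      ∀ σ ∈ A.decompositionSubgroup ℚ, ∃ c : ℤ,
        ∀ x : Submodule.torsionBy ℤ ((P.freyCurve : Affine ℚ)⁄Qb).Point P.p, σ • x = c • x)
    (E : Finset ℕ → ∀ ⦃A : Type⦄ [CommRing A] [IsLocalRing A] [Algebra 𝒪 A], GaloisRepAdic A → Prop)
    (hEbc : ∀ (S' : Finset ℕ) (DQ : GaloisRep.DeformationRingData 𝒪 (freyResidual P (ResidueField 𝒪))
        (𝒟flF 𝒪 P.p {P.p, 2} E S'))
      (φ : DQ.R →ₐ[𝒪] DualNumber (ResidueField 𝒪)), Function.Surjective φ → E S' (tanRep DQ φ))
    (hEiso : ∀ (S' : Finset ℕ) (ρ ρ' : GaloisRepAdic (DualNumber (ResidueField 𝒪))),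
      ρ.IsEquiv ρ' → E S' ρ → E S' ρ')
    (φ₀ : ↥(primesIn T) → 𝒪)
    (hφ₀ : ∀ v : ↥(primesIn T),
      resHom (freyResidual P (ResidueField 𝒪)) bbar (globFrobAt (v : Nat.Primes)) =
        residue 𝒪 (φ₀ v) • (1 : Matrix (Fin 2) (Fin 2) (ResidueField 𝒪))) :
    ∃ r : ℕ, ∀ n : ℕ, ∃ qv : Fin r → ℕ, Function.Injective qv ∧
      (∀ i, (qv i).Prime ∧ qv i ∉ S ∧ P.p ^ (n + 1) ∣ qv i - 1) ∧
      (∀ i, ∀ A : ValuationSubring Qb, A.LiesOverPrime (qv i) →
        ∀ φ : Qb ≃ₐ[ℚ] Qb, A.IsFrobeniusAt φ (qv i) →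
          ∃ α β : ResidueField 𝒪, α ≠ β ∧
            LinearMap.charpoly ((freyResidual P (ResidueField 𝒪)).ρ φ) = (X - C α) * (X - C β)) ∧
      ∀ (DQ : GaloisRep.DeformationRingData 𝒪 (freyResidual P (ResidueField 𝒪))
          (𝒟flF 𝒪 P.p {P.p, 2} E (({P.p, 2} : Finset ℕ) ∪ T ∪ Finset.univ.image qv)))
        (B : Based DQ), B.bbar = bbar →
        3 * (primesIn T).card ≤ r ∧
        ∃ γ : MvPowerSeries ((↥(primesIn T) × Bool × Fin 2 × Fin 2) ⊕
            Fin (r - 3 * (primesIn T).card)) 𝒪 →ₐ[𝒪] DQ.R,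
          Function.Surjective γ ∧
          (∀ (v : ↥(primesIn T)) (i j : Fin 2),
            γ (MvPowerSeries.X (Sum.inl (v, false, i, j))) =
              matOf DQ.ρ B.bR (globFrobAt (v : Nat.Primes)) i j -
                (if i = j then algebraMap 𝒪 DQ.R (φ₀ v) else 0)) ∧
          (∀ (v : ↥(primesIn T)) (i j : Fin 2),
            γ (MvPowerSeries.X (Sum.inl (v, true, i, j))) =
              matOf DQ.ρ B.bR (globGenAt (v : Nat.Primes) P.p) i j - (if i = j then 1 else 0)) := by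
  have hp2 : P.p ≠ 2 := by have := P.hp5; omega
  obtain ⟨habs, hTW⟩ := freyResidual_bigImage P (ResidueField 𝒪) hirr
  exact tw_surj_flatFam P.p hp2 hp𝒪 (freyResidual P (ResidueField 𝒪)) habs
    (freyResidual_hdet P (ResidueField 𝒪)) (freyResidual_hsplit P (ResidueField 𝒪) hk) hTW S {P.p, 2} T
    (Finset.mem_insert_self _ _) hSmin hTS hTdisj
    (fun q hq hqp => freyResidual_hmin P (ResidueField 𝒪) q hq hqp) bbar
    (fun v hv g => freyResidual_hscal P bbar v (hT v hv) g) E hEbc hEiso φ₀ hφ₀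

end Main

end Fermat.Agent.S43lib.B3
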