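/-
S43lib / B3 / TwoDvd (helper4): **TWO-DVD — every level of `ρ̄ = E[p]` prime to `p` is even.**

If `E[p]` of the Frey curve is irreducible and modular of a level `N ≠ 0` prime to `p`, then `2 ∣ N`: otherwise the
Hecke–Galois datum at the level `N` (ramification set `S = {p} ∪ {primes of N}`, `2 ∉ S`) is unramified at `2`, its
residual representation is `ρ̄ ⊗ k` (Brauer–Nesbitt), and `ρ̄` is ramified at `2`.
-/
import Mathlib
import Fermat.Agent.S43lib.Loc.Coeff
import Fermat.Agent.S43lib.B3.HeckeFamFrey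
import Fermat.Agent.S43lib.B3.FreyInst

set_option autoImplicit false
set_option linter.unusedSectionVars false
set_option linter.unusedVariables false
set_option linter.style.haveILetI false

noncomputable section

namespace Fermat.Agent.S43lib.B3

open IsLocalRing Polynomial Fermat.Agent.S43lib.BigImg
  WeierstrassCurve WeierstrassCurve.Affine WeierstrassCurve.Affine.Point

local notation "Qb" => AlgebraicClosure ℚ

/-- an unramified adic representation is residually unramified -/
theorem residual_isUnramifiedAt_of_isUnramifiedAt {A : Type} [CommRing A] [IsLocalRing A]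
    (ρ : GaloisRepAdic A) {q : ℕ} (h : ρ.IsUnramifiedAt q) : ρ.residual.IsUnramifiedAt q := by
  intro P hP σ hσ
  show (ρ.ρ σ).baseChange (ResidueField A) = 1
  rw [h P hP σ hσ, LinearMap.baseChange_one]

/-- unramifiedness descends along `ResidualGaloisRep.baseChangeAlong` -/
theorem res_isUnramifiedAt_of_baseChangeAlong {k k' : Type} [Field k] [Field k'] (f : k →+* k')
    (ρ : ResidualGaloisRep k) {q : ℕ} (hq : (ρ.baseChangeAlong f).IsUnramifiedAt q) :
    ρ.IsUnramifiedAt q := by
  intro P hP σ hσ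
  letI : Algebra k k' := f.toAlgebra
  haveI : FaithfulSMul k k' := (faithfulSMul_iff_algebraMap_injective _ _).2 f.injective
  have h1 : (ρ.ρ σ).baseChange k' = (LinearMap.id : ρ.V →ₗ[k] ρ.V).baseChange k' :=
    (hq P hP σ hσ).trans LinearMap.baseChange_id.symm
  exact LinearMap.baseChangeHom_injective k _ k' h1

/-- unramifiedness passes along an equivalence of residual representations -/
theorem res_isUnramifiedAt_of_isEquiv' {k : Type} [Field k] {ρ₁ ρ₂ : ResidualGaloisRep k}
    (he : ρ₁.IsEquiv ρ₂) {q : ℕ} (hq : ρ₁.IsUnramifiedAt q) : ρ₂.IsUnramifiedAt q := by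
  obtain ⟨e⟩ := he
  intro P hP σ hσ
  apply LinearMap.ext
  intro y
  obtain ⟨x, rfl⟩ := e.toLinearEquiv.surjective y
  rw [← e.map_apply, hq P hP σ hσ, Module.End.one_apply, Module.End.one_apply]

/-- **TWO-DVD.** -/
theorem two_dvd_of_modularRepOfLevel (P : FreyPackage) {N : ℕ} (hN : N ≠ 0) (hpN : ¬ P.p ∣ N)
    (hirr : GaloisRepIsIrreducible (K := Qb) ℚ P.freyCurve P.p) (hmod : P.ModularRepOfLevel N) :
    2 ∣ N := by
  by_contra h2
  haveI : Fact P.p.Prime := ⟨P.pp⟩
  have hp2 : P.p ≠ 2 := by have := P.hp5; omega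
  obtain ⟨𝒪, i1, i2, i3, i4, i5, i6, i7, hpO, -, -⟩ :=
    Fermat.Agent.S43lib.Loc.exists_coeff_ring_zmod P.p hp2
  letI : Algebra (ZMod P.p) (ResidueField 𝒪) := ZMod.algebra _ P.p
  set S : Finset ℕ := {P.p} ∪ N.primeFactors with hS
  haveI : NeZero N := ⟨hN⟩
  obtain ⟨D⟩ := nonempty_heckeFam (𝒪 := 𝒪) P (fun _ : Finset ℕ => N) (fun S' => S' = S) ∅ hp2 hpO
    (fun S' hS' => by rw [hS', hS]; exact Finset.mem_union_left _ (Finset.mem_singleton_self _))
    (fun _ _ => hpN)
    (fun S' hS' q hq hqN => by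
      rw [hS', hS]
      exact Finset.mem_union_right _ (Nat.mem_primeFactors.2 ⟨hq, hqN, hN⟩))
    (fun _ _ q hq => absurd hq (Finset.notMem_empty q)) hirr hmod (fun _ _ => dvd_rfl)
  set F := heckeTr D S rfl with hF
  -- `2 ∉ S`
  have h2S : (2 : ℕ) ∉ S := by
    rw [hS, Finset.mem_union, Finset.mem_singleton, Nat.mem_primeFactors]
    rintro (h | h)
    · exact hp2 h.symm
    · exact h2 h.2.1
  have h1 : F.ρ.IsUnramifiedAt 2 := F.isFl.1.2.2 2 Nat.prime_two h2S
  have h3 : (freyResidual P (ResidueField 𝒪)).IsUnramifiedAt 2 :=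
    res_isUnramifiedAt_of_baseChangeAlong _ _
      (res_isUnramifiedAt_of_isEquiv' F.residual_isEquiv
        (residual_isUnramifiedAt_of_isUnramifiedAt F.ρ h1))
  rw [freyResidual_isUnramifiedAt_iff] at h3
  exact frey_not_unramifiedAt_two P h3

end Fermat.Agent.S43lib.B3
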