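/-
S43lib / B3 / SideGal (helper4): **GAL-ASM — the Galois fields of `Mod4.SideBase` for the Frey curve.**

Under the hypotheses of `ModLevelBlock` (level `N` squarefree prime to `p`, `E[p]` irreducible and modular of level
`N`, and at every odd prime `r ∣ N`: `ρ̄` unramified, `r ≡ 1 mod p`, decomposition groups scalar):

* `oddPrimes N` : the set `T` of odd primes of `N`;  `S = {p, 2} ∪ T`, `Smin = {p, 2}`;
* `structure SideGal P N` : the coefficient ring `𝒪` (helper1's `Loc.exists_coeff_ring_zmod`: complete DVR of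
  characteristic `0`, finite residue field `k ⊇ 𝔽_p` in which every element of `𝔽_p` is a square, `ζ₀ ∈ μ_p(𝒪)`,
  `ζ₀ ≠ 1`), a basis `bbar` of `ρ̄ = freyResidual P k`, the unit lifts `φ₀ v` of the scalars `ρ̄(Φ_v)` (`v ∈ T`) with
  `φ₀ v ² ≡ v`, and the family of Hecke characters `D : HeckeFam 𝒪 P (lvlTw p) (goodTw p T) {p, 2}`;
* `SideGal.ρbar`, `SideGal.F := heckeTr D` and the theorems `habs hdet hsplit hTW hmin hscal hT1 hTdisj hgoodS
  hgoodQ …` = the corresponding fields of `SideBase`;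
* `nonempty_sideGal` : a `SideGal P N` exists.
-/
import Mathlib
import Fermat.Agent.S43lib.Iface
import Fermat.Agent.S43lib.Loc.Coeff
import Fermat.Agent.S43lib.B3.FreyInst
import Fermat.Agent.S43lib.B3.HeckeFamFrey
import Fermat.Agent.S43lib.B3.AdicTame

set_option autoImplicit false
set_option linter.unusedSectionVars false
set_option linter.unusedVariables false
set_option linter.style.haveILetI false

noncomputable section

namespace Fermat.Agent.S43lib.B3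

open IsLocalRing Polynomial Fermat.Agent.TeamA Fermat.Agent.TeamA.Rep Fermat.Agent.S55lib
  Fermat.Agent.S56lib.Dict Fermat.Agent.S56lib.PT9a Fermat.Agent.S56lib.TWSel
  Fermat.Agent.S56lib.Main Fermat.Agent.S56lib ExtCitation Fermat.Agent.S43lib.BigImg
  WeierstrassCurve WeierstrassCurve.Affine WeierstrassCurve.Affine.Point

local notation "Qb" => AlgebraicClosure ℚ

/-- the exponent of a Frey package is prime -/
instance factPrime (P : FreyPackage) : Fact P.p.Prime := ⟨P.pp⟩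

/-- the odd primes of `N` -/
def oddPrimes (N : ℕ) : Finset ℕ := N.primeFactors.filter (· ≠ 2)

theorem mem_oddPrimes {N r : ℕ} : r ∈ oddPrimes N ↔ r.Prime ∧ r ∣ N ∧ N ≠ 0 ∧ r ≠ 2 := by
  unfold oddPrimes
  rw [Finset.mem_filter, Nat.mem_primeFactors]
  tauto

theorem prime_of_mem_oddPrimes {N r : ℕ} (h : r ∈ oddPrimes N) : r.Prime := (mem_oddPrimes.1 h).1

/-- **The Galois-side data** of `Mod4.SideBase` for the Frey curve at the level `N`. -/
structure SideGal (P : FreyPackage) (N : ℕ) : Type 1 where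
  /-- the coefficient ring -/
  𝒪 : Type
  [instCommRing𝒪 : CommRing 𝒪]
  [instIsDomain𝒪 : IsDomain 𝒪]
  [instIsDVR𝒪 : IsDiscreteValuationRing 𝒪]
  [instIsAdicComplete𝒪 : IsAdicComplete (maximalIdeal 𝒪) 𝒪]
  [instFiniteResidueField𝒪 : Finite (ResidueField 𝒪)]
  [instCharZero𝒪 : CharZero 𝒪]
  [instAlgebraZMod : Algebra (ZMod P.p) (ResidueField 𝒪)]
  hp𝒪 : (P.p : 𝒪) ∈ maximalIdeal 𝒪
  /-- a primitive `p`-th root of unity -/
  ζ₀ : 𝒪ˣ
  ζ₀_pow : ((ζ₀ : 𝒪ˣ) : 𝒪) ^ P.p = 1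
  ζ₀_sq : ((ζ₀ : 𝒪ˣ) : 𝒪) ^ 2 ≠ 1
  hk : ∀ a : ZMod P.p, ∃ x : ResidueField 𝒪, x ^ 2 = algebraMap (ZMod P.p) (ResidueField 𝒪) a
  bbar : Module.Basis (Fin 2) (ResidueField 𝒪) (freyResidual P (ResidueField 𝒪)).V
  φ₀ : ↥(primesIn (oddPrimes N)) → 𝒪ˣ
  hφ₀ : ∀ v : ↥(primesIn (oddPrimes N)),
    resHom (freyResidual P (ResidueField 𝒪)) bbar (globFrobAt (v : Nat.Primes)) =
      residue 𝒪 (φ₀ v : 𝒪) • (1 : Matrix (Fin 2) (Fin 2) (ResidueField 𝒪))
  hφ₀sq : ∀ v : ↥(primesIn (oddPrimes N)),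
    (((v : Nat.Primes) : ℕ) : 𝒪) - ((φ₀ v : 𝒪ˣ) : 𝒪) ^ 2 ∈ maximalIdeal 𝒪
  /-- the family of Hecke characters -/
  D : HeckeFam 𝒪 P (lvlTw P.p) (goodTw P.p (oddPrimes N)) {P.p, 2}

attribute [instance] SideGal.instCommRing𝒪 SideGal.instIsDomain𝒪 SideGal.instIsDVR𝒪
  SideGal.instIsAdicComplete𝒪 SideGal.instFiniteResidueField𝒪 SideGal.instCharZero𝒪
  SideGal.instAlgebraZMod

namespace SideGal

variable {P : FreyPackage} {N : ℕ} (Sg : SideGal P N)

/-- the residual representation -/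
abbrev ρbar : ResidualGaloisRep (ResidueField Sg.𝒪) := freyResidual P (ResidueField Sg.𝒪)

/-- the set `T` of odd primes of the level -/
abbrev T (_Sg : SideGal P N) : Finset ℕ := oddPrimes N

/-- `Smin = {p, 2}` -/
abbrev Smin (_Sg : SideGal P N) : Finset ℕ := {P.p, 2}

/-- `S = {p, 2} ∪ T` -/
abbrev S (_Sg : SideGal P N) : Finset ℕ := {P.p, 2} ∪ oddPrimes N

/-- the good ramification sets -/
abbrev good (_Sg : SideGal P N) : Finset ℕ → Prop := goodTw P.p (oddPrimes N)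

/-- **the family of trace rings** -/
abbrev F : ∀ S' : Finset ℕ, Sg.good S' →
    Fermat.Agent.S43lib.Mod4.TrRing Sg.𝒪 Sg.ρbar P.p Sg.Smin S' :=
  heckeTr Sg.D

theorem hp2 (_Sg : SideGal P N) : P.p ≠ 2 := by have := P.hp5; omega

theorem habs (hirr : GaloisRepIsIrreducible (K := Qb) ℚ P.freyCurve P.p) :
    Sg.ρbar.IsAbsolutelyIrreducible :=
  (freyResidual_bigImage P (ResidueField Sg.𝒪) hirr).1

theorem hTW (hirr : GaloisRepIsIrreducible (K := Qb) ℚ P.freyCurve P.p) :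
    ∀ (K : Type) [Field K] [Algebra (ResidueField Sg.𝒪) K] (G : Subgroup (Qb ≃ₐ[ℚ] Qb)),
      G.index = 2 → ∀ V : Submodule K (Sg.ρbar.baseChange K).V,
        (∀ σ ∈ G, ∀ x ∈ V, (Sg.ρbar.baseChange K).ρ σ x ∈ V) → V = ⊥ ∨ V = ⊤ :=
  (freyResidual_bigImage P (ResidueField Sg.𝒪) hirr).2

theorem hdet : (GaloisRepAdic.ofResidualGaloisRep Sg.ρbar).DetIsCyclotomic P.p :=
  freyResidual_hdet P (ResidueField Sg.𝒪)

theorem hsplit (σ : Qb ≃ₐ[ℚ] Qb) :
    ∃ α β : ResidueField Sg.𝒪, LinearMap.charpoly (Sg.ρbar.ρ σ) = (X - C α) * (X - C β) :=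
  freyResidual_hsplit P (ResidueField Sg.𝒪) Sg.hk σ

theorem hpSmin : P.p ∈ Sg.Smin := Finset.mem_insert_self _ _

theorem hSmin : Sg.Smin ⊆ Sg.S := Finset.subset_union_left

theorem hTS : Sg.T ⊆ Sg.S := Finset.subset_union_right

theorem hTdisj (hpN : ¬ P.p ∣ N) : Disjoint Sg.Smin Sg.T := by
  rw [Finset.disjoint_left]
  intro r hr hrT
  rw [Finset.mem_insert, Finset.mem_singleton] at hr
  obtain ⟨-, hrN, -, hr2⟩ := mem_oddPrimes.1 hrT
  rcases hr with h | h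
  · exact hpN (h ▸ hrN)
  · exact hr2 h

theorem hmin (r : ℕ) (hr : r.Prime) (hrp : r ≠ P.p) :
    r ∈ Sg.Smin ↔ ¬ Sg.ρbar.IsUnramifiedAt r :=
  freyResidual_hmin P (ResidueField Sg.𝒪) r hr hrp

theorem hscal
    (hT : ∀ r : ℕ, r.Prime → r ≠ 2 → r ∣ N →
      P.GaloisRepUnramifiedAt r ∧ r ≡ 1 [MOD P.p] ∧ DecompScalarAt P r)
    (v : Nat.Primes) (hv : (v : ℕ) ∈ Sg.T) (g : Gloc v) :
    ∃ a : ResidueField Sg.𝒪, resHom Sg.ρbar Sg.bbar (rloc v g) =
      a • (1 : Matrix (Fin 2) (Fin 2) (ResidueField Sg.𝒪)) := by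
  obtain ⟨h1, h2, -, h3⟩ := mem_oddPrimes.1 hv
  exact freyResidual_hscal P Sg.bbar v (hT _ h1 h3 h2).2.2 g

theorem hT1
    (hT : ∀ r : ℕ, r.Prime → r ≠ 2 → r ∣ N →
      P.GaloisRepUnramifiedAt r ∧ r ≡ 1 [MOD P.p] ∧ DecompScalarAt P r)
    (v : ↥(primesIn Sg.T)) : ((v : Nat.Primes) : ℕ) ≡ 1 [MOD P.p] := by
  obtain ⟨h1, h2, -, h3⟩ := mem_oddPrimes.1 (mem_primesIn.1 v.2)
  exact (hT _ h1 h3 h2).2.1

/-- the prime `q` as an element of `T` -/
def q₀ (_Sg : SideGal P N) {q : ℕ} (hq : q.Prime) (hq2 : q ≠ 2) (hqN : q ∣ N) (hN : N ≠ 0) :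
    ↥(primesIn (oddPrimes N)) :=
  ⟨⟨q, hq⟩, mem_primesIn.2 (mem_oddPrimes.2 ⟨hq, hqN, hN, hq2⟩)⟩

theorem hgoodS : Sg.good (Sg.Smin ∪ Sg.T) := by
  refine ⟨le_refl _, fun ℓ hℓ => ?_⟩
  rw [Finset.mem_union, Finset.mem_insert, Finset.mem_singleton] at hℓ
  rcases hℓ with (h | h) | h
  · exact h ▸ P.pp
  · exact h ▸ Nat.prime_two
  · exact prime_of_mem_oddPrimes h

theorem hgoodQ (r : ℕ) (qv : Fin r → ℕ) (hqv : ∀ i, (qv i).Prime ∧ qv i ∉ Sg.S) :
    Sg.good (Sg.Smin ∪ Sg.T ∪ Finset.univ.image qv) := by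
  refine ⟨Finset.subset_union_left, fun ℓ hℓ => ?_⟩
  rw [Finset.mem_union] at hℓ
  rcases hℓ with h | h
  · exact Sg.hgoodS.2 ℓ h
  · obtain ⟨i, -, rfl⟩ := Finset.mem_image.1 h
    exact (hqv i).1

end SideGal

/-! ### existence -/

/-- `det ρ̄(Φ_v) = v`, in the form: a scalar `a` with `ρ̄(Φ_v) = a • 1` satisfies `a² = v` -/
theorem sq_eq_natCast_of_frob_scalar {𝒪 : Type} [CommRing 𝒪] [IsDomain 𝒪]
    [IsDiscreteValuationRing 𝒪] [IsAdicComplete (maximalIdeal 𝒪) 𝒪] (p : ℕ) [Fact p.Prime]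
    (ρbar : ResidualGaloisRep (ResidueField 𝒪))
    (hdet : (GaloisRepAdic.ofResidualGaloisRep ρbar).DetIsCyclotomic p)
    (bbar : Module.Basis (Fin 2) (ResidueField 𝒪) ρbar.V) (v : Nat.Primes) (hpv : p ≠ (v : ℕ))
    (a : ResidueField 𝒪)
    (ha : Dict.resHom ρbar bbar (globFrobAt v) =
      a • (1 : Matrix (Fin 2) (Fin 2) (ResidueField 𝒪))) :
    a ^ 2 = ((v : ℕ) : ResidueField 𝒪) := by
  haveI := Fermat.Agent.S58lib.Cmp.isHausdorff_maximalIdeal_field (ResidueField 𝒪)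
  have h1 := det_matOf_globFrobAt p (GaloisRepAdic.ofResidualGaloisRep ρbar) hdet bbar v hpv
  have h2 : matOf (GaloisRepAdic.ofResidualGaloisRep ρbar) bbar (globFrobAt v) =
      Dict.resHom ρbar bbar (globFrobAt v) := by
    rw [Dict.resHom_apply]
    rfl
  rw [h2, ha, Matrix.det_smul, Matrix.det_one, mul_one, Fintype.card_fin] at h1
  exact h1

/-- a squarefree level whose odd primes lie in `T` divides the twisted levels -/
theorem dvd_lvlTw_of_squarefree {p N : ℕ} (hN : Squarefree N) (hpN : ¬ p ∣ N) (S' : Finset ℕ)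
    (hS' : goodTw p (oddPrimes N) S') : N ∣ lvlTw p S' := by
  have hN0 : N ≠ 0 := hN.ne_zero
  rw [← Nat.prod_primeFactors_of_squarefree hN]
  refine Finset.prod_primes_dvd _ (fun ℓ hℓ => (Nat.prime_of_mem_primeFactors hℓ).prime) ?_
  intro ℓ hℓ
  have hℓp : ℓ.Prime := Nat.prime_of_mem_primeFactors hℓ
  have hℓN : ℓ ∣ N := Nat.dvd_of_mem_primeFactors hℓ
  by_cases h2 : ℓ = 2
  · rw [h2]
    exact two_dvd_lvlTw _ _
  · have hT : ℓ ∈ oddPrimes N := mem_oddPrimes.2 ⟨hℓp, hℓN, hN0, h2⟩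
    have hS : ℓ ∈ S' := hS'.1 (Finset.mem_union_right _ hT)
    have hne : ℓ ∉ ({p, 2} : Finset ℕ) := by
      rw [Finset.mem_insert, Finset.mem_singleton]
      rintro (h | h)
      · exact hpN (h ▸ hℓN)
      · exact h2 h
    rw [lvlTw_def]
    exact Dvd.dvd.mul_left (dvd_tp hℓp hS hne) (2 * tp p S')

/-- **GAL-ASM: the Galois-side data exist** under the hypotheses of `ModLevelBlock`. -/
theorem nonempty_sideGal (P : FreyPackage) (N : ℕ) (hcond : P.IsConductorLevel N)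
    (hpN : ¬ P.p ∣ N)
    (hirr : GaloisRepIsIrreducible (K := Qb) ℚ P.freyCurve P.p)
    (hmod : P.ModularRepOfLevel N)
    (hT : ∀ r : ℕ, r.Prime → r ≠ 2 → r ∣ N →
      P.GaloisRepUnramifiedAt r ∧ r ≡ 1 [MOD P.p] ∧ DecompScalarAt P r) :
    Nonempty (SideGal P N) := by
  have hp2 : P.p ≠ 2 := by have := P.hp5; omega
  obtain ⟨𝒪, i1, i2, i3, i4, i5, i6, i7, hpO, ⟨ζ, hζp, hζ1⟩, hsq⟩ :=
    Fermat.Agent.S43lib.Loc.exists_coeff_ring_zmod P.p hp2
  letI : Algebra (ZMod P.p) (ResidueField 𝒪) := ZMod.algebra _ P.p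
  -- `ζ² ≠ 1`
  have hζ2 : ((ζ : 𝒪ˣ) : 𝒪) ^ 2 ≠ 1 := by
    intro h
    apply hζ1
    have h2 : ζ ^ 2 = 1 := Units.ext (by rw [Units.val_pow_eq_pow_val, h, Units.val_one])
    have h3 := pow_gcd_eq_one.2 ⟨hζp, h2⟩
    have hcop : Nat.gcd P.p 2 = 1 := (Nat.coprime_primes P.pp Nat.prime_two).2 hp2
    rwa [hcop, pow_one] at h3
  -- a basis and the scalars
  let bbar : Module.Basis (Fin 2) (ResidueField 𝒪) (freyResidual P (ResidueField 𝒪)).V :=
    Module.finBasisOfFinrankEq _ _ (freyResidual P (ResidueField 𝒪)).finrank_eq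
  have hscal : ∀ v : Nat.Primes, (v : ℕ) ∈ oddPrimes N → ∀ g : Gloc v, ∃ a : ResidueField 𝒪,
      resHom (freyResidual P (ResidueField 𝒪)) bbar (rloc v g) =
        a • (1 : Matrix (Fin 2) (Fin 2) (ResidueField 𝒪)) := by
    intro v hv g
    obtain ⟨h1, h2, -, h3⟩ := mem_oddPrimes.1 hv
    exact freyResidual_hscal P bbar v (hT _ h1 h3 h2).2.2 g
  obtain ⟨φ₀', hφ₀'⟩ := exists_phi0 (freyResidual P (ResidueField 𝒪)) bbar (oddPrimes N) hscal
  have hp0 : ((P.p : ℕ) : ResidueField 𝒪) = 0 := by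
    rw [← map_natCast (residue 𝒪)]
    exact (residue_eq_zero_iff _).mpr hpO
  have hsqv : ∀ v : ↥(primesIn (oddPrimes N)),
      residue 𝒪 (φ₀' v) ^ 2 = ((((v : Nat.Primes) : ℕ)) : ResidueField 𝒪) := by
    intro v
    obtain ⟨-, hvN, -, -⟩ := mem_oddPrimes.1 (mem_primesIn.1 v.2)
    have hpv : P.p ≠ ((v : Nat.Primes) : ℕ) := fun h => hpN (h ▸ hvN)
    exact sq_eq_natCast_of_frob_scalar P.p _ (freyResidual_hdet P (ResidueField 𝒪)) bbar
      (v : Nat.Primes) hpv _ (hφ₀' v)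
  have hv1 : ∀ v : ↥(primesIn (oddPrimes N)),
      ((((v : Nat.Primes) : ℕ)) : ResidueField 𝒪) = 1 := by
    intro v
    obtain ⟨h1, h2, -, h3⟩ := mem_oddPrimes.1 (mem_primesIn.1 v.2)
    have hmodv : ((v : Nat.Primes) : ℕ) ≡ 1 [MOD P.p] := (hT _ h1 h3 h2).2.1
    haveI : CharP (ResidueField 𝒪) P.p := i7
    have := (CharP.natCast_eq_natCast (ResidueField 𝒪) P.p).2 hmodv
    rwa [Nat.cast_one] at this
  have hunit : ∀ v : ↥(primesIn (oddPrimes N)), IsUnit (φ₀' v) := by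
    intro v
    by_contra hnu
    have h0 : residue 𝒪 (φ₀' v) = 0 := (residue_eq_zero_iff _).mpr hnu
    have := hsqv v
    rw [h0, hv1 v] at this
    simp at this
  refine ⟨{ 𝒪 := 𝒪
            hp𝒪 := hpO
            ζ₀ := ζ
            ζ₀_pow := by rw [← Units.val_pow_eq_pow_val, hζp, Units.val_one]
            ζ₀_sq := hζ2
            hk := hsq
            bbar := bbar
            φ₀ := fun v => (hunit v).unit
            hφ₀ := fun v => by rw [IsUnit.unit_spec]; exact hφ₀' v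
            hφ₀sq := fun v => by
              rw [IsUnit.unit_spec, ← residue_eq_zero_iff, map_sub, map_pow, hsqv v, map_natCast,
                sub_self]
            D := Classical.choice (nonempty_heckeFam_tw P (oddPrimes N) hp2 hpO hirr hmod
              (dvd_lvlTw_of_squarefree hcond.squarefree hpN)) }⟩

end Fermat.Agent.S43lib.B3
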