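/-
S43lib / B3 / Taut (helper4): **the tautological deformation condition attached to a representation `ρ₀` over an
`𝒪`-algebra `R₀`**, and the deformation ring data it defines.

`TautCond ρ₀ ρ` : `ρ` (over `A`) is equivalent to the base change of `ρ₀` along a local `𝒪`-algebra map `R₀ → A`.

* `TautCond.self`, `TautCond.of_isEquiv`, `TautCond.baseChange`, `TautCond.tanRep` (stability under equivalence and
  base change: the hypotheses `hEiso`, `hEbc` of `tw_relTan_flatFam`);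
* `algHom_eq_of_charpoly` : two `𝒪`-algebra maps out of the ring `T` of a Hecke datum `H` which give the same
  characteristic polynomials of Frobenius are equal (`T` is generated by the traces of Frobenius);
* `tautDeformationRingData` : `(T, H.ρ)` is a `DeformationRingData` for `𝒟 ∧ TautCond H.ρ` as soon as `𝒟 H.ρ`.
-/
import Mathlib
import Fermat.Prelude.Def_CuspForm_HeckeGaloisRepDatum
import Fermat.Prelude.Def_GaloisRep_DeformationRingData
import Fermat.Agent.Helper5.FrobExists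
import Fermat.Agent.Helper5.CharpolyEquiv
import Fermat.Agent.S56lib.Dict.TangentMap

set_option autoImplicit false
set_option linter.unusedSectionVars false
set_option linter.style.haveILetI false

noncomputable section

namespace Fermat.Agent.S43lib.B3

open IsLocalRing Polynomial Fermat.Agent.TeamA Fermat.Agent.TeamA.Rep Fermat.Agent.S56lib.Dict
  Fermat.Agent.Helper5

attribute [local instance] dualNumberAlgebra

section Cond

variable {𝒪 : Type} [CommRing 𝒪]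
variable {R₀ : Type} [CommRing R₀] [IsLocalRing R₀] [Algebra 𝒪 R₀]

/-- **the tautological condition**: `ρ` is equivalent to a base change of `ρ₀` along a local `𝒪`-algebra map -/
def TautCond (ρ₀ : GaloisRepAdic R₀) :
    ∀ ⦃A : Type⦄ [CommRing A] [IsLocalRing A] [Algebra 𝒪 A], GaloisRepAdic A → Prop :=
  fun A _ _ _ ρ => ∃ (φ : R₀ →ₐ[𝒪] A) (hφ : IsLocalHom (φ : R₀ →+* A)),
    (ρ₀.baseChangeAlong (φ : R₀ →+* A) hφ).IsEquiv ρ

variable {A : Type} [CommRing A] [IsLocalRing A] [Algebra 𝒪 A]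
variable {B : Type} [CommRing B] [IsLocalRing B] [Algebra 𝒪 B]

/-- an adic representation has a basis -/
theorem exists_basis_adic (ρ : GaloisRepAdic A) : Nonempty (Module.Basis (Fin 2) A ρ.V) :=
  ⟨Module.finBasisOfFinrankEq A ρ.V ρ.finrank_eq⟩

/-- base change along the identity -/
theorem baseChangeAlong_id_isEquiv (ρ : GaloisRepAdic A) (h : IsLocalHom (RingHom.id A)) :
    (ρ.baseChangeAlong (RingHom.id A) h).IsEquiv ρ := by
  obtain ⟨b⟩ := exists_basis_adic ρ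
  refine isEquiv_of_matOf_eq _ _ (bcBasis (RingHom.id A) h ρ b) b fun g => ?_
  rw [matOf_baseChangeAlong]
  ext i j
  rfl

/-- base change along a composition -/
theorem baseChangeAlong_comp_isEquiv {C : Type} [CommRing C] [IsLocalRing C] (ρ : GaloisRepAdic A)
    (φ : A →+* B) (hφ : IsLocalHom φ) (ψ : B →+* C) (hψ : IsLocalHom ψ) (hψφ : IsLocalHom (ψ.comp φ)) :
    ((ρ.baseChangeAlong φ hφ).baseChangeAlong ψ hψ).IsEquiv (ρ.baseChangeAlong (ψ.comp φ) hψφ) := by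
  obtain ⟨b⟩ := exists_basis_adic ρ
  refine isEquiv_of_matOf_eq _ _ (bcBasis ψ hψ _ (bcBasis φ hφ ρ b)) (bcBasis (ψ.comp φ) hψφ ρ b)
    fun g => ?_
  rw [matOf_baseChangeAlong, matOf_baseChangeAlong, matOf_baseChangeAlong]
  ext i j
  rfl

theorem TautCond.self (ρ₀ : GaloisRepAdic R₀) : TautCond (𝒪 := 𝒪) ρ₀ ρ₀ := by
  have h : IsLocalHom ((AlgHom.id 𝒪 R₀ : R₀ →ₐ[𝒪] R₀) : R₀ →+* R₀) := ⟨fun a ha => ha⟩
  exact ⟨AlgHom.id 𝒪 R₀, h, baseChangeAlong_id_isEquiv ρ₀ h⟩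

theorem TautCond.of_isEquiv {ρ₀ : GaloisRepAdic R₀} {ρ ρ' : GaloisRepAdic A} (h : ρ.IsEquiv ρ')
    (hρ : TautCond (𝒪 := 𝒪) ρ₀ ρ) : TautCond (𝒪 := 𝒪) ρ₀ ρ' := by
  obtain ⟨φ, hφ, ⟨e⟩⟩ := hρ
  obtain ⟨e'⟩ := h
  exact ⟨φ, hφ, ⟨e.trans e'⟩⟩

theorem TautCond.baseChange {ρ₀ : GaloisRepAdic R₀} {ρ : GaloisRepAdic A}
    (hρ : TautCond (𝒪 := 𝒪) ρ₀ ρ) (ψ : A →ₐ[𝒪] B) (hψ : IsLocalHom (ψ : A →+* B)) :
    TautCond (𝒪 := 𝒪) ρ₀ (ρ.baseChangeAlong (ψ : A →+* B) hψ) := by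
  obtain ⟨φ, hφ, ⟨e⟩⟩ := hρ
  have hψφ : IsLocalHom ((ψ.comp φ : R₀ →ₐ[𝒪] B) : R₀ →+* B) := by
    constructor
    intro a ha
    have h1 : IsUnit ((ψ : A →+* B) ((φ : R₀ →+* A) a)) := ha
    exact hφ.map_nonunit a (hψ.map_nonunit _ h1)
  refine ⟨ψ.comp φ, hψφ, ?_⟩
  obtain ⟨e₁⟩ := baseChangeAlong_comp_isEquiv ρ₀ (φ : R₀ →+* A) hφ (ψ : A →+* B) hψ hψφ
  exact ⟨e₁.symm.trans (e.baseChangeAlong (ψ : A →+* B) hψ)⟩

end Cond

section Hecke

variable {𝒪 : Type} [CommRing 𝒪] [IsDomain 𝒪] [IsDiscreteValuationRing 𝒪]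
  [IsAdicComplete (maximalIdeal 𝒪) 𝒪]
variable {N : ℕ} [NeZero N] {S : Set ℕ} {θ : CuspForm.heckeAlgebra N 2 S →+* ResidueField 𝒪}
  {T : Type} [CommRing T] [IsLocalRing T] [IsNoetherianRing T]
  [IsAdicComplete (maximalIdeal T) T] [Algebra 𝒪 T] [IsLocalHom (algebraMap 𝒪 T)]
  [Module.Finite 𝒪 T] [Module.Free 𝒪 T]

/-- **`T` is generated by the traces of Frobenius**: two `𝒪`-algebra maps out of `T` giving the same characteristic
polynomials of all elements of `G_ℚ` are equal. -/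
theorem algHom_eq_of_charpoly (H : CuspForm.HeckeGaloisRepDatum N S 𝒪 θ T)
    (hS : ∀ q : ℕ, q.Prime → q ∣ N → q ∈ S)
    {A : Type} [CommRing A] [Algebra 𝒪 A] (φ φ' : T →ₐ[𝒪] A)
    (h : ∀ σ : AlgebraicClosure ℚ ≃ₐ[ℚ] AlgebraicClosure ℚ,
      (LinearMap.charpoly (H.ρ.ρ σ)).map (φ : T →+* A) =
        (LinearMap.charpoly (H.ρ.ρ σ)).map (φ' : T →+* A)) : φ = φ' := by
  have hT : ∀ (ℓ : ℕ) (hℓ : ℓ.Prime) (hℓN : ¬ ℓ ∣ N) (hℓS : ℓ ∉ S),
      φ (H.π (CuspForm.heckeAlgebra.T hℓ hℓN hℓS)) = φ' (H.π (CuspForm.heckeAlgebra.T hℓ hℓN hℓS)) := by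
    intro ℓ hℓ hℓN hℓS
    obtain ⟨P, σ, hP, hσ⟩ := exists_isFrobeniusAt ℓ hℓ
    have h1 := H.charpoly_frob ℓ hℓ hℓN hℓS P hP σ hσ
    have h2 := h σ
    rw [h1] at h2
    have h3 := congrArg (fun p : A[X] => p.coeff 1) h2
    simp only [coeff_map, coeff_add, coeff_sub, coeff_X_pow, coeff_C_mul, coeff_X_one,
      coeff_C] at h3
    norm_num at h3
    exact h3
  have hπ : ∀ t : CuspForm.heckeAlgebra N 2 S, φ (H.π t) = φ' (H.π t) := by
    rintro ⟨x, hx⟩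
    induction hx using Algebra.adjoin_induction with
    | mem x hx =>
      rcases hx with ⟨ℓ, hℓ, hℓN, hℓS, rfl⟩ | ⟨q, hqN, hq, hqS, rfl⟩
      · exact hT ℓ hℓ hℓN hℓS
      · exact absurd (hS q hq hqN) hqS
    | algebraMap r =>
      have : (⟨algebraMap ℤ _ r, Subalgebra.algebraMap_mem _ r⟩ : CuspForm.heckeAlgebra N 2 S)
          = ((r : ℤ) : CuspForm.heckeAlgebra N 2 S) := by
        apply Subtype.ext
        simp
      rw [this, map_intCast, map_intCast, map_intCast]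
    | add x y hx hy ihx ihy =>
      have : (⟨x + y, Subalgebra.add_mem _ hx hy⟩ : CuspForm.heckeAlgebra N 2 S)
          = ⟨x, hx⟩ + ⟨y, hy⟩ := rfl
      rw [this, map_add, map_add, map_add, ihx, ihy]
    | mul x y hx hy ihx ihy =>
      have : (⟨x * y, Subalgebra.mul_mem _ hx hy⟩ : CuspForm.heckeAlgebra N 2 S)
          = ⟨x, hx⟩ * ⟨y, hy⟩ := rfl
      rw [this, map_mul, map_mul, map_mul, ihx, ihy]
  apply AlgHom.ext_of_adjoin_eq_top H.adjoin_range_π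
  rintro _ ⟨t, rfl⟩
  exact hπ t

/-- **the tautological deformation ring data** of a Hecke datum: `(T, H.ρ)` is universal for the condition
`𝒟 ∧ TautCond H.ρ`, for any condition `𝒟` satisfied by `H.ρ`. -/
def tautDeformationRingData (H : CuspForm.HeckeGaloisRepDatum N S 𝒪 θ T)
    (hS : ∀ q : ℕ, q.Prime → q ∣ N → q ∈ S)
    (ρbar : ResidualGaloisRep (ResidueField 𝒪)) (habs : ρbar.IsAbsolutelyIrreducible)
    (hres : H.ρ.residual.IsEquiv (ρbar.baseChangeAlong (ResidueField.map (algebraMap 𝒪 T))))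
    (𝒟 : ∀ ⦃A : Type⦄ [CommRing A] [IsLocalRing A] [Algebra 𝒪 A], GaloisRepAdic A → Prop)
    (h𝒟 : 𝒟 H.ρ) :
    GaloisRep.DeformationRingData 𝒪 ρbar (fun _A _ _ _ ρ => 𝒟 ρ ∧ TautCond (𝒪 := 𝒪) H.ρ ρ) where
  R := T
  residue_surjective := H.residue_surjective
  absIrr := habs
  ρ := H.ρ
  isOfType := ⟨h𝒟, TautCond.self H.ρ⟩
  residual_isEquiv := hres
  universal := by
    intro A _ _ _ _ _ _ _ ρA hρA _
    obtain ⟨φ, hφ, ⟨e⟩⟩ := hρA.2
    refine ⟨φ, ⟨hφ, ⟨e⟩⟩, ?_⟩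
    rintro φ' ⟨hφ', ⟨e'⟩⟩
    apply algHom_eq_of_charpoly H hS
    intro σ
    rw [← charpoly_baseChangeAlong (φ' : T →+* A) hφ' H.ρ σ,
      ← charpoly_baseChangeAlong (φ : T →+* A) hφ H.ρ σ]
    exact (charpoly_eq_of_equiv (e'.trans e.symm) σ).symm

/-- the tautological condition passes to the tangent representations of any deformation ring data whose universal
representation satisfies it (`hEbc` of `tw_relTan_flatFam`) -/
theorem TautCond.tanRep {R₀ : Type} [CommRing R₀] [IsLocalRing R₀] [Algebra 𝒪 R₀] {ρ₀ : GaloisRepAdic R₀}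
    {ρbar : ResidualGaloisRep (ResidueField 𝒪)}
    {𝒟 : ∀ ⦃A : Type⦄ [CommRing A] [IsLocalRing A] [Algebra 𝒪 A], GaloisRepAdic A → Prop}
    (DQ : GaloisRep.DeformationRingData 𝒪 ρbar 𝒟) (hDQ : TautCond (𝒪 := 𝒪) ρ₀ DQ.ρ)
    (φ : DQ.R →ₐ[𝒪] DualNumber (ResidueField 𝒪)) : TautCond (𝒪 := 𝒪) ρ₀ (tanRep DQ φ) :=
  TautCond.baseChange hDQ φ (isLocalHom_of_isTestAlg φ)

end Hecke

end Fermat.Agent.S43lib.B3
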